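import Fermat.Agent.Heights.Chart
import Fermat.Agent.RedInj.RRAux
import Fermat.Prelude.Def_AlgebraicCurve_BaseChangeGalois

/-!
# Galois equivariant charts
-/

set_option autoImplicit false
set_option linter.unusedSectionVars false

noncomputable section

open AlgebraicCurve Module Fermat.Agent.RR

namespace Fermat.Agent.Heights

variable {K F : Type*} [Field K] [Field F] [Algebra K F]

/-- (3) curves with Riemann-Roch from `IsFF`. -/
theorem RRCurve.of_isFF [IsAlgClosed K] [FF.IsFF K F] : RRCurve K F where
  toHasPrincipalDivisors := inferInstance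
  nonempty := RedInj.instNonemptyPlace
  finiteResidue := RedInj.instFiniteResiduePlace
  ell_eq' D hD := RedInj.ell_eq' (by omega)

theorem smul_smul' (g : SemilinearAut K F) (a : K) (f : F) :
    g • (a • f) = (SemilinearAut.baseAut g a) • (g • f) := by
  rw [Algebra.smul_def, smul_mul', SemilinearAut.smul_algebraMap, ← Algebra.smul_def]

/-- The action on Riemann-Roch spaces. -/
theorem smul_mem_riemannRochSpace (g : SemilinearAut K F) {D : Divisor K F} {f : F}
    (hf : f ∈ riemannRochSpace D) : g • f ∈ riemannRochSpace (g • D) := by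
  rw [mem_riemannRochSpace_iff] at hf ⊢
  intro v
  rcases hf (g⁻¹ • v) with h | h
  · left; rw [h, smul_zero]
  · right
    have h1 := SemilinearAut.ord_smul g (g⁻¹ • v) f
    rw [smul_inv_smul] at h1
    rw [h1, SemilinearAut.divisor_smul_apply]
    exact h

theorem smul_mem_LL (g : SemilinearAut K F) {X : Divisor K F} {f : F}
    (hf : f ∈ LL X) : g • f ∈ LL (g • X) := by
  have := smul_mem_riemannRochSpace g hf
  rwa [smul_neg] at this

variable {G : Type*} [Group G] (act : G →* SemilinearAut K F)

/-- (1) -/
theorem exists_fixed_chart [RRCurve K F] (o : Place K F) (M : ℕ)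
    (hspan : Submodule.span K {f | f ∈ riemannRochSpace (Finsupp.single o (M : ℤ)) ∧
      ∀ g, act g • f = f} = riemannRochSpace (Finsupp.single o (M : ℤ))) :
    ∃ ch : Chart K o M, ∀ (g : G) (x : ch.ι → K),
      act g • ch.e x = ch.e (fun i => SemilinearAut.baseAut (act g) (x i)) := by
  classical
  set V : Submodule K F := riemannRochSpace (Finsupp.single o (M : ℤ)) with hV
  have hVfin : FiniteDimensional K V := finiteDimensional_riemannRochSpace _
  obtain ⟨b, hbs, hspanb, hli⟩ := exists_linearIndependent K {f | f ∈ V ∧ ∀ g, act g • f = f}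
  have hbspan : Submodule.span K b = V := hspanb.trans hspan
  have hbfin : Finite b := by
    have hli' : LinearIndependent K (fun x : b => (⟨x, (hbs x.2).1⟩ : V)) := by
      apply LinearIndependent.of_comp V.subtype
      exact hli
    exact hli'.finite
  obtain ⟨n, ⟨eqv⟩⟩ := Finite.exists_equiv_fin b
  let bb : Fin n → F := fun i => eqv.symm i
  have hbbli : LinearIndependent K bb := hli.comp _ eqv.symm.injective
  have hbbspan : Submodule.span K (Set.range bb) = V := by
    rw [← hbspan]
    congr 1
    ext x
    constructor
    · rintro ⟨i, rfl⟩; exact (eqv.symm i).2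
    · intro hx; exact ⟨eqv ⟨x, hx⟩, by simp [bb]⟩
  let e : (Fin n → K) →ₗ[K] F := Fintype.linearCombination K bb
  have he : Function.Injective e := hbbli.fintypeLinearCombination_injective
  obtain ⟨c, hc⟩ := LinearMap.exists_leftInverse_of_injective e (LinearMap.ker_eq_bot.mpr he)
  refine ⟨{ ι := Fin n
            fin := inferInstance
            e := e
            c := c
            ce := fun x => LinearMap.congr_fun hc x
            range_e := ?_ }, ?_⟩
  · have h1 : LinearMap.range e = Submodule.span K (Set.range bb) :=
      Fintype.range_linearCombination K bb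
    rw [h1, hbbspan, hV]
    unfold LL
    congr 1
    rw [Finsupp.single_neg, neg_neg]
  · intro g x
    change act g • e x = e (fun i => SemilinearAut.baseAut (act g) (x i))
    simp only [e, Fintype.linearCombination_apply]
    rw [Finset.smul_sum]
    refine Finset.sum_congr rfl fun i _ => ?_
    rw [smul_smul']
    congr 1
    exact (hbs (eqv.symm i).2).2 g

/-- (2) -/
theorem smul_mem_S [RRCurve K F] {o : Place K F} {M : ℕ} (ch : Chart K o M)
    (hch : ∀ (g : G) (x : ch.ι → K),
      act g • ch.e x = ch.e (fun i => SemilinearAut.baseAut (act g) (x i)))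
    {X : Divisor K F} (hX : ∀ g, act g • X = X) (hoX : Finsupp.single o (-(M : ℤ)) ≤ X) (g : G)
    {x : ch.ι → K} (hx : x ∈ ch.S X) :
    (fun i => SemilinearAut.baseAut (act g) (x i)) ∈ ch.S X := by
  have h1 : ch.e x ∈ LL X := ch.e_mem_of_mem_S hoX hx
  have h2 := smul_mem_LL (act g) h1
  rw [hX, hch] at h2
  have h3 := ch.c_mem_S h2
  rwa [ch.ce] at h3

end Fermat.Agent.Heights
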