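import Mathlib.RingTheory.Nullstellensatz
import Mathlib.Analysis.SpecialFunctions.Log.Basic
import Mathlib.Algebra.Order.AbsoluteValue.Basic
import Mathlib.Analysis.Normed.Unbundled.RingSeminorm
import Mathlib.LinearAlgebra.Matrix.Determinant.Basic

/-!
# Families of absolute values, adelic constants and uniform Nullstellensatz bounds
-/

set_option autoImplicit false

noncomputable section

open scoped NNReal

namespace Fermat.Agent.Heights

/-- A family of absolute values on `E` fibred over a type `V` of places. -/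
structure AbsFam (E : Type*) [Field E] where
  V : Type
  Pt : Type
  pl : Pt → V
  abs : Pt → AbsoluteValue E ℝ
  arch : Finset V
  nonarch : ∀ w, pl w ∉ arch → ∀ x y : E, abs w (x + y) ≤ max (abs w x) (abs w y)
  bdd : ∀ c : E, ∃ C : V →₀ ℝ≥0, ∀ w, abs w c ≤ Real.exp (C (pl w))

variable {E : Type*} [Field E] (A : AbsFam E)

/-- adelic constants -/
abbrev ACon := A.V →₀ ℝ≥0

/-- multiplicative form of an adelic constant at a point -/
def cst (C : ACon A) (w : A.Pt) : ℝ := Real.exp (C (A.pl w))

variable {A}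

theorem cst_pos (C : ACon A) (w : A.Pt) : 0 < cst A C w := Real.exp_pos _

theorem one_le_cst (C : ACon A) (w : A.Pt) : 1 ≤ cst A C w :=
  Real.one_le_exp (NNReal.coe_nonneg _)

theorem cst_add (C D : ACon A) (w : A.Pt) : cst A (C + D) w = cst A C w * cst A D w := by
  simp [cst, Real.exp_add]

theorem cst_zero (w : A.Pt) : cst A 0 w = 1 := by simp [cst]

theorem cst_nsmul (n : ℕ) (C : ACon A) (w : A.Pt) : cst A (n • C) w = cst A C w ^ n := by
  induction n with
  | zero => simp [cst_zero]
  | succ n ih => rw [succ_nsmul, cst_add, ih, pow_succ]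

theorem cst_mono {C D : ACon A} (h : C ≤ D) (w : A.Pt) : cst A C w ≤ cst A D w := by
  apply Real.exp_le_exp.mpr
  exact_mod_cast h (A.pl w)

theorem cst_le_add_left (C D : ACon A) (w : A.Pt) : cst A C w ≤ cst A (C + D) w :=
  cst_mono (by intro v; simp) w

theorem cst_le_add_right (C D : ACon A) (w : A.Pt) : cst A D w ≤ cst A (C + D) w :=
  cst_mono (by intro v; simp) w

theorem log_cst (C : ACon A) (w : A.Pt) : Real.log (cst A C w) = C (A.pl w) := by
  simp [cst]

/-- A finite family of adelic constants is bounded by one of them. -/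
theorem cst_le_sum {ι : Type*} [Fintype ι] (C : ι → ACon A) (i : ι) (w : A.Pt) :
    cst A (C i) w ≤ cst A (∑ j, C j) w := by
  classical
  apply cst_mono
  exact Finset.single_le_sum (f := C) (fun _ _ => zero_le) (Finset.mem_univ i)

variable (A)

/-- Uniform bound for finite sums. -/
theorem exists_sum_le (ι : Type*) [Fintype ι] : ∃ C : ACon A, ∀ (w : A.Pt) (x : ι → E) (B : ℝ),
    0 ≤ B → (∀ i, A.abs w (x i) ≤ B) → A.abs w (∑ i, x i) ≤ cst A C w * B := by
  classical
  -- the constant: log (max 1 card) on the archimedean places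
  let c : ℝ≥0 := ⟨Real.log (max (1 : ℝ) (Fintype.card ι : ℝ)), Real.log_nonneg (le_max_left _ _)⟩
  let C : ACon A := Finsupp.indicator A.arch (fun _ _ => c)
  refine ⟨C, fun w x B hB hx => ?_⟩
  by_cases hw : A.pl w ∈ A.arch
  · have h1 : cst A C w = max (1 : ℝ) (Fintype.card ι : ℝ) := by
      have : C (A.pl w) = c := by
        simp only [C, Finsupp.indicator_of_mem hw]
      unfold cst
      rw [this]
      show Real.exp (Real.log _) = _
      rw [Real.exp_log]
      exact lt_of_lt_of_le one_pos (le_max_left _ _)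
    rw [h1]
    calc A.abs w (∑ i, x i) ≤ ∑ i, A.abs w (x i) := (A.abs w).sum_le _ _
      _ ≤ ∑ i : ι, B := Finset.sum_le_sum (fun i _ => hx i)
      _ = Fintype.card ι * B := by simp
      _ ≤ _ := by
          apply mul_le_mul_of_nonneg_right _ hB
          exact le_max_right _ _
  · have h2 : ∀ s : Finset ι, A.abs w (∑ i ∈ s, x i) ≤ B := by
      intro s
      induction s using Finset.induction_on with
      | empty => simpa using hB
      | insert a s ha ih =>
          rw [Finset.sum_insert ha]
          exact (A.nonarch w hw _ _).trans (max_le (hx a) ih)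
    calc A.abs w (∑ i, x i) ≤ 1 * B := by simpa using h2 Finset.univ
      _ ≤ _ := mul_le_mul_of_nonneg_right (one_le_cst _ _) hB

/-- Uniform bound for sums of two elements. -/
theorem exists_add_le : ∃ C : ACon A, ∀ (w : A.Pt) (x y : E) (B : ℝ),
    A.abs w x ≤ B → A.abs w y ≤ B → A.abs w (x + y) ≤ cst A C w * B := by
  obtain ⟨C, hC⟩ := exists_sum_le A (Fin 2)
  refine ⟨C, fun w x y B hx hy => ?_⟩
  have := hC w ![x, y] B (((A.abs w).nonneg x).trans hx) (by
    intro i; fin_cases i
    · exact hx
    · exact hy)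
  simpa [Fin.sum_univ_two] using this

/-- Uniform bound for a finite family of constants. -/
theorem exists_const_le {ι : Type*} [Finite ι] (c : ι → E) :
    ∃ C : ACon A, ∀ (w : A.Pt) (i : ι), A.abs w (c i) ≤ cst A C w := by
  have := Fintype.ofFinite ι
  choose C hC using fun i => A.bdd (c i)
  exact ⟨∑ i, C i, fun w i => (hC i w).trans (cst_le_sum C i w)⟩

/-- Uniform lower bound for a finite family of nonzero constants. -/
theorem exists_const_ge {ι : Type*} [Finite ι] (c : ι → E) (hc : ∀ i, c i ≠ 0) :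
    ∃ C : ACon A, ∀ (w : A.Pt) (i : ι), 1 ≤ cst A C w * A.abs w (c i) := by
  obtain ⟨C, hC⟩ := exists_const_le A (fun i => (c i)⁻¹)
  refine ⟨C, fun w i => ?_⟩
  have h1 := hC w i
  rw [map_inv₀] at h1
  have h2 : 0 < A.abs w (c i) := (A.abs w).pos (hc i)
  rwa [inv_le_iff_one_le_mul₀ h2] at h1

/-- Polynomials are uniformly bounded on the unit polydisc. -/
theorem exists_eval_le {τ : Type*} (p : MvPolynomial τ E) :
    ∃ C : ACon A, ∀ (w : A.Pt) (x : τ → E), (∀ i, A.abs w (x i) ≤ 1) →
      A.abs w (MvPolynomial.eval x p) ≤ cst A C w := by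
  induction p using MvPolynomial.induction_on with
  | C a =>
      obtain ⟨C, hC⟩ := A.bdd a
      exact ⟨C, fun w x _ => by simpa [cst] using hC w⟩
  | add p q hp hq =>
      obtain ⟨C, hC⟩ := hp
      obtain ⟨D, hD⟩ := hq
      obtain ⟨B, hB⟩ := exists_add_le A
      refine ⟨B + (C + D), fun w x hx => ?_⟩
      rw [map_add, cst_add B]
      exact hB w _ _ _ ((hC w x hx).trans (cst_le_add_left _ _ _))
        ((hD w x hx).trans (cst_le_add_right _ _ _))
  | mul_X p i hp =>
      obtain ⟨C, hC⟩ := hp
      refine ⟨C, fun w x hx => ?_⟩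
      rw [map_mul, map_mul, MvPolynomial.eval_X]
      calc _ ≤ cst A C w * 1 := mul_le_mul (hC w x hx) (hx i) ((A.abs w).nonneg _)
            (cst_pos _ _).le
        _ = _ := mul_one _

/-- polynomial functions -/
def IsPoly {τ : Type*} (f : (τ → E) → E) : Prop :=
  ∃ p : MvPolynomial τ E, ∀ x, f x = MvPolynomial.eval x p

namespace IsPoly

variable {τ : Type*}

theorem const (c : E) : IsPoly (fun _ : τ → E => c) := ⟨MvPolynomial.C c, fun x => by simp⟩

theorem coord (i : τ) : IsPoly (fun x : τ → E => x i) := ⟨MvPolynomial.X i, fun x => by simp⟩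

theorem add {f g : (τ → E) → E} (hf : IsPoly f) (hg : IsPoly g) :
    IsPoly (fun x => f x + g x) := by
  obtain ⟨p, hp⟩ := hf
  obtain ⟨q, hq⟩ := hg
  exact ⟨p + q, fun x => by simp only [map_add, hp, hq]⟩

theorem neg {f : (τ → E) → E} (hf : IsPoly f) : IsPoly (fun x => - f x) := by
  obtain ⟨p, hp⟩ := hf
  exact ⟨-p, fun x => by simp only [map_neg, hp]⟩

theorem sub {f g : (τ → E) → E} (hf : IsPoly f) (hg : IsPoly g) :
    IsPoly (fun x => f x - g x) := by
  obtain ⟨p, hp⟩ := hf
  obtain ⟨q, hq⟩ := hg
  exact ⟨p - q, fun x => by simp only [map_sub, hp, hq]⟩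

theorem mul {f g : (τ → E) → E} (hf : IsPoly f) (hg : IsPoly g) :
    IsPoly (fun x => f x * g x) := by
  obtain ⟨p, hp⟩ := hf
  obtain ⟨q, hq⟩ := hg
  exact ⟨p * q, fun x => by simp only [map_mul, hp, hq]⟩

theorem sum {α : Type*} (s : Finset α) {f : α → (τ → E) → E} (hf : ∀ a ∈ s, IsPoly (f a)) :
    IsPoly (fun x => ∑ a ∈ s, f a x) := by
  classical
  induction s using Finset.induction_on with
  | empty => simpa using const (τ := τ) (0 : E)
  | insert a s ha ih =>
      simp only [Finset.sum_insert ha]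
      exact (hf a (Finset.mem_insert_self a s)).add
        (ih fun b hb => hf b (Finset.mem_insert_of_mem hb))

theorem prod {α : Type*} (s : Finset α) {f : α → (τ → E) → E} (hf : ∀ a ∈ s, IsPoly (f a)) :
    IsPoly (fun x => ∏ a ∈ s, f a x) := by
  classical
  induction s using Finset.induction_on with
  | empty => simpa using const (τ := τ) (1 : E)
  | insert a s ha ih =>
      simp only [Finset.prod_insert ha]
      exact (hf a (Finset.mem_insert_self a s)).mul
        (ih fun b hb => hf b (Finset.mem_insert_of_mem hb))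

theorem det {α : Type*} [Fintype α] [DecidableEq α] {M : α → α → (τ → E) → E}
    (hM : ∀ i j, IsPoly (M i j)) :
    IsPoly (fun x => (Matrix.of fun i j => M i j x).det) := by
  simp only [Matrix.det_apply, Matrix.of_apply, Units.smul_def, zsmul_eq_mul]
  exact sum _ fun σ _ => (const _).mul (prod _ fun i _ => hM _ _)

/-- reindexing the variables -/
theorem comp {τ' : Type*} {f : (τ → E) → E} (hf : IsPoly f) (φ : τ → τ') :
    IsPoly (fun x : τ' → E => f (fun i => x (φ i))) := by
  obtain ⟨p, hp⟩ := hf
  exact ⟨MvPolynomial.rename φ p, fun x => by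
    simp only [hp, MvPolynomial.eval_rename]; rfl⟩

end IsPoly

/-- **Uniform Nullstellensatz bound**: if the polynomial functions `Q b` have no common zero on
the common zero set of the `P a`, then at least one of them is uniformly bounded from below at each
point of that zero set which lies in the unit polydisc. -/
theorem exists_uniform_lower_bound [IsAlgClosed E] {τ : Type*} [Finite τ] {α β : Type*} [Finite β]
    (P : α → (τ → E) → E) (Q : β → (τ → E) → E) (hP : ∀ a, IsPoly (P a)) (hQ : ∀ b, IsPoly (Q b))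
    (h : ∀ x : τ → E, (∀ a, P a x = 0) → ∃ b, Q b x ≠ 0) :
    ∃ C : ACon A, ∀ (w : A.Pt) (x : τ → E), (∀ a, P a x = 0) → (∀ i, A.abs w (x i) ≤ 1) →
      ∃ b, 1 ≤ cst A C w * A.abs w (Q b x) := by
  classical
  have := Fintype.ofFinite β
  choose p hp using hP
  choose q hq using hQ
  let I : Ideal (MvPolynomial τ E) := Ideal.span (Set.range p)
  let J : Ideal (MvPolynomial τ E) := Ideal.span (Set.range q)
  have hz : MvPolynomial.zeroLocus E (I ⊔ J) = ∅ := by
    ext x
    simp only [Set.mem_empty_iff_false, iff_false]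
    intro hx
    rw [MvPolynomial.mem_zeroLocus_iff] at hx
    have h1 : ∀ a, P a x = 0 := by
      intro a
      rw [hp]
      have := hx (p a) (Ideal.mem_sup_left (Ideal.subset_span ⟨a, rfl⟩))
      simpa [MvPolynomial.coe_aeval_eq_eval] using this
    obtain ⟨b, hb⟩ := h x h1
    apply hb
    rw [hq]
    have := hx (q b) (Ideal.mem_sup_right (Ideal.subset_span ⟨b, rfl⟩))
    simpa [MvPolynomial.coe_aeval_eq_eval] using this
  have hrad : (I ⊔ J).radical = ⊤ := by
    rw [← MvPolynomial.vanishingIdeal_zeroLocus_eq_radical (k := E) (K := E), hz]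
    rw [Ideal.eq_top_iff_one, MvPolynomial.mem_vanishingIdeal_iff]
    intro x hx
    exact absurd hx (Set.notMem_empty x)
  have htop : I ⊔ J = ⊤ := Ideal.radical_eq_top.mp hrad
  have h1 : (1 : MvPolynomial τ E) ∈ I ⊔ J := by rw [htop]; trivial
  obtain ⟨a, ha, b, hb, hab⟩ := Submodule.mem_sup.mp h1
  obtain ⟨s, hs⟩ := Ideal.mem_span_range_iff_exists_fun.mp hb
  choose D hD using fun b => exists_eval_le A (s b)
  obtain ⟨S, hS⟩ := exists_sum_le A β
  refine ⟨S + ∑ b, D b, fun w x hx hx1 => ?_⟩
  have ha0 : MvPolynomial.eval x a = 0 := by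
    have : I ≤ RingHom.ker (MvPolynomial.eval x) := by
      rw [Ideal.span_le]
      rintro _ ⟨i, rfl⟩
      show MvPolynomial.eval x (p i) = 0
      rw [← hp, hx]
    exact this ha
  have hsum : (1 : E) = ∑ b, MvPolynomial.eval x (s b) * Q b x := by
    have := congrArg (MvPolynomial.eval x) hab
    rw [map_add, ha0, zero_add, ← hs, map_sum, map_one] at this
    rw [← this]
    exact Finset.sum_congr rfl fun b _ => by rw [map_mul, hq]
  by_contra hcon
  push Not at hcon
  -- β nonempty
  rcases isEmpty_or_nonempty β with hβ | hβ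
  · simp at hsum
  obtain ⟨b₀, hb₀⟩ := Finite.exists_max (fun b => A.abs w (Q b x))
  have hle : A.abs w (1 : E) ≤ cst A S w * (cst A (∑ b, D b) w * A.abs w (Q b₀ x)) := by
    rw [hsum]
    refine hS w _ _ (mul_nonneg (cst_pos _ _).le ((A.abs w).nonneg _)) fun b => ?_
    rw [map_mul]
    exact mul_le_mul ((hD b w x hx1).trans (cst_le_sum D b w)) (hb₀ b) ((A.abs w).nonneg _)
      (cst_pos _ _).le
  rw [map_one, ← mul_assoc, ← cst_add] at hle
  exact absurd hle (not_le.mpr (hcon b₀))

end Fermat.Agent.Heights
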