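import Fermat.Agent.Heights.LinAlg

/-!
# Uniformly bounded families of functions up to principal functions
-/

set_option autoImplicit false

noncomputable section

open scoped NNReal

namespace Fermat.Agent.Heights

variable {E : Type*} [Field E] (A : AbsFam E) {I J : Type*}

/-- `t i` is, for all `i` satisfying `P`, bounded by an adelic constant independent of `i`, up to
the logarithm of a nonzero constant depending on `i`. -/
def Bdd (P : I → Prop) (t : I → A.Pt → ℝ) : Prop :=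
  ∃ C : ACon A, ∀ i, P i → ∃ c : E, c ≠ 0 ∧ ∀ w,
    |t i w - Real.log (A.abs w c)| ≤ C (A.pl w)

/-- one sided version -/
def Blw (P : I → Prop) (t : I → A.Pt → ℝ) : Prop :=
  ∃ C : ACon A, ∀ i, P i → ∃ c : E, c ≠ 0 ∧ ∀ w,
    -(C (A.pl w) : ℝ) ≤ t i w - Real.log (A.abs w c)

variable {A} {P : I → Prop} {Q : J → Prop} {s t : I → A.Pt → ℝ}

theorem Bdd.comp (h : Bdd A P t) (φ : J → I) (hφ : ∀ j, Q j → P (φ j)) :
    Bdd A Q (fun j => t (φ j)) := by
  obtain ⟨C, hC⟩ := h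
  exact ⟨C, fun j hj => hC _ (hφ j hj)⟩

theorem Bdd.mono {P' : I → Prop} (h : Bdd A P t) (hP : ∀ i, P' i → P i) : Bdd A P' t := by
  obtain ⟨C, hC⟩ := h
  exact ⟨C, fun j hj => hC _ (hP j hj)⟩

theorem Blw.mono {P' : I → Prop} (h : Blw A P t) (hP : ∀ i, P' i → P i) : Blw A P' t := by
  obtain ⟨C, hC⟩ := h
  exact ⟨C, fun j hj => hC _ (hP j hj)⟩

theorem Bdd.congr (h : Bdd A P t) (hst : ∀ i, P i → ∀ w, s i w = t i w) : Bdd A P s := by
  obtain ⟨C, hC⟩ := h
  refine ⟨C, fun i hi => ?_⟩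
  obtain ⟨c, hc, h⟩ := hC i hi
  exact ⟨c, hc, fun w => by rw [hst i hi w]; exact h w⟩

theorem log_abs_mul (w : A.Pt) {c d : E} (hc : c ≠ 0) (hd : d ≠ 0) :
    Real.log (A.abs w (c * d)) = Real.log (A.abs w c) + Real.log (A.abs w d) := by
  rw [map_mul, Real.log_mul ((A.abs w).pos hc).ne' ((A.abs w).pos hd).ne']

theorem log_abs_inv (w : A.Pt) (c : E) :
    Real.log (A.abs w c⁻¹) = - Real.log (A.abs w c) := by
  rw [map_inv₀, Real.log_inv]

theorem Bdd.zero : Bdd A P (fun _ _ => 0) :=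
  ⟨0, fun _ _ => ⟨1, one_ne_zero, fun w => by simp⟩⟩

theorem Bdd.add (hs : Bdd A P s) (ht : Bdd A P t) : Bdd A P (fun i w => s i w + t i w) := by
  obtain ⟨C, hC⟩ := hs
  obtain ⟨D, hD⟩ := ht
  refine ⟨C + D, fun i hi => ?_⟩
  obtain ⟨c, hc, h⟩ := hC i hi
  obtain ⟨d, hd, h'⟩ := hD i hi
  refine ⟨c * d, mul_ne_zero hc hd, fun w => ?_⟩
  rw [log_abs_mul w hc hd, Finsupp.add_apply, NNReal.coe_add]
  have h1 := h w
  have h2 := h' w
  rw [abs_le] at h1 h2 ⊢
  constructor <;> linarith [h1.1, h1.2, h2.1, h2.2]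

theorem Bdd.neg (hs : Bdd A P s) : Bdd A P (fun i w => - s i w) := by
  obtain ⟨C, hC⟩ := hs
  refine ⟨C, fun i hi => ?_⟩
  obtain ⟨c, hc, h⟩ := hC i hi
  refine ⟨c⁻¹, inv_ne_zero hc, fun w => ?_⟩
  rw [log_abs_inv w c]
  have h1 := h w
  rw [abs_le] at h1 ⊢
  constructor <;> linarith [h1.1, h1.2]

theorem Bdd.sub (hs : Bdd A P s) (ht : Bdd A P t) : Bdd A P (fun i w => s i w - t i w) :=
  (hs.add ht.neg).congr fun i _ w => sub_eq_add_neg _ _

theorem Bdd.nsmul (n : ℕ) (hs : Bdd A P s) : Bdd A P (fun i w => n * s i w) := by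
  induction n with
  | zero => exact Bdd.zero.congr fun i _ w => by simp
  | succ n ih => exact (ih.add hs).congr fun i _ w => by push_cast; ring

theorem Bdd.zsmul (n : ℤ) (hs : Bdd A P s) : Bdd A P (fun i w => n * s i w) := by
  obtain ⟨m, rfl | rfl⟩ := n.eq_nat_or_neg
  · exact (hs.nsmul m).congr fun i _ w => by push_cast; ring
  · exact (hs.nsmul m).neg.congr fun i _ w => by push_cast; ring

/-- transitivity helper: `s ≈ t` and `t` bounded -/
theorem Bdd.of_sub (hs : Bdd A P (fun i w => s i w - t i w)) (ht : Bdd A P t) : Bdd A P s :=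
  (hs.add ht).congr fun i _ w => by ring

theorem Bdd.blw (h : Bdd A P t) : Blw A P t := by
  obtain ⟨C, hC⟩ := h
  refine ⟨C, fun i hi => ?_⟩
  obtain ⟨c, hc, h⟩ := hC i hi
  exact ⟨c, hc, fun w => (abs_le.mp (h w)).1⟩

theorem Blw.comp (h : Blw A P t) (φ : J → I) (hφ : ∀ j, Q j → P (φ j)) :
    Blw A Q (fun j => t (φ j)) := by
  obtain ⟨C, hC⟩ := h
  exact ⟨C, fun j hj => hC _ (hφ j hj)⟩

theorem Blw.congr (h : Blw A P t) (hst : ∀ i, P i → ∀ w, s i w = t i w) : Blw A P s := by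
  obtain ⟨C, hC⟩ := h
  refine ⟨C, fun i hi => ?_⟩
  obtain ⟨c, hc, h⟩ := hC i hi
  exact ⟨c, hc, fun w => by rw [hst i hi w]; exact h w⟩

theorem Blw.add (hs : Blw A P s) (ht : Blw A P t) : Blw A P (fun i w => s i w + t i w) := by
  obtain ⟨C, hC⟩ := hs
  obtain ⟨D, hD⟩ := ht
  refine ⟨C + D, fun i hi => ?_⟩
  obtain ⟨c, hc, h⟩ := hC i hi
  obtain ⟨d, hd, h'⟩ := hD i hi
  refine ⟨c * d, mul_ne_zero hc hd, fun w => ?_⟩
  rw [log_abs_mul w hc hd, Finsupp.add_apply, NNReal.coe_add]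
  have h1 := h w
  have h2 := h' w
  linarith

/-- A family is bounded if for all indices there is a constant giving both bounds. -/
theorem Bdd.of_bounds (C D : ACon A) (h : ∀ i, P i → ∃ c : E, c ≠ 0 ∧ ∀ w,
    t i w ≤ Real.log (A.abs w c) + C (A.pl w) ∧ Real.log (A.abs w c) ≤ t i w + D (A.pl w)) :
    Bdd A P t := by
  refine ⟨C + D, fun i hi => ?_⟩
  obtain ⟨c, hc, h⟩ := h i hi
  refine ⟨c, hc, fun w => ?_⟩
  rw [Finsupp.add_apply, NNReal.coe_add, abs_le]
  have h1 := h w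
  have h2 := NNReal.coe_nonneg (C (A.pl w))
  have h3 := NNReal.coe_nonneg (D (A.pl w))
  constructor <;> linarith [h1.1, h1.2]

/-- The logarithm of the norm of a fixed nonzero vector is bounded. -/
theorem bdd_log_nrm {ι : Type*} [Finite ι] {x : ι → E} (hx : x ≠ 0) :
    Bdd A (fun _ : Unit => True) (fun _ w => Real.log (nrm w x)) := by
  obtain ⟨i, hi⟩ := Function.ne_iff.mp hx
  obtain ⟨C, hC⟩ := exists_const_le A x
  obtain ⟨D, hD⟩ := exists_const_ge A (fun _ : Unit => x i) (fun _ => hi)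
  refine Bdd.of_bounds C D fun _ _ => ⟨1, one_ne_zero, fun w => ?_⟩
  rw [map_one, Real.log_one, zero_add]
  have hpos := nrm_pos w hx
  constructor
  · rw [← log_cst]
    exact Real.log_le_log hpos (nrm_le (cst_pos _ _).le fun i => hC w i)
  · have h1 : 1 ≤ cst A D w * nrm w x :=
      (hD w ()).trans (mul_le_mul_of_nonneg_left (le_nrm w x i) (cst_pos _ _).le)
    have h2 := Real.log_le_log one_pos h1
    rw [Real.log_one, Real.log_mul (cst_pos _ _).ne' hpos.ne', log_cst] at h2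
    linarith

/-- The local height of a fixed subspace is bounded. -/
theorem bdd_T {ι : Type*} [Finite ι] (W : Submodule E (ι → E)) :
    Bdd A (fun _ : Unit => True) (fun _ w => T W w) := by
  obtain ⟨s, hs⟩ := exists_mnr_ne_zero (bas_li W)
  obtain ⟨C, hC⟩ := exists_const_le A (fun s : Fin (Module.finrank E W) → ι => mnr (bas W) s)
  obtain ⟨D, hD⟩ := exists_const_ge A (fun _ : Unit => mnr (bas W) s) (fun _ => hs)
  refine Bdd.of_bounds C D fun _ _ => ⟨1, one_ne_zero, fun w => ?_⟩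
  rw [map_one, Real.log_one, zero_add]
  have hpos := plk_pos w (bas_li W)
  constructor
  · rw [← log_cst]
    exact Real.log_le_log hpos (plk_le (cst_pos _ _).le fun i => hC w i)
  · have h1 : 1 ≤ cst A D w * plk w (bas W) :=
      (hD w ()).trans (mul_le_mul_of_nonneg_left (le_plk w _ s) (cst_pos _ _).le)
    have h2 := Real.log_le_log one_pos h1
    rw [Real.log_one, Real.log_mul (cst_pos _ _).ne' hpos.ne', log_cst] at h2
    show 0 ≤ Real.log (plk w (bas W)) + _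
    linarith

end Fermat.Agent.Heights
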