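import Fermat.Agent.RR.Weil
import Fermat.Prelude.Def_AlgebraicCurve_IsCurveOver
import Mathlib.GroupTheory.CosetCover
import Mathlib.Algebra.Algebra.Operations

/-!
# Pencils on curves over an algebraically closed field

`LL X = L(-X)`; surjectivity of multiplication maps and a characterisation of the spaces `LL X`
among all finite dimensional spaces of functions by a rank condition.
-/

set_option autoImplicit false

noncomputable section

open AlgebraicCurve Module Fermat.Agent.RR WithZero
open scoped IntermediateField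

namespace Fermat.Agent.Heights

/-- Curves with the Riemann-Roch formula in large degree. -/
class RRCurve (K F : Type*) [Field K] [Field F] [Algebra K F] : Prop
    extends HasPrincipalDivisors K F where
  nonempty : Nonempty (Place K F)
  finiteResidue : ∀ v : Place K F, v.FiniteResidue
  ell_eq' : ∀ D : Divisor K F, 2 * (genusFF K F : ℤ) - 1 ≤ Divisor.degree D →
    (finrank K (riemannRochSpace D) : ℤ) = Divisor.degree D + 1 - genusFF K F

variable {K F : Type*} [Field K] [Field F] [Algebra K F]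

theorem RRCurve.of_transcendental [IsAlgClosed K] [HasPrincipalDivisors K F]
    [Nonempty (Place K F)] [∀ v : Place K F, v.FiniteResidue] (x : F) (hx : Transcendental K x)
    [FiniteDimensional K⟮x⟯ F] : RRCurve K F where
  nonempty := inferInstance
  finiteResidue := inferInstance
  ell_eq' D hD := by
    have h0 : ell (0 : Divisor K F) = 1 := ell_zero
    have := ell_eq (K := K) x hx (D := D) (by rw [h0]; push_cast; omega)
    rw [h0] at this
    exact_mod_cast this

instance [h : RRCurve K F] : Nonempty (Place K F) := h.nonempty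

instance [h : RRCurve K F] (v : Place K F) : v.FiniteResidue := h.finiteResidue v

/-- functions with divisor at least `X` -/
def LL (X : Divisor K F) : Submodule K F := riemannRochSpace (-X)

section basic

variable [RRCurve K F]

instance (X : Divisor K F) : FiniteDimensional K (LL X) :=
  finiteDimensional_riemannRochSpace (-X)

theorem mem_LL {X : Divisor K F} {f : F} (hf : f ≠ 0) : f ∈ LL X ↔ X ≤ div f := by
  unfold LL
  rw [mem_riemannRochSpace_iff_div hf, ← sub_eq_add_neg, sub_nonneg]

theorem mem_LL' {X : Divisor K F} {f : F} : f ∈ LL X ↔ f = 0 ∨ X ≤ div f := by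
  rcases eq_or_ne f 0 with rfl | hf
  · simp
  · rw [mem_LL hf]; simp [hf]

theorem LL_anti {X Y : Divisor K F} (h : X ≤ Y) : LL Y ≤ LL X := by
  intro f hf
  rw [mem_LL'] at hf ⊢
  exact hf.imp id (h.trans ·)

theorem LL_inf (X Y : Divisor K F) : LL X ⊓ LL Y = LL (X ⊔ Y) := by
  ext f
  rcases eq_or_ne f 0 with rfl | hf
  · simp
  · rw [Submodule.mem_inf, mem_LL hf, mem_LL hf, mem_LL hf, sup_le_iff]

theorem finrank_LL {X : Divisor K F} (h : 2 * (genusFF K F : ℤ) - 1 ≤ - Divisor.degree X) :
    (finrank K (LL X) : ℤ) = - Divisor.degree X + 1 - genusFF K F := by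
  have := RRCurve.ell_eq' (-X) (by rwa [map_neg])
  rwa [map_neg] at this

theorem mul_mem_LL {X Y : Divisor K F} {f g : F} (hf : f ∈ LL X) (hg : g ∈ LL Y) :
    f * g ∈ LL (X + Y) := by
  rcases eq_or_ne f 0 with rfl | hf0
  · simp
  rcases eq_or_ne g 0 with rfl | hg0
  · simp
  rw [mem_LL hf0] at hf
  rw [mem_LL hg0] at hg
  rw [mem_LL (mul_ne_zero hf0 hg0), RR.div_mul hf0 hg0]
  exact add_le_add hf hg

theorem mul_mem_LL_iff {X : Divisor K F} {f g : F} (hf : f ≠ 0) :
    f * g ∈ LL (X + div f) ↔ g ∈ LL X := by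
  rcases eq_or_ne g 0 with rfl | hg0
  · simp
  rw [mem_LL (mul_ne_zero hf hg0), mem_LL hg0, RR.div_mul hf hg0, add_comm]
  exact add_le_add_iff_left _

/-- multiplication by `f` -/
def mulL (f : F) : F →ₗ[K] F := LinearMap.mulLeft K f

omit [RRCurve K F] in
@[simp] theorem mulL_apply (f g : F) : mulL (K := K) f g = f * g := rfl

theorem map_mulL (X : Divisor K F) {f : F} (hf : f ≠ 0) :
    (LL X).map (mulL f) = LL (X + div f) := by
  ext g
  rw [Submodule.mem_map]
  constructor
  · rintro ⟨h, hh, rfl⟩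
    exact (mul_mem_LL_iff hf).mpr hh
  · intro hg
    refine ⟨f⁻¹ * g, ?_, by simp [mul_inv_cancel_left₀ hf]⟩
    rw [← mul_mem_LL_iff hf, mul_inv_cancel_left₀ hf]
    exact hg

omit [RRCurve K F] in
theorem degree_sup_add_inf (X Y : Divisor K F) :
    Divisor.degree (X ⊔ Y) + Divisor.degree (X ⊓ Y) = Divisor.degree X + Divisor.degree Y := by
  rw [← map_add, ← map_add]
  congr 1
  ext v
  simp only [Finsupp.add_apply, Finsupp.sup_apply, Finsupp.inf_apply]
  exact max_add_min _ _

theorem place_deg_eq_one [IsAlgClosed K] (v : Place K F) : v.deg = 1 :=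
  haveI : Module.Finite K v.ResidueField := (inferInstance : v.FiniteResidue).finite
  v.deg_eq_one_of_isAlgClosed_of_finite

theorem degree_single_one [IsAlgClosed K] (v : Place K F) (n : ℤ) :
    Divisor.degree (Finsupp.single v n : Divisor K F) = n := by
  rw [Divisor.degree_single, place_deg_eq_one]; simp

omit [RRCurve K F] in
theorem le_single_add (X : Divisor K F) (v : Place K F) : X ≤ X + Finsupp.single v 1 := by
  classical
  intro w
  rw [Finsupp.add_apply]
  by_cases h : v = w
  · subst h; simp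
  · rw [Finsupp.single_apply, if_neg h]; simp

theorem LL_lt [IsAlgClosed K] {X : Divisor K F} (h : 2 * (genusFF K F : ℤ) ≤ - Divisor.degree X)
    (v : Place K F) : LL (X + Finsupp.single v 1) < LL X := by
  refine lt_of_le_of_ne (LL_anti (le_single_add X v)) fun heq => ?_
  have h1 := finrank_LL (X := X) (by omega)
  have h2 := finrank_LL (X := X + Finsupp.single v 1) (by
    rw [map_add, degree_single_one]; omega)
  rw [heq, map_add, degree_single_one] at h2
  omega

theorem exists_mem_LL_notMem [IsAlgClosed K] {X : Divisor K F}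
    (h : 2 * (genusFF K F : ℤ) ≤ - Divisor.degree X) (v : Place K F) :
    ∃ f ∈ LL X, f ∉ LL (X + Finsupp.single v 1) :=
  SetLike.exists_of_lt (LL_lt h v)

omit [RRCurve K F] in
theorem exists_single_le_of_ne {X Y : Divisor K F} (hle : X ≤ Y) (hne : X ≠ Y) :
    ∃ v, X + Finsupp.single v 1 ≤ Y := by
  classical
  obtain ⟨v, hv⟩ : ∃ v, X v < Y v := by
    by_contra hcon
    push Not at hcon
    exact hne (le_antisymm hle hcon)
  refine ⟨v, fun w => ?_⟩
  rw [Finsupp.add_apply]
  by_cases h : v = w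
  · subst h
    rw [Finsupp.single_eq_same]
    exact hv
  · rw [Finsupp.single_apply, if_neg h, add_zero]
    exact hle w

theorem LL_injective [IsAlgClosed K] {X Y : Divisor K F}
    (hX : 2 * (genusFF K F : ℤ) ≤ - Divisor.degree X)
    (hY : 2 * (genusFF K F : ℤ) ≤ - Divisor.degree Y) (h : LL X = LL Y) : X = Y := by
  have key : ∀ {X Y : Divisor K F}, 2 * (genusFF K F : ℤ) ≤ - Divisor.degree X →
      LL X = LL Y → X ⊔ Y = X := by
    intro X Y hX h
    by_contra hne
    obtain ⟨v, hv⟩ := exists_single_le_of_ne le_sup_left (Ne.symm hne)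
    have h1 : LL X ≤ LL (X + Finsupp.single v 1) := by
      calc LL X = LL X ⊓ LL Y := by rw [← h, inf_idem]
        _ = LL (X ⊔ Y) := LL_inf X Y
        _ ≤ _ := LL_anti hv
    exact absurd h1 (not_le_of_gt (LL_lt hX v))
  rw [← key hX h, sup_comm]
  exact key hY h.symm

end basic

section pencil

variable [RRCurve K F]

theorem finrank_pencil {X Y : Divisor K F} {g₁ g₂ : F}
    (hY : div g₁ ⊓ div g₂ = Y)
    (h1 : 2 * (genusFF K F : ℤ) - 1 ≤ - Divisor.degree X)
    (h2 : 2 * (genusFF K F : ℤ) - 1 ≤ - Divisor.degree X + Divisor.degree Y) :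
    (finrank K ↥(LL (X + div g₁) ⊔ LL (X + div g₂)) : ℤ) =
      - Divisor.degree X - Divisor.degree Y + 1 - genusFF K F := by
  have hsup : (X + div g₁) ⊔ (X + div g₂) = X + div g₁ ⊔ div g₂ := (add_sup _ _ _).symm
  have hdeg : Divisor.degree (div g₁ ⊔ div g₂ : Divisor K F) = - Divisor.degree Y := by
    have := degree_sup_add_inf (div g₁ : Divisor K F) (div g₂)
    rw [hY, degree_div, degree_div] at this
    omega
  have h3 := Submodule.finrank_sup_add_finrank_inf_eq (LL (X + div g₁)) (LL (X + div g₂))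
  rw [LL_inf, hsup] at h3
  have h4 := finrank_LL (X := X + div g₁) (by rw [map_add, degree_div]; omega)
  have h5 := finrank_LL (X := X + div g₂) (by rw [map_add, degree_div]; omega)
  have h6 := finrank_LL (X := X + div g₁ ⊔ div g₂) (by rw [map_add, hdeg]; omega)
  rw [map_add, degree_div] at h4 h5
  rw [map_add, hdeg] at h6
  omega

/-- Existence of a pencil without base points. -/
theorem exists_pencil [Infinite K] {W : Submodule K F} {Y : Divisor K F} (hW : W ≤ LL Y)
    (hv : ∀ v, ¬ W ≤ LL (Y + Finsupp.single v 1)) {g₁ : F} (hg₁ : g₁ ∈ W) (hg₁0 : g₁ ≠ 0) :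
    ∃ g₂ ∈ W, g₂ ≠ 0 ∧ div g₁ ⊓ div g₂ = Y := by
  classical
  let S : Finset (Place K F) := (div g₁ - Y).support
  let s : Finset (Submodule K W) :=
    insert ⊥ (S.image fun v => (LL (Y + Finsupp.single v 1)).comap W.subtype)
  have htop : ⊤ ∉ s := by
    intro h
    rw [Finset.mem_insert] at h
    rcases h with h | h
    · have : (⟨g₁, hg₁⟩ : W) ∈ (⊥ : Submodule K W) := h ▸ Submodule.mem_top
      rw [Submodule.mem_bot] at this
      exact hg₁0 (congrArg Subtype.val this)
    · rw [Finset.mem_image] at h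
      obtain ⟨v, -, hv'⟩ := h
      apply hv v
      intro f hf
      have : (⟨f, hf⟩ : W) ∈ (LL (Y + Finsupp.single v 1)).comap W.subtype :=
        hv'.symm ▸ Submodule.mem_top
      exact this
  have hne := Subspace.biUnion_ne_univ_of_top_notMem htop
  obtain ⟨g₂, hg₂⟩ := (Set.ne_univ_iff_exists_notMem _).mp hne
  simp only [Set.mem_iUnion, not_exists] at hg₂
  have hg₂0 : (g₂ : F) ≠ 0 := by
    intro h0
    refine hg₂ ⊥ (Finset.mem_insert_self _ _) ?_
    have : g₂ = 0 := Subtype.ext h0
    rw [this]; exact zero_mem _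
  have hg₂S : ∀ v ∈ S, (g₂ : F) ∉ LL (Y + Finsupp.single v 1) := by
    intro v hv hmem
    exact hg₂ _ (Finset.mem_insert_of_mem (Finset.mem_image_of_mem _ hv)) hmem
  refine ⟨g₂, g₂.2, hg₂0, ?_⟩
  have h1 := (mem_LL hg₁0).mp (hW hg₁)
  have h2 := (mem_LL hg₂0).mp (hW g₂.2)
  apply le_antisymm _ (le_inf h1 h2)
  intro v
  rw [Finsupp.inf_apply]
  by_cases hv : v ∈ S
  · have h3 := hg₂S v hv
    rw [mem_LL hg₂0] at h3
    by_contra h4
    apply h3
    have h4' := lt_min_iff.mp (not_le.mp h4)
    intro w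
    rw [Finsupp.add_apply]
    by_cases hw : v = w
    · subst hw
      rw [Finsupp.single_eq_same]
      exact h4'.2
    · rw [Finsupp.single_apply, if_neg hw, add_zero]
      exact h2 w
  · have h3 : (div g₁ - Y : Divisor K F) v = 0 := Finsupp.notMem_support_iff.mp hv
    rw [Finsupp.sub_apply] at h3
    exact (min_le_left _ _).trans (by omega)

/-- `L(-X)·L(-Y) = L(-X-Y)`. -/
theorem LL_mul [IsAlgClosed K] {X Y : Divisor K F}
    (hY : 2 * (genusFF K F : ℤ) ≤ - Divisor.degree Y)
    (hXY : 2 * (genusFF K F : ℤ) - 1 ≤ - Divisor.degree X + Divisor.degree Y) :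
    LL X * LL Y = LL (X + Y) := by
  have : Infinite K := IsAlgClosed.instInfinite
  have hle : LL X * LL Y ≤ LL (X + Y) := Submodule.mul_le.mpr fun f hf g hg => mul_mem_LL hf hg
  obtain ⟨v⟩ := (inferInstance : Nonempty (Place K F))
  obtain ⟨g₁, hg₁, hg₁v⟩ := exists_mem_LL_notMem hY v
  have hg₁0 : g₁ ≠ 0 := fun h => hg₁v (h ▸ zero_mem _)
  obtain ⟨g₂, hg₂, hg₂0, hinf⟩ := exists_pencil (W := LL Y) le_rfl
    (fun v h => absurd h (not_le_of_gt (LL_lt hY v))) hg₁ hg₁0
  have hpen : LL (X + div g₁) ⊔ LL (X + div g₂) ≤ LL X * LL Y := by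
    apply sup_le
    · rw [← map_mulL X hg₁0, Submodule.map_le_iff_le_comap]
      intro f hf
      rw [Submodule.mem_comap, mulL_apply, mul_comm g₁ f]
      exact Submodule.mul_mem_mul hf hg₁
    · rw [← map_mulL X hg₂0, Submodule.map_le_iff_le_comap]
      intro f hf
      rw [Submodule.mem_comap, mulL_apply, mul_comm g₂ f]
      exact Submodule.mul_mem_mul hf hg₂
  have h1 := finrank_pencil (X := X) hinf (by omega) hXY
  have h2 := finrank_LL (X := X + Y) (by rw [map_add]; omega)
  rw [map_add] at h2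
  have h3 : LL (X + div g₁) ⊔ LL (X + div g₂) = LL (X + Y) := by
    apply Submodule.eq_of_le_of_finrank_eq (hpen.trans hle)
    omega
  exact le_antisymm hle (h3 ▸ hpen)

/-- Characterisation of the spaces `LL X` by a rank condition. -/
theorem exists_eq_LL [IsAlgClosed K] {W : Submodule K F} {X₀ D : Divisor K F} {δ : ℤ}
    (hW : W ≤ LL X₀) (hδ : 2 * (genusFF K F : ℤ) ≤ δ)
    (hn : (finrank K W : ℤ) = δ + 1 - genusFF K F)
    (hD : 2 * (genusFF K F : ℤ) - 1 ≤ - Divisor.degree D)
    (hD' : 2 * (genusFF K F : ℤ) - 1 ≤ - Divisor.degree D + Divisor.degree X₀)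
    (hrank : (finrank K ↥(LL D * W) : ℤ) ≤ finrank K W - Divisor.degree D) :
    ∃ X, X₀ ≤ X ∧ Divisor.degree X = - δ ∧ W = LL X := by
  have : Infinite K := IsAlgClosed.instInfinite
  have hfinW : FiniteDimensional K W := Submodule.finiteDimensional_of_le hW
  -- a nonzero element
  obtain ⟨g₁, hg₁, hg₁0⟩ : ∃ g ∈ W, g ≠ 0 := by
    apply (Submodule.ne_bot_iff W).mp
    intro h
    rw [h, finrank_bot] at hn
    omega
  -- maximal X
  obtain ⟨X, hX₀, hWX, hmax⟩ : ∃ X : Divisor K F, X₀ ≤ X ∧ W ≤ LL X ∧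
      ∀ X' : Divisor K F, X₀ ≤ X' → W ≤ LL X' → Divisor.degree X' ≤ Divisor.degree X := by
    obtain ⟨m, ⟨X, hX, hWX, hm⟩, hmax⟩ := Int.exists_greatest_of_bdd
      (P := fun z => ∃ X : Divisor K F, X₀ ≤ X ∧ W ≤ LL X ∧ Divisor.degree X = z)
      ⟨0, fun z ⟨X, _, hWX, hz⟩ => by
        have := degree_mono ((mem_LL hg₁0).mp (hWX hg₁))
        rw [degree_div] at this
        omega⟩ ⟨_, X₀, le_rfl, hW, rfl⟩
    exact ⟨X, hX, hWX, fun X' h1 h2 => by rw [hm]; exact hmax _ ⟨X', h1, h2, rfl⟩⟩
  have hv : ∀ v, ¬ W ≤ LL (X + Finsupp.single v 1) := by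
    intro v h
    have := hmax _ (hX₀.trans (le_single_add X v)) h
    rw [map_add, degree_single_one] at this
    omega
  obtain ⟨g₂, hg₂, hg₂0, hinf⟩ := exists_pencil hWX hv hg₁ hg₁0
  have hdeg0 : Divisor.degree X₀ ≤ Divisor.degree X := degree_mono hX₀
  have hpen : LL (D + div g₁) ⊔ LL (D + div g₂) ≤ LL D * W := by
    apply sup_le
    · rw [← map_mulL D hg₁0, Submodule.map_le_iff_le_comap]
      intro f hf
      rw [Submodule.mem_comap, mulL_apply, mul_comm g₁ f]
      exact Submodule.mul_mem_mul hf hg₁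
    · rw [← map_mulL D hg₂0, Submodule.map_le_iff_le_comap]
      intro f hf
      rw [Submodule.mem_comap, mulL_apply, mul_comm g₂ f]
      exact Submodule.mul_mem_mul hf hg₂
  have h1 := finrank_pencil (X := D) hinf hD (by omega)
  have hfin2 : FiniteDimensional K ↥(LL D * W) := Module.Finite.iff_fg.mpr
    (Submodule.FG.mul (Module.Finite.iff_fg.mp inferInstance) (Module.Finite.iff_fg.mp hfinW))
  have h2 := Submodule.finrank_mono hpen
  have h3 : - Divisor.degree X ≤ δ := by omega
  have h4 := Submodule.finrank_mono hWX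
  rcases le_or_gt (2 * (genusFF K F : ℤ) - 1) (- Divisor.degree X) with h5 | h5
  · have h6 := finrank_LL h5
    refine ⟨X, hX₀, by omega, Submodule.eq_of_le_of_finrank_eq hWX (by omega)⟩
  · exfalso
    classical
    obtain ⟨v⟩ := (inferInstance : Nonempty (Place K F))
    let X' : Divisor K F := X + Finsupp.single v (-(2 * (genusFF K F : ℤ) - 1) - Divisor.degree X)
    have hX' : Divisor.degree X' = -(2 * (genusFF K F : ℤ) - 1) := by
      rw [map_add, degree_single_one]; ring
    have hle : X' ≤ X := by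
      intro w
      rw [Finsupp.add_apply]
      by_cases h : v = w
      · subst h; rw [Finsupp.single_eq_same]; omega
      · rw [Finsupp.single_apply, if_neg h]; simp
    have h6 := Submodule.finrank_mono (LL_anti hle)
    have h7 := finrank_LL (X := X') (by omega)
    omega

theorem finrank_LL_mul_le [IsAlgClosed K] {X D : Divisor K F}
    (h1 : 2 * (genusFF K F : ℤ) - 1 ≤ - Divisor.degree X)
    (h2 : 2 * (genusFF K F : ℤ) - 1 ≤ - Divisor.degree X - Divisor.degree D) :
    (finrank K ↥(LL D * LL X) : ℤ) ≤ finrank K (LL X) - Divisor.degree D := by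
  have hle : LL D * LL X ≤ LL (D + X) := Submodule.mul_le.mpr fun f hf g hg => mul_mem_LL hf hg
  have h3 := Submodule.finrank_mono hle
  have h4 := finrank_LL (X := D + X) (by rw [map_add]; omega)
  have h5 := finrank_LL h1
  rw [map_add] at h4
  omega

end pencil

end Fermat.Agent.Heights
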