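import Fermat.Agent.Heights.Surj
import Fermat.Agent.Heights.Pencil

/-!
# Charts: coordinates on `L(M∞)`, algebraicity of the families `{L(-X)}`
-/

set_option autoImplicit false
set_option linter.unusedSectionVars false

noncomputable section

open AlgebraicCurve Module Fermat.Agent.RR WithZero
open scoped IntermediateField

namespace Fermat.Agent.Heights

variable {K F : Type*} [Field K] [Field F] [Algebra K F]

/-- Coordinates on the space of functions with pole order at most `M` at `o`. -/
structure Chart (K : Type*) {F : Type*} [Field K] [Field F] [Algebra K F]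
    (o : Place K F) (M : ℕ) where
  ι : Type
  fin : Fintype ι
  e : (ι → K) →ₗ[K] F
  c : F →ₗ[K] (ι → K)
  ce : ∀ x, c (e x) = x
  range_e : LinearMap.range e = LL (Finsupp.single o (-(M : ℤ)))

namespace Chart

variable {o : Place K F} {M : ℕ} (ch : Chart K o M)

instance : Fintype ch.ι := ch.fin

theorem ec {f : F} (hf : f ∈ LL (Finsupp.single o (-(M : ℤ)))) : ch.e (ch.c f) = f := by
  rw [← ch.range_e] at hf
  obtain ⟨x, rfl⟩ := hf
  rw [ch.ce]

theorem e_injective : Function.Injective ch.e :=
  Function.LeftInverse.injective ch.ce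

theorem e_mem (x : ch.ι → K) : ch.e x ∈ LL (Finsupp.single o (-(M : ℤ))) := by
  rw [← ch.range_e]; exact ⟨x, rfl⟩

end Chart

variable [RRCurve K F] {o : Place K F} {M : ℕ} (ch : Chart K o M)

/-- a finite dimensional space of functions in coordinates -/
def Chart.S (X : Divisor K F) : Submodule K (ch.ι → K) := (LL X).map ch.c

omit [RRCurve K F] in
theorem single_le_single {o : Place K F} {a b : ℤ} (h : a ≤ b) :
    (Finsupp.single o a : Divisor K F) ≤ Finsupp.single o b := by
  classical
  intro v
  simp only [Finsupp.single_apply]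
  split_ifs
  · exact h
  · exact le_rfl

omit [RRCurve K F] in
theorem single_le_trans {m : ℕ} (hm : m ≤ M) {X : Divisor K F}
    (hX : Finsupp.single o (-(m : ℤ)) ≤ X) : Finsupp.single o (-(M : ℤ)) ≤ X :=
  (single_le_single (by omega)).trans hX

theorem Chart.map_e_S {X : Divisor K F} (hX : Finsupp.single o (-(M : ℤ)) ≤ X) :
    (ch.S X).map ch.e = LL X := by
  unfold Chart.S
  rw [← Submodule.map_comp]
  ext f
  rw [Submodule.mem_map]
  constructor
  · rintro ⟨g, hg, rfl⟩
    rw [LinearMap.comp_apply, ch.ec (LL_anti hX hg)]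
    exact hg
  · intro hf
    exact ⟨f, hf, by rw [LinearMap.comp_apply, ch.ec (LL_anti hX hf)]⟩

theorem Chart.finrank_S {X : Divisor K F} (hX : Finsupp.single o (-(M : ℤ)) ≤ X) :
    finrank K (ch.S X) = finrank K (LL X) := by
  conv_rhs => rw [← ch.map_e_S hX]
  exact (LinearEquiv.finrank_eq (Submodule.equivMapOfInjective ch.e ch.e_injective (ch.S X)))

omit [RRCurve K F] in
theorem Chart.c_mem_S {X : Divisor K F} {f : F} (hf : f ∈ LL X) : ch.c f ∈ ch.S X :=
  Submodule.mem_map_of_mem hf

theorem Chart.e_mem_of_mem_S {X : Divisor K F} (hX : Finsupp.single o (-(M : ℤ)) ≤ X)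
    {x : ch.ι → K} (hx : x ∈ ch.S X) : ch.e x ∈ LL X := by
  rw [← ch.map_e_S hX]
  exact Submodule.mem_map_of_mem hx

omit [RRCurve K F] in
theorem Chart.c_eq_zero_iff {f : F} (hf : f ∈ LL (Finsupp.single o (-(M : ℤ)))) :
    ch.c f = 0 ↔ f = 0 := by
  constructor
  · intro h
    rw [← ch.ec hf, h, map_zero]
  · rintro rfl
    exact map_zero _

theorem Chart.c_mem_S_iff {X : Divisor K F} (hX : Finsupp.single o (-(M : ℤ)) ≤ X) {f : F}
    (hf : f ∈ LL (Finsupp.single o (-(M : ℤ)))) : ch.c f ∈ ch.S X ↔ f ∈ LL X := by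
  constructor
  · intro h
    have := ch.e_mem_of_mem_S hX h
    rwa [ch.ec hf] at this
  · exact ch.c_mem_S

/-- multiplication in coordinates -/
def Chart.mu : (ch.ι → K) →ₗ[K] (ch.ι → K) →ₗ[K] (ch.ι → K) :=
  (LinearMap.mul K F).compl₁₂ ch.e ch.e |>.compr₂ ch.c

omit [RRCurve K F] in
theorem Chart.mu_apply (x y : ch.ι → K) : ch.mu x y = ch.c (ch.e x * ch.e y) := rfl

omit [RRCurve K F] in
theorem Chart.mu_c {f g : F} (hf : f ∈ LL (Finsupp.single o (-(M : ℤ))))
    (hg : g ∈ LL (Finsupp.single o (-(M : ℤ)))) : ch.mu (ch.c f) (ch.c g) = ch.c (f * g) := by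
  rw [ch.mu_apply, ch.ec hf, ch.ec hg]

theorem Chart.map₂_mu {X Y : Divisor K F} (hX : Finsupp.single o (-(M : ℤ)) ≤ X)
    (hY : Finsupp.single o (-(M : ℤ)) ≤ Y) :
    Submodule.map₂ ch.mu (ch.S X) (ch.S Y) = (LL X * LL Y).map ch.c := by
  apply le_antisymm
  · rw [Submodule.map₂_le]
    intro x hx y hy
    rw [ch.mu_apply]
    exact Submodule.mem_map_of_mem
      (Submodule.mul_mem_mul (ch.e_mem_of_mem_S hX hx) (ch.e_mem_of_mem_S hY hy))
  · rw [Submodule.map_le_iff_le_comap, Submodule.mul_le]
    intro f hf g hg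
    rw [Submodule.mem_comap, ← ch.mu_c (LL_anti hX hf) (LL_anti hY hg)]
    exact Submodule.apply_mem_map₂ _ (ch.c_mem_S hf) (ch.c_mem_S hg)

omit [RRCurve K F] in
/-- rank bounds by minors, upper bound direction -/
theorem finrank_le_of_mnr_eq_zero {κ P : Type*} [Finite κ] [Finite P] (v : P → κ → K) (r : ℕ)
    (h : ∀ (a : Fin (r + 1) → P) (s : Fin (r + 1) → κ), mnr (fun j => v (a j)) s = 0) :
    finrank K (Submodule.span K (Set.range v)) ≤ r := by
  by_contra hcon
  push Not at hcon
  have : Module.Finite K (Submodule.span K (Set.range v)) := by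
    exact FiniteDimensional.span_of_finite K (Set.finite_range v)
  obtain ⟨a, ha, -⟩ := exists_index (E := K) v rfl
  have h1 : LinearIndependent K (fun j : Fin (r + 1) => v (a (Fin.castLE hcon j))) :=
    ha.comp _ (Fin.castLE_injective hcon)
  obtain ⟨s, hs⟩ := exists_mnr_ne_zero h1
  exact hs (h _ s)

/-- The family `{L(-X) : X ≥ -m∞, deg X = -δ}` is algebraic. -/
theorem Chart.isAlg [IsAlgClosed K] {m : ℕ} (hm : m ≤ M) {δ : ℤ}
    (hδ : 2 * (genusFF K F : ℤ) ≤ δ) :
    IsAlg (δ + 1 - genusFF K F).toNat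
      {W | ∃ X : Divisor K F, Finsupp.single o (-(m : ℤ)) ≤ X ∧ Divisor.degree X = -δ ∧
        W = ch.S X} := by
  classical
  set n := (δ + 1 - genusFF K F).toNat with hn
  have hnn : (n : ℤ) = δ + 1 - genusFF K F := Int.toNat_of_nonneg (by omega)
  let X₀ : Divisor K F := Finsupp.single o (-(m : ℤ))
  let d : ℕ := 2 * genusFF K F + m
  let D : Divisor K F := Finsupp.single o (-(d : ℤ))
  have hdegD : Divisor.degree D = -(d : ℤ) := degree_single_one _ _
  have hdegX₀ : Divisor.degree X₀ = -(m : ℤ) := degree_single_one _ _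
  have hfr : ∀ X : Divisor K F, Finsupp.single o (-(m : ℤ)) ≤ X → Divisor.degree X = -δ →
      finrank K (ch.S X) = n := by
    intro X hX hdeg
    rw [ch.finrank_S (single_le_trans hm hX)]
    have := finrank_LL (X := X) (by omega)
    omega
  refine ⟨?_, ?_⟩
  · rintro W ⟨X, hX, hdeg, rfl⟩
    exact hfr X hX hdeg
  -- a basis of L(D)
  obtain ⟨nD, hnD⟩ : ∃ k, finrank K (LL D) = k := ⟨_, rfl⟩
  obtain ⟨a, -, ha⟩ := exists_basis_fin (E := K) (W := LL D) hnD
  -- coordinates on a big space
  let U : Submodule K F := LL (D + Finsupp.single o (-(M : ℤ)))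
  let bU := Module.finBasis K U
  obtain ⟨cU, hcU⟩ : ∃ cU : F →ₗ[K] (Fin (finrank K U) → K),
      cU ∘ₗ (U.subtype ∘ₗ bU.equivFun.symm.toLinearMap) = LinearMap.id :=
    LinearMap.exists_leftInverse_of_injective _ (by
      rw [LinearMap.ker_eq_bot]
      exact (Submodule.injective_subtype U).comp bU.equivFun.symm.injective)
  have hcUinj : ∀ u ∈ U, cU u = 0 → u = 0 := by
    intro u hu h0
    have h1 := LinearMap.congr_fun hcU (bU.equivFun ⟨u, hu⟩)
    simp only [LinearMap.comp_apply, LinearEquiv.coe_coe, LinearEquiv.symm_apply_apply,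
      Submodule.subtype_apply, LinearMap.id_apply] at h1
    rw [h0] at h1
    have h2 : (⟨u, hu⟩ : U) = 0 := by
      rw [← bU.equivFun.map_eq_zero_iff]; exact h1.symm
    exact congrArg Subtype.val h2
  let r := n + d
  let Wd : Submodule K (ch.ι → K) := (LL X₀).comap ch.e
  -- product vectors
  let V : (Fin n → ch.ι → K) → (Fin nD × Fin n) → (Fin (finrank K U) → K) :=
    fun x p => cU (a p.1 * ch.e (x p.2))
  let P₁ : Set ((Fin n × ch.ι → K) → K) :=
    {p | ∃ (k : Fin n) (φ : Wd.dualAnnihilator), p = fun z =>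
      (φ : Dual K (ch.ι → K)) (fun i => z (k, i))}
  let P₂ : Set ((Fin n × ch.ι → K) → K) :=
    {p | ∃ (b : Fin (r + 1) → Fin nD × Fin n) (s : Fin (r + 1) → Fin (finrank K U)),
      p = fun z => mnr (fun j => V (fun k i => z (k, i)) (b j)) s}
  refine ⟨P₁ ∪ P₂, ?_, ?_⟩
  · rintro p (⟨k, φ, rfl⟩ | ⟨b, s, rfl⟩)
    · exact isPoly_dual _ fun i => IsPoly.coord _
    · refine IsPoly.det fun j l => ?_
      exact isPoly_dual ((LinearMap.proj (s l)) ∘ₗ cU ∘ₗ (mulL (a (b j).1)) ∘ₗ ch.e)
        (fun i => IsPoly.coord _)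
  · intro x hx
    -- the space spanned in F
    have hW₁ : (Submodule.span K (Set.range x)).map ch.e =
        Submodule.span K (Set.range fun k => ch.e (x k)) := by
      rw [Submodule.map_span, ← Set.range_comp]; rfl
    have hVspan : ∀ W' : Submodule K F,
        W' = Submodule.span K (Set.range fun k => ch.e (x k)) →
        LL D * W' = Submodule.span K (Set.range fun p : Fin nD × Fin n =>
          a p.1 * ch.e (x p.2)) := by
      rintro W' rfl
      rw [← ha, Submodule.span_mul_span]
      congr 1
      ext z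
      rw [Set.mem_mul]
      constructor
      · rintro ⟨_, ⟨i, rfl⟩, _, ⟨j, rfl⟩, rfl⟩
        exact ⟨(i, j), rfl⟩
      · rintro ⟨⟨i, j⟩, rfl⟩
        exact ⟨_, ⟨i, rfl⟩, _, ⟨j, rfl⟩, rfl⟩
    constructor
    · rintro ⟨X, hX, hdeg, hWX⟩
      have hXM := single_le_trans (o := o) hm hX
      have hLLX : LL X = Submodule.span K (Set.range fun k => ch.e (x k)) := by
        rw [← hW₁, hWX, ch.map_e_S hXM]
      rintro p (⟨k, φ, rfl⟩ | ⟨b, s, rfl⟩)
      · have hmem : x k ∈ Wd := by
          rw [Submodule.mem_comap]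
          apply LL_anti hX
          rw [hLLX]
          exact Submodule.subset_span ⟨k, rfl⟩
        exact (Submodule.mem_dualAnnihilator _).mp φ.2 _ hmem
      · by_contra hne
        have h1 := linearIndependent_of_mnr_ne_zero hne
        have h2 : LinearIndependent K (fun j => a (b j).1 * ch.e (x (b j).2)) :=
          LinearIndependent.of_comp cU h1
        have h3 : ∀ j, a (b j).1 * ch.e (x (b j).2) ∈ LL D * LL X := by
          intro j
          rw [hVspan _ hLLX]
          exact Submodule.subset_span ⟨b j, rfl⟩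
        have hfinX : FiniteDimensional K ↥(LL D * LL X) := Module.Finite.iff_fg.mpr
          (Submodule.FG.mul (Module.Finite.iff_fg.mp inferInstance)
            (Module.Finite.iff_fg.mp inferInstance))
        have h4 : LinearIndependent K
            (fun j => (⟨_, h3 j⟩ : ↥(LL D * LL X))) :=
          LinearIndependent.of_comp (LL D * LL X).subtype h2
        have h5 := h4.fintype_card_le_finrank
        rw [Fintype.card_fin] at h5
        have h6 := finrank_LL_mul_le (X := X) (D := D) (by omega) (by omega)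
        have h7 := finrank_LL (X := X) (by omega)
        omega
    · intro hp
      let W' : Submodule K F := Submodule.span K (Set.range fun k => ch.e (x k))
      have hex : LinearIndependent K (fun k => ch.e (x k)) :=
        hx.map' ch.e (LinearMap.ker_eq_bot.mpr ch.e_injective)
      have hfinW : finrank K W' = n := by
        rw [finrank_span_eq_card hex, Fintype.card_fin]
      have hW'X₀ : W' ≤ LL X₀ := by
        rw [Submodule.span_le]
        rintro _ ⟨k, rfl⟩
        have : x k ∈ Wd := (mem_iff_forall_dual Wd (x k)).mpr fun φ =>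
          hp _ (Or.inl ⟨k, φ, rfl⟩)
        exact this
      have hle : finrank K ↥(LL D * W') ≤ r := by
        rw [hVspan W' rfl]
        have h1 : finrank K (Submodule.span K (Set.range (V x))) ≤ r := by
          apply finrank_le_of_mnr_eq_zero
          intro b s
          exact hp _ (Or.inr ⟨b, s, rfl⟩)
        -- cU is injective on the span
        have h2 : Submodule.span K (Set.range (V x)) =
            (Submodule.span K (Set.range fun p : Fin nD × Fin n =>
              a p.1 * ch.e (x p.2))).map cU := by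
          rw [Submodule.map_span, ← Set.range_comp]; rfl
        rw [h2] at h1
        have h3 : Submodule.span K (Set.range fun p : Fin nD × Fin n =>
              a p.1 * ch.e (x p.2)) ≤ U := by
          rw [Submodule.span_le]
          rintro _ ⟨p, rfl⟩
          exact mul_mem_LL (ha ▸ Submodule.subset_span ⟨p.1, rfl⟩) (ch.e_mem _)
        have h4 := LinearMap.finrank_range_of_inj
          (f := cU.domRestrict (Submodule.span K (Set.range fun p : Fin nD × Fin n =>
              a p.1 * ch.e (x p.2)))) (by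
            rw [← LinearMap.ker_eq_bot, LinearMap.ker_eq_bot']
            intro u hu
            exact Subtype.ext (hcUinj u (h3 u.2) hu))
        rw [LinearMap.range_domRestrict] at h4
        rwa [h4] at h1
      obtain ⟨X, hX, hdeg, hWX⟩ := exists_eq_LL (W := W') (X₀ := X₀) (D := D) (δ := δ)
        hW'X₀ hδ (by omega) (by omega) (by omega) (by omega)
      refine ⟨X, hX, hdeg, ?_⟩
      unfold Chart.S
      rw [← hWX, Submodule.map_span, ← Set.range_comp]
      congr 2
      funext k
      simp [ch.ce]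

end Fermat.Agent.Heights
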