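import Fermat.Agent.Heights.Local2

/-!
# Cube relation for local heights on a curve
-/

set_option autoImplicit false
set_option linter.unusedSectionVars false

noncomputable section

open AlgebraicCurve Module Fermat.Agent.RR WithZero
open scoped IntermediateField NNReal

namespace Fermat.Agent.Heights

variable {K F : Type*} [Field K] [Field F] [Algebra K F]
variable {o : Place K F} {M : ℕ} (ch : Chart K o M) (A : AbsFam K)
variable [RRCurve K F] [IsAlgClosed K]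

/-- divisors of degree `-δ` bounded below by `-m∞` -/
def Typ (o : Place K F) (m : ℕ) (δ : ℤ) (X : Divisor K F) : Prop :=
  Finsupp.single o (-(m : ℤ)) ≤ X ∧ Divisor.degree X = - δ

theorem typ_single (k : ℕ) : Typ o k k (Finsupp.single o (-(k : ℤ))) :=
  ⟨le_rfl, degree_single_one _ _⟩

theorem Typ.add {m m' : ℕ} {δ δ' : ℤ} {X Y : Divisor K F} (hX : Typ o m δ X)
    (hY : Typ o m' δ' Y) : Typ o (m + m') (δ + δ') (X + Y) :=
  ⟨single_add_le hX.1 hY.1, by rw [map_add, hX.2, hY.2]; ring⟩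

theorem Typ.add_single {m : ℕ} {δ : ℤ} {X : Divisor K F} (hX : Typ o m δ X) (v : Place K F) :
    Typ o m (δ - 1) (X + Finsupp.single v 1) :=
  ⟨hX.1.trans (le_single_add _ _), by rw [map_add, degree_single_one, hX.2]; ring⟩

theorem Typ.mono {m m' : ℕ} {δ : ℤ} {X : Divisor K F} (hX : Typ o m δ X) (h : m ≤ m') :
    Typ o m' δ X := ⟨single_le_trans h hX.1, hX.2⟩

/-- three terms -/
theorem Chart.bdd_add2 {m M₁ : ℕ} {δ : ℤ} (hM : 2 * m + M₁ ≤ M)
    (hδ : 2 * (genusFF K F : ℤ) ≤ δ) (hM₁ : δ + 2 * (genusFF K F : ℤ) ≤ M₁) :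
    Bdd A (fun p : Divisor K F × Divisor K F × Place K F => Typ o m δ p.1 ∧ Typ o m δ p.2.1)
      (fun p w => ch.rho A p.1 p.2.2 w + ch.rho A p.2.1 p.2.2 w +
        ch.rho A (Finsupp.single o (-(M₁ : ℤ))) p.2.2 w -
        ch.rho A (p.1 + p.2.1 + Finsupp.single o (-(M₁ : ℤ))) p.2.2 w) := by
  have h1 := (ch.bdd_BC A (m := m + M₁) (m' := m) (δ := δ + M₁) (δ' := δ) (by omega) (by omega)
    (by omega) (by omega)).comp
    (Q := fun p : Divisor K F × Divisor K F × Place K F => Typ o m δ p.1 ∧ Typ o m δ p.2.1)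
    (fun p => (p.1 + Finsupp.single o (-(M₁ : ℤ)), p.2.1, p.2.2)) (by
      rintro ⟨X, Y, v⟩ ⟨hX, hY⟩
      have h := hX.add (typ_single M₁)
      exact ⟨h.1, h.2, hY.1, hY.2⟩)
  have h2 := (ch.bdd_BC A (m := M₁) (m' := m) (δ := M₁) (δ' := δ) (by omega) (by omega)
    (by omega) (by omega)).comp
    (Q := fun p : Divisor K F × Divisor K F × Place K F => Typ o m δ p.1 ∧ Typ o m δ p.2.1)
    (fun p => (Finsupp.single o (-(M₁ : ℤ)), p.1, p.2.2)) (by
      rintro ⟨X, Y, v⟩ ⟨hX, hY⟩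
      have h := typ_single (o := o) (K := K) M₁
      exact ⟨h.1, h.2, hX.1, hX.2⟩)
  refine (h1.add h2).congr ?_
  rintro ⟨X, Y, v⟩ _ w
  dsimp only
  rw [show X + Finsupp.single o (-(M₁ : ℤ)) + Y = X + Y + Finsupp.single o (-(M₁ : ℤ)) by abel,
    add_comm (Finsupp.single o (-(M₁ : ℤ))) X]
  ring

/-- the cube relation for one point -/
theorem Chart.bdd_cube0 {m M₁ : ℕ} {δ : ℤ} (hM : 2 * m + M₁ ≤ M)
    (hδ : 2 * (genusFF K F : ℤ) ≤ δ) (hM₁ : δ + 2 * (genusFF K F : ℤ) ≤ M₁) :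
    Bdd A (fun p : (Fin 4 → Divisor K F) × Place K F =>
        (∀ i, Typ o m δ (p.1 i)) ∧ p.1 0 + p.1 3 = p.1 1 + p.1 2)
      (fun p w => ch.rho A (p.1 0) p.2 w + ch.rho A (p.1 3) p.2 w -
        ch.rho A (p.1 1) p.2 w - ch.rho A (p.1 2) p.2 w) := by
  have h := ch.bdd_add2 A hM hδ hM₁
  have h1 := h.comp
    (Q := fun p : (Fin 4 → Divisor K F) × Place K F =>
        (∀ i, Typ o m δ (p.1 i)) ∧ p.1 0 + p.1 3 = p.1 1 + p.1 2)
    (fun p => (p.1 0, p.1 3, p.2)) (fun p hp => ⟨hp.1 0, hp.1 3⟩)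
  have h2 := h.comp
    (Q := fun p : (Fin 4 → Divisor K F) × Place K F =>
        (∀ i, Typ o m δ (p.1 i)) ∧ p.1 0 + p.1 3 = p.1 1 + p.1 2)
    (fun p => (p.1 1, p.1 2, p.2)) (fun p hp => ⟨hp.1 1, hp.1 2⟩)
  refine (h1.sub h2).congr ?_
  rintro p hp w
  dsimp only
  rw [hp.2]
  ring

/-- translation by a multiple of `∞` -/
theorem Chart.bdd_T1 {m M₁ k : ℕ} {δ : ℤ} (hM : m + k + M₁ ≤ M)
    (hδ : 2 * (genusFF K F : ℤ) ≤ δ) (hM₁ : δ + k + 2 * (genusFF K F : ℤ) ≤ M₁) :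
    Bdd A (fun X : Divisor K F => Typ o m δ X)
      (fun X w => ch.rho A (X + Finsupp.single o (-(k : ℤ))) o w - ch.rho A X o w) := by
  have h1 := (ch.bdd_BC A (m := M₁) (m' := m + k) (δ := M₁) (δ' := δ + k) (by omega) (by omega)
    (by omega) (by omega)).comp
    (Q := fun X : Divisor K F => Typ o m δ X)
    (fun X => (Finsupp.single o (-(M₁ : ℤ)), X + Finsupp.single o (-(k : ℤ)), o)) (by
      rintro X hX
      have h := hX.add (typ_single k)
      have h' := typ_single (o := o) (K := K) M₁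
      exact ⟨h'.1, h'.2, h.1, h.2⟩)
  have h2 := (ch.bdd_BC A (m := M₁ + k) (m' := m) (δ := M₁ + k) (δ' := δ) (by omega) (by omega)
    (by omega) (by omega)).comp
    (Q := fun X : Divisor K F => Typ o m δ X)
    (fun X => (Finsupp.single o (-(M₁ : ℤ)) + Finsupp.single o (-(k : ℤ)), X, o)) (by
      rintro X hX
      have h := (typ_single (o := o) (K := K) M₁).add (typ_single k)
      exact ⟨h.1, h.2, hX.1, hX.2⟩)
  -- fixed terms
  have h3 : Bdd A (fun X : Divisor K F => Typ o m δ X)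
      (fun _ w => ch.rho A (Finsupp.single o (-(M₁ : ℤ))) o w) :=
    ((bdd_T _).sub (bdd_T _)).comp (fun _ => ()) (fun _ _ => trivial)
  have h4 : Bdd A (fun X : Divisor K F => Typ o m δ X)
      (fun _ w => ch.rho A (Finsupp.single o (-(M₁ : ℤ)) + Finsupp.single o (-(k : ℤ))) o w) :=
    ((bdd_T _).sub (bdd_T _)).comp (fun _ => ()) (fun _ _ => trivial)
  refine (((h1.sub h2).sub h3).add h4).congr ?_
  rintro X _ w
  dsimp only
  rw [show Finsupp.single o (-(M₁ : ℤ)) + Finsupp.single o (-(k : ℤ)) + X =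
    Finsupp.single o (-(M₁ : ℤ)) + (X + Finsupp.single o (-(k : ℤ))) by abel]
  ring

/-- the cube relation for an effective divisor -/
theorem Chart.bdd_cube {m M₁ : ℕ} (hM : 2 * m + M₁ ≤ M) (c : ℕ) :
    ∀ {δ : ℤ}, (c = 0 ∨ 2 * (genusFF K F : ℤ) ≤ δ - c + 1) →
    δ + 2 * (genusFF K F : ℤ) ≤ M₁ →
    Bdd A (fun p : (Fin 4 → Divisor K F) × Divisor K F =>
        (∀ i, Typ o m δ (p.1 i)) ∧ p.1 0 + p.1 3 = p.1 1 + p.1 2 ∧ 0 ≤ p.2 ∧
          Divisor.degree p.2 = c)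
      (fun p w => (ch.t A (p.1 0) w + ch.t A (p.1 3) w - ch.t A (p.1 1) w - ch.t A (p.1 2) w) -
        (ch.t A (p.1 0 + p.2) w + ch.t A (p.1 3 + p.2) w - ch.t A (p.1 1 + p.2) w
          - ch.t A (p.1 2 + p.2) w)) := by
  induction c with
  | zero =>
    intro δ hδ hM₁
    refine Bdd.zero.congr ?_
    rintro ⟨X, C⟩ ⟨-, -, hC, hdeg⟩ w
    have hC0 : (0 : Divisor K F) = C := eq_of_le_of_degree_le hC (by
      dsimp only at hdeg
      rw [hdeg]; simp)
    dsimp only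
    rw [← hC0]
    simp
  | succ c ih =>
    intro δ hδ hM₁
    have hδ' : 2 * (genusFF K F : ℤ) ≤ δ - c := by
      rcases hδ with h | h
      · omega
      · push_cast at h; omega
    classical
    -- choose a point in each effective divisor of positive degree
    have hex : ∀ C : Divisor K F, ∃ v : Place K F, 0 ≤ C → Divisor.degree C = (c + 1 : ℕ) →
        0 ≤ C - Finsupp.single v 1 := by
      intro C
      by_cases h : 0 ≤ C ∧ Divisor.degree C = (c + 1 : ℕ)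
      · have hne : (0 : Divisor K F) ≠ C := by
          intro h0
          have := h.2
          rw [← h0, map_zero] at this
          push_cast at this
          omega
        obtain ⟨v, hv⟩ := exists_single_le_of_ne h.1 hne
        rw [zero_add] at hv
        exact ⟨v, fun _ _ => sub_nonneg.mpr hv⟩
      · obtain ⟨v⟩ := (inferInstance : Nonempty (Place K F))
        exact ⟨v, fun h1 h2 => absurd ⟨h1, h2⟩ h⟩
    choose V hV using hex
    have h1 := (ch.bdd_cube0 A hM (δ := δ) (by omega) hM₁).comp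
      (Q := fun p : (Fin 4 → Divisor K F) × Divisor K F =>
        (∀ i, Typ o m δ (p.1 i)) ∧ p.1 0 + p.1 3 = p.1 1 + p.1 2 ∧ 0 ≤ p.2 ∧
          Divisor.degree p.2 = (c + 1 : ℕ))
      (fun p => (p.1, V p.2)) (fun p hp => ⟨hp.1, hp.2.1⟩)
    have h2 := (ih (δ := δ - 1) (by right; omega) (by omega)).comp
      (Q := fun p : (Fin 4 → Divisor K F) × Divisor K F =>
        (∀ i, Typ o m δ (p.1 i)) ∧ p.1 0 + p.1 3 = p.1 1 + p.1 2 ∧ 0 ≤ p.2 ∧
          Divisor.degree p.2 = (c + 1 : ℕ))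
      (fun p => (fun i => p.1 i + Finsupp.single (V p.2) 1, p.2 - Finsupp.single (V p.2) 1)) (by
        rintro ⟨X, C⟩ ⟨hX, hX', hC, hdeg⟩
        dsimp only at hX hX' hC hdeg ⊢
        refine ⟨fun i => (hX i).add_single _, ?_, hV C hC hdeg, ?_⟩
        · rw [show X 0 + Finsupp.single (V C) 1 + (X 3 + Finsupp.single (V C) 1) =
            (X 0 + X 3) + Finsupp.single (V C) 1 + Finsupp.single (V C) 1 by abel, hX']
          abel
        · rw [map_sub, degree_single_one, hdeg]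
          push_cast; ring)
    refine (h1.add h2).congr ?_
    rintro ⟨X, C⟩ ⟨hX, hX', hC, hdeg⟩ w
    dsimp only
    unfold Chart.rho
    have h3 : ∀ i, X i + Finsupp.single (V C) 1 + (C - Finsupp.single (V C) 1) = X i + C := by
      intro i; abel
    rw [h3, h3, h3, h3]
    ring

/-- The cube relation for the class function `T'`. -/
theorem Chart.bdd_cube' {m M₁ : ℕ} (hM : 2 * m + M₁ ≤ M) (c : ℕ) {δ : ℤ}
    (hδ : 2 * (genusFF K F : ℤ) ≤ δ - c) (hM₁ : δ + 2 * (genusFF K F : ℤ) ≤ M₁) :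
    Bdd A (fun p : (Fin 4 → Divisor K F) × Divisor K F =>
        (∀ i, Typ o m δ (p.1 i)) ∧ p.1 0 + p.1 3 = p.1 1 + p.1 2 ∧ 0 ≤ p.2 ∧
          Divisor.degree p.2 = c)
      (fun p w => (ch.T' A δ (p.1 0) w + ch.T' A δ (p.1 3) w - ch.T' A δ (p.1 1) w
          - ch.T' A δ (p.1 2) w) -
        (ch.T' A (δ - c) (p.1 0 + p.2) w + ch.T' A (δ - c) (p.1 3 + p.2) w
          - ch.T' A (δ - c) (p.1 1 + p.2) w - ch.T' A (δ - c) (p.1 2 + p.2) w)) := by
  have h0 := ch.bdd_cube A hM c (δ := δ) (by right; omega) hM₁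
  have h1 := (ch.bdd_cube0 A hM (δ := δ) (by omega) hM₁).comp
      (Q := fun p : (Fin 4 → Divisor K F) × Divisor K F =>
        (∀ i, Typ o m δ (p.1 i)) ∧ p.1 0 + p.1 3 = p.1 1 + p.1 2 ∧ 0 ≤ p.2 ∧
          Divisor.degree p.2 = c)
      (fun p => (p.1, o)) (fun p hp => ⟨hp.1, hp.2.1⟩)
  have h2 := (ch.bdd_cube0 A hM (δ := δ - c) (by omega) (by omega)).comp
      (Q := fun p : (Fin 4 → Divisor K F) × Divisor K F =>
        (∀ i, Typ o m δ (p.1 i)) ∧ p.1 0 + p.1 3 = p.1 1 + p.1 2 ∧ 0 ≤ p.2 ∧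
          Divisor.degree p.2 = c)
      (fun p => (fun i => p.1 i + p.2, o)) (by
        rintro ⟨X, C⟩ ⟨hX, hX', hC, hdeg⟩
        dsimp only at hX hX' hC hdeg ⊢
        refine ⟨fun i => ⟨(hX i).1.trans (le_add_of_nonneg_right hC), ?_⟩, ?_⟩
        · rw [map_add, (hX i).2, hdeg]; ring
        · rw [show X 0 + C + (X 3 + C) = (X 0 + X 3) + C + C by abel, hX']
          abel)
  refine ((h0.sub (h1.zsmul (δ + 1 - genusFF K F))).add
    (h2.zsmul (δ - c + 1 - genusFF K F))).congr ?_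
  rintro ⟨X, C⟩ ⟨hX, hX', hC, hdeg⟩ w
  dsimp only
  unfold Chart.T'
  ring

/-- `T'` is invariant under translation by `∞` -/
theorem Chart.bdd_T'_T1 {m M₁ : ℕ} {δ : ℤ} (hM : m + 1 + M₁ ≤ M)
    (hδ : 2 * (genusFF K F : ℤ) ≤ δ) (hM₁ : δ + 1 + 2 * (genusFF K F : ℤ) ≤ M₁) :
    Bdd A (fun X : Divisor K F => Typ o m δ X)
      (fun X w => ch.T' A (δ + 1) (X + Finsupp.single o (-(1 : ℤ))) w - ch.T' A δ X w) := by
  have h := (ch.bdd_T1 A (k := 1) (m := m) (M₁ := M₁) (δ := δ) hM hδ (by push_cast; omega)).zsmul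
    (-(δ + 1 - genusFF K F))
  refine h.congr ?_
  rintro X _ w
  unfold Chart.T' Chart.rho
  have h1 : X + Finsupp.single o (-(1 : ℤ)) + Finsupp.single o 1 = X := by
    rw [add_assoc, ← Finsupp.single_add]; simp
  rw [show (-((1 : ℕ) : ℤ)) = -(1 : ℤ) by simp, h1]
  push_cast
  ring

end Fermat.Agent.Heights
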