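import Fermat.Agent.Heights.LinAlg

/-!
# Local heights of subspaces: adding one vector, similarities
-/

set_option autoImplicit false

noncomputable section

open scoped NNReal
open Module Submodule

namespace Fermat.Agent.Heights

variable {E : Type*} [Field E] (A : AbsFam E) {ι : Type*}

/-- minors of `(g, x)` in terms of an echelon form of `x` -/
theorem mnr_cons_mul {n : ℕ} (U : Matrix (Fin n) (Fin n) E) (y : Fin n → ι → E) (g u : ι → E)
    (hu : u ∈ span E (Set.range y)) (s : Fin (n + 1) → ι) :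
    mnr (Fin.cons g (fun k => ∑ l, U k l • y l) : Fin (n + 1) → ι → E) s =
      U.det * mnr (Fin.cons (g + u) y : Fin (n + 1) → ι → E) s := by
  obtain ⟨c, rfl⟩ := mem_span_range_iff_exists_fun E |>.mp hu
  -- transition matrix
  let V : Matrix (Fin (n + 1)) (Fin (n + 1)) E :=
    Matrix.of (Fin.cons (Fin.cons 1 (fun l => - c l)) (fun k => Fin.cons 0 (U k)))
  have hV : V.det = U.det := by
    rw [Matrix.det_succ_column_zero, Fin.sum_univ_succ]
    have h0 : ∀ i : Fin n, V i.succ 0 = 0 := fun i => by simp [V]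
    have h1 : V 0 0 = 1 := by simp [V]
    have h2 : V.submatrix Fin.succ Fin.succ = U := by
      ext i j; simp [V]
    simp [h0, h1, h2]
  have hrow : (Fin.cons g (fun k => ∑ l, U k l • y l) : Fin (n + 1) → ι → E) =
      fun k => ∑ l, V k l • (Fin.cons (g + ∑ i, c i • y i) y : Fin (n + 1) → ι → E) l := by
    funext k
    refine Fin.cases ?_ (fun k => ?_) k
    · simp [V, Fin.sum_univ_succ]
    · simp [V, Fin.sum_univ_succ]
  rw [hrow, mnr_mul, hV]

/-- (L1) adding one vector -/
theorem exists_T_succ [Finite ι] (n : ℕ) : ∃ C : ACon A, ∀ (W' W : Submodule E (ι → E)) (g : ι → E),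
    W' ≤ W → finrank E W' = n → finrank E W = n + 1 → g ∈ W → g ∉ W' →
    ∃ c : E, c ≠ 0 ∧ ∀ w : A.Pt,
      (∀ u ∈ W', T W w - T W' w ≤
        Real.log (A.abs w c) + Real.log (nrm w (g + u)) + C (A.pl w)) ∧
      (∃ u ∈ W', Real.log (A.abs w c) + Real.log (nrm w (g + u)) ≤ T W w - T W' w) := by
  have := Fintype.ofFinite ι
  obtain ⟨C, hC⟩ := exists_det_le A (n + 1)
  refine ⟨C, fun W' W g hle hn' hn hg hg' => ?_⟩
  obtain ⟨x, hx, hxW⟩ := exists_basis_fin hn'
  have hgx : g ∉ span E (Set.range x) := by rwa [hxW]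
  have hcons : LinearIndependent E (Fin.cons g x : Fin (n + 1) → ι → E) :=
    linearIndependent_finCons.mpr ⟨hx, hgx⟩
  have hconsW : span E (Set.range (Fin.cons g x : Fin (n + 1) → ι → E)) = W := by
    apply span_eq_of_mem_of_finrank hcons _ hn
    intro k
    refine Fin.cases ?_ (fun k => ?_) k
    · simpa using hg
    · rw [Fin.cons_succ]; exact hle (hxW ▸ subset_span ⟨k, rfl⟩)
  obtain ⟨c₁, hc₁, h₁⟩ := T_eq (A := A) hcons hconsW
  obtain ⟨c₂, hc₂, h₂⟩ := T_eq (A := A) hx hxW
  refine ⟨c₂ * c₁⁻¹, mul_ne_zero hc₂ (inv_ne_zero hc₁), fun w => ?_⟩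
  have hlogc : Real.log (A.abs w (c₂ * c₁⁻¹)) = Real.log (A.abs w c₂) - Real.log (A.abs w c₁) := by
    rw [map_mul, map_inv₀, Real.log_mul ((A.abs w).pos hc₂).ne'
      (inv_ne_zero ((A.abs w).pos hc₁).ne'), Real.log_inv]
    ring
  obtain ⟨s, U, y, -, hU0, hUp, hxy, hys, hspan, hy1⟩ := exists_echelon_le w hx
  have hxy' : x = fun k => ∑ l, U k l • y l := funext hxy
  -- key identity for Pluecker norms
  have key : ∀ u ∈ W', plk w (Fin.cons g x : Fin (n + 1) → ι → E) =
      plk w x * plk w (Fin.cons (g + u) y : Fin (n + 1) → ι → E) := by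
    intro u hu
    rw [← hUp]
    conv_lhs => rw [hxy']
    unfold plk
    rw [Real.mul_iSup_of_nonneg ((A.abs w).nonneg _)]
    have hu' : u ∈ span E (Set.range y) := by rw [hspan, hxW]; exact hu
    simp only [mnr_cons_mul U y g u hu', map_mul]
  have hpx : 0 < plk w x := plk_pos w hx
  have hpg : 0 < plk w (Fin.cons g x : Fin (n + 1) → ι → E) := plk_pos w hcons
  have hT : T W w - T W' w = Real.log (plk w (Fin.cons g x : Fin (n + 1) → ι → E)) -
      Real.log (plk w x) + Real.log (A.abs w (c₂ * c₁⁻¹)) := by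
    rw [hlogc, h₁ w, h₂ w]; ring
  have hgu0 : ∀ u ∈ W', g + u ≠ 0 := fun u hu h => hg' (by
    rw [eq_neg_of_add_eq_zero_left h]; exact neg_mem hu)
  have hfac : ∀ u ∈ W', T W w - T W' w =
      Real.log (A.abs w (c₂ * c₁⁻¹)) +
        Real.log (plk w (Fin.cons (g + u) y : Fin (n + 1) → ι → E)) := by
    intro u hu
    have hpos : 0 < plk w (Fin.cons (g + u) y : Fin (n + 1) → ι → E) := by
      have := key u hu
      by_contra h
      push Not at h
      have h2 : plk w x * plk w (Fin.cons (g + u) y : Fin (n + 1) → ι → E) ≤ 0 :=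
        mul_nonpos_of_nonneg_of_nonpos hpx.le h
      rw [← this] at h2
      exact absurd h2 (not_le.mpr hpg)
    rw [hT, key u hu, Real.log_mul hpx.ne' hpos.ne']
    ring
  constructor
  · intro u hu
    rw [hfac u hu, add_assoc]
    apply add_le_add_right
    have hnpos : 0 < nrm w (g + u) := nrm_pos w (hgu0 u hu)
    have hle : plk w (Fin.cons (g + u) y : Fin (n + 1) → ι → E) ≤ cst A C w * nrm w (g + u) := by
      apply plk_le (mul_nonneg (cst_pos _ _).le (nrm_nonneg _ _))
      intro s'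
      have := hC w (Matrix.of fun k j => (Fin.cons (g + u) y : Fin (n + 1) → ι → E) k (s' j))
        (Fin.cons (nrm w (g + u)) (fun _ => 1)) (by
          intro i
          refine Fin.cases ?_ (fun i => ?_) i
          · simpa using nrm_nonneg w (g + u)
          · simp) (by
          intro i j
          refine Fin.cases ?_ (fun i => ?_) i
          · simpa using le_nrm w (g + u) (s' j)
          · simpa using hy1 i (s' j))
      rw [Fin.prod_univ_succ] at this
      simpa [mnr] using this
    have hpos : 0 < plk w (Fin.cons (g + u) y : Fin (n + 1) → ι → E) := by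
      have := key u hu
      by_contra h
      push Not at h
      have h2 : plk w x * plk w (Fin.cons (g + u) y : Fin (n + 1) → ι → E) ≤ 0 :=
        mul_nonpos_of_nonneg_of_nonpos hpx.le h
      rw [← this] at h2
      exact absurd h2 (not_le.mpr hpg)
    calc Real.log (plk w (Fin.cons (g + u) y : Fin (n + 1) → ι → E))
        ≤ Real.log (cst A C w * nrm w (g + u)) := Real.log_le_log hpos hle
      _ = _ := by
          rw [Real.log_mul (cst_pos _ _).ne' hnpos.ne', log_cst]; ring
  · let u : ι → E := - ∑ j, g (s j) • y j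
    have hu : u ∈ W' := by
      rw [← hxW, ← hspan]
      exact neg_mem (sum_mem fun j _ => smul_mem _ _ (subset_span ⟨j, rfl⟩))
    refine ⟨u, hu, ?_⟩
    rw [hfac u hu]
    apply add_le_add_right
    apply Real.log_le_log (nrm_pos w (hgu0 u hu))
    apply nrm_le (by
      obtain ⟨s', hs'⟩ := exists_mnr_ne_zero hcons
      exact ((A.abs w).nonneg _).trans (le_plk w _ s'))
    intro i
    have hvan : ∀ j, (g + u) (s j) = 0 := by
      intro j
      simp [u, hys, Finset.sum_apply]
    have hdet : mnr (Fin.cons (g + u) y : Fin (n + 1) → ι → E) (Fin.cons i s) = (g + u) i := by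
      unfold mnr
      rw [Matrix.det_succ_row_zero, Fin.sum_univ_succ]
      have h2 : (Matrix.of fun k j => (Fin.cons (g + u) y : Fin (n + 1) → ι → E) k
          ((Fin.cons i s : Fin (n + 1) → ι) j)).submatrix Fin.succ (Fin.succAbove 0) =
          (1 : Matrix (Fin n) (Fin n) E) := by
        ext k j
        simp [hys, Matrix.one_apply]
      rw [h2]
      simp only [Matrix.of_apply, Fin.cons_zero, Fin.cons_succ, hvan]
      simp
    rw [← hdet]
    exact le_plk w _ _

/-- (L2) similarities -/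
theorem exists_T_map [Finite ι] (n : ℕ) : ∃ C : ACon A, ∀ (W W' : Submodule E (ι → E))
    (φ : W ≃ₗ[E] W'), finrank E W = n → ∃ c : E, c ≠ 0 ∧ ∀ w : A.Pt,
      (∀ K : ℝ, 0 < K → (∀ x : W, nrm w (φ x : ι → E) ≤ K * nrm w (x : ι → E)) →
        T W' w ≤ T W w + Real.log (A.abs w c) + n * Real.log K + C (A.pl w)) ∧
      (∀ K : ℝ, 0 < K → (∀ x : W, nrm w (x : ι → E) ≤ K * nrm w (φ x : ι → E)) →
        T W w ≤ T W' w - Real.log (A.abs w c) + n * Real.log K + C (A.pl w)) := by
  obtain ⟨C, hC⟩ := exists_det_le A n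
  refine ⟨C, fun W W' φ hn => ?_⟩
  -- one sided statement, for bases
  have main : ∀ (W W' : Submodule E (ι → E)) (φ : W ≃ₗ[E] W') (x : Fin n → ι → E)
      (hxm : ∀ k, x k ∈ W), LinearIndependent E x → span E (Set.range x) = W →
      ∀ (w : A.Pt) (K : ℝ), 0 < K → (∀ x : W, nrm w (φ x : ι → E) ≤ K * nrm w (x : ι → E)) →
        Real.log (plk w (fun k => (φ ⟨x k, hxm k⟩ : ι → E))) ≤
          Real.log (plk w x) + n * Real.log K + C (A.pl w) := by
    intro W W' φ x hxm hx hxW w K hK hφ
    obtain ⟨s, U, y, -, hU0, hUp, hxy, hys, hspan, hy1⟩ := exists_echelon_le w hx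
    have hym : ∀ k, y k ∈ W := fun k => by rw [← hxW, ← hspan]; exact subset_span ⟨k, rfl⟩
    have hφx : (fun k => (φ ⟨x k, hxm k⟩ : ι → E)) =
        fun k => ∑ l, U k l • (φ ⟨y l, hym l⟩ : ι → E) := by
      funext k
      have : (⟨x k, hxm k⟩ : W) = ∑ l, U k l • (⟨y l, hym l⟩ : W) := by
        apply Subtype.ext
        simp [hxy k]
      rw [this, map_sum, Submodule.coe_sum]
      exact Finset.sum_congr rfl fun l _ => by rw [map_smul, Submodule.coe_smul]
    have hφxli : LinearIndependent E (fun k => (φ ⟨x k, hxm k⟩ : ι → E)) := by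
      have h1 : LinearIndependent E (fun k => (⟨x k, hxm k⟩ : W)) :=
        LinearIndependent.of_comp W.subtype hx
      have h2 := h1.map' φ.toLinearMap φ.ker
      exact h2.map' W'.subtype (ker_subtype W')
    have hle : plk w (fun k => (φ ⟨x k, hxm k⟩ : ι → E)) ≤ plk w x * (cst A C w * K ^ n) := by
      rw [hφx, plk_mul, hUp]
      apply mul_le_mul_of_nonneg_left _ (plk_pos w hx).le
      apply plk_le (mul_nonneg (cst_pos _ _).le (pow_nonneg hK.le _))
      intro s'
      have := hC w (Matrix.of fun k j => (φ ⟨y k, hym k⟩ : ι → E) (s' j)) (fun _ => K)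
        (fun _ => hK.le) (fun k j => by
          calc _ ≤ nrm w (φ ⟨y k, hym k⟩ : ι → E) := le_nrm w _ _
            _ ≤ K * nrm w (y k) := hφ ⟨y k, hym k⟩
            _ ≤ K * 1 := mul_le_mul_of_nonneg_left (nrm_le zero_le_one (hy1 k)) hK.le
            _ = K := mul_one K)
      simpa [mnr] using this
    calc _ ≤ Real.log (plk w x * (cst A C w * K ^ n)) :=
          Real.log_le_log (plk_pos w hφxli) hle
      _ = _ := by
          rw [Real.log_mul (plk_pos w hx).ne' (mul_pos (cst_pos _ _) (pow_pos hK n)).ne',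
            Real.log_mul (cst_pos _ _).ne' (pow_pos hK n).ne', log_cst, Real.log_pow]
          ring
  obtain ⟨x, hx, hxW⟩ := exists_basis_fin hn
  have hxm : ∀ k, x k ∈ W := fun k => hxW ▸ subset_span ⟨k, rfl⟩
  let z : Fin n → ι → E := fun k => (φ ⟨x k, hxm k⟩ : ι → E)
  have hz : LinearIndependent E z := by
    have h1 : LinearIndependent E (fun k => (⟨x k, hxm k⟩ : W)) :=
      LinearIndependent.of_comp W.subtype hx
    have h2 := h1.map' φ.toLinearMap φ.ker
    exact h2.map' W'.subtype (ker_subtype W')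
  have hzm : ∀ k, z k ∈ W' := fun k => (φ ⟨x k, hxm k⟩).2
  have hn' : finrank E W' = n := by rw [← φ.finrank_eq, hn]
  have hzW : span E (Set.range z) = W' := span_eq_of_mem_of_finrank hz hzm hn'
  obtain ⟨c₁, hc₁, h₁⟩ := T_eq (A := A) hx hxW
  obtain ⟨c₂, hc₂, h₂⟩ := T_eq (A := A) hz hzW
  refine ⟨c₁ * c₂⁻¹, mul_ne_zero hc₁ (inv_ne_zero hc₂), fun w => ?_⟩
  have hlogc : Real.log (A.abs w (c₁ * c₂⁻¹)) = Real.log (A.abs w c₁) - Real.log (A.abs w c₂) := by
    rw [map_mul, map_inv₀, Real.log_mul ((A.abs w).pos hc₁).ne'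
      (inv_ne_zero ((A.abs w).pos hc₂).ne'), Real.log_inv]
    ring
  refine ⟨fun K hK h => ?_, fun K hK h => ?_⟩
  · have := main W W' φ x hxm hx hxW w K hK h
    rw [h₁ w, h₂ w] at this
    rw [hlogc]
    linarith
  · have hsymm : ∀ x : W', nrm w (φ.symm x : ι → E) ≤ K * nrm w (x : ι → E) := by
      intro x
      have := h (φ.symm x)
      rwa [LinearEquiv.apply_symm_apply] at this
    have := main W' W φ.symm z hzm hz hzW w K hK hsymm
    have hback : (fun k => (φ.symm ⟨z k, hzm k⟩ : ι → E)) = x := by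
      funext k
      have : (⟨z k, hzm k⟩ : W') = φ ⟨x k, hxm k⟩ := rfl
      rw [this, LinearEquiv.symm_apply_apply]
    rw [hback, h₁ w, h₂ w] at this
    rw [hlogc]
    linarith

end Fermat.Agent.Heights
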