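import Fermat.Agent.Heights.Global

/-!
# Existence of a quadratic height with the Northcott property
-/

set_option autoImplicit false
set_option linter.unusedSectionVars false

noncomputable section

open AlgebraicCurve Module Fermat.Agent.RR WithZero
open scoped IntermediateField NNReal

namespace Fermat.Agent.Heights

local notation "E" => AlgebraicClosure ℚ

section loc

variable {K F : Type*} [Field K] [Field F] [Algebra K F]
variable {o : Place K F} {M : ℕ} (ch : Chart K o M) (A : AbsFam K)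
variable [RRCurve K F] [IsAlgClosed K]

theorem one_mem_LL {X : Divisor K F} (hX : X ≤ 0) : (1 : F) ∈ LL X := by
  rw [mem_LL one_ne_zero]
  intro v
  rw [div_apply, v.ord_one]
  exact hX v

/-- `ρ(div f - X - 2d∞, ∞) + ρ(X, ∞) ≈ log ‖f‖` -/
theorem Chart.bdd_siegel {d : ℕ} (hd : d = 2 * genusFF K F + 1)
    (hM : 40 * genusFF K F + 40 ≤ M) :
    Bdd A (fun p : Divisor K F × F => Typ o (genusFF K F + d) d p.1 ∧ p.2 ≠ 0 ∧ p.2 ∈ LL p.1)
      (fun p w => ch.rho A (div p.2 - p.1 + Finsupp.single o (-((2 * d : ℕ) : ℤ))) o w +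
        ch.rho A p.1 o w - Real.log (ch.nm A p.2 w)) := by
  set gn := genusFF K F with hgn
  have h1M : (1 : F) ∈ LL (Finsupp.single o (-(M : ℤ))) := one_mem_LL (by
    have := single_le_single (K := K) (o := o) (a := -(M : ℤ)) (b := 0) (by omega)
    rwa [Finsupp.single_zero] at this)
  -- types
  have hYt : ∀ p : Divisor K F × F, Typ o (gn + d) d p.1 ∧ p.2 ≠ 0 ∧ p.2 ∈ LL p.1 →
      Typ o (2 * d) d (div p.2 - p.1 + Finsupp.single o (-((2 * d : ℕ) : ℤ))) := by
    rintro ⟨X, f⟩ ⟨hX, hf0, hf⟩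
    dsimp only at hX hf0 hf ⊢
    constructor
    · have : 0 ≤ div f - X := sub_nonneg.mpr ((mem_LL hf0).mp hf)
      exact le_add_of_nonneg_left this
    · rw [map_add, map_sub, degree_div, hX.2, degree_single_one]
      push_cast; ring
  -- (a)
  have ha := (ch.bdd_BC A (m := gn + d + 2 * d) (m' := 2 * d) (δ := d + 2 * d) (δ' := d)
    (by omega) (by omega) (by omega) (by omega)).comp
    (Q := fun p : Divisor K F × F => Typ o (gn + d) d p.1 ∧ p.2 ≠ 0 ∧ p.2 ∈ LL p.1)
    (fun p => (p.1 + Finsupp.single o (-((2 * d : ℕ) : ℤ)),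
      div p.2 - p.1 + Finsupp.single o (-((2 * d : ℕ) : ℤ)), o)) (by
      intro p hp
      have h1 := hp.1.add (typ_single (o := o) (K := K) (2 * d))
      have h2 := hYt p hp
      exact ⟨h1.1, by rw [h1.2]; push_cast; ring, h2.1, h2.2⟩)
  -- (b)
  have hb := (ch.bdd_T1 A (m := gn + d) (k := 2 * d) (M₁ := d + 2 * d + 2 * gn) (δ := d)
    (by omega) (by omega) (by push_cast; omega)).comp
    (Q := fun p : Divisor K F × F => Typ o (gn + d) d p.1 ∧ p.2 ≠ 0 ∧ p.2 ∈ LL p.1)
    (fun p => p.1) (fun p hp => hp.1)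
  -- (c), (d)
  have hle : ∀ p : Divisor K F × F, Typ o (gn + d) d p.1 ∧ p.2 ≠ 0 ∧ p.2 ∈ LL p.1 →
      Finsupp.single o (-((gn + d + 2 * (2 * d) : ℕ) : ℤ)) ≤
        Finsupp.single o (-((2 * (2 * d) : ℕ) : ℤ)) + div p.2 := by
    rintro ⟨X, f⟩ ⟨hX, hf0, hf⟩
    have h1 := (mem_LL hf0).mp hf
    have h2 := single_add_le (o := o) (m := 2 * (2 * d)) (m' := gn + d)
      (X := Finsupp.single o (-((2 * (2 * d) : ℕ) : ℤ))) (Y := div f) le_rfl (hX.1.trans h1)
    rwa [add_comm (2 * (2 * d)) (gn + d)] at h2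
  have hc := (ch.bdd_E1 A (m := gn + d + 2 * (2 * d)) (δ := (2 * (2 * d) : ℕ))
    (by omega) (by omega)).comp
    (Q := fun p : Divisor K F × F => Typ o (gn + d) d p.1 ∧ p.2 ≠ 0 ∧ p.2 ∈ LL p.1)
    (fun p => (Finsupp.single o (-((2 * (2 * d) : ℕ) : ℤ)), p.2, (1 : F))) (by
      intro p hp
      refine ⟨single_le_single (by omega), hle p hp, degree_single_one _ _, hp.2.1,
        one_ne_zero, one_mem_LL ?_⟩
      have := single_le_single (K := K) (o := o) (a := -((2 * (2 * d) : ℕ) : ℤ)) (b := 0) (by omega)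
      rwa [Finsupp.single_zero] at this)
  have hd' := (ch.bdd_E1 A (m := gn + d + 2 * (2 * d)) (δ := (2 * (2 * d) : ℕ) - 1)
    (by omega) (by omega)).comp
    (Q := fun p : Divisor K F × F => Typ o (gn + d) d p.1 ∧ p.2 ≠ 0 ∧ p.2 ∈ LL p.1)
    (fun p => (Finsupp.single o (-((2 * (2 * d) : ℕ) : ℤ)) + Finsupp.single o 1, p.2, (1 : F))) (by
      intro p hp
      refine ⟨?_, ?_, ?_, hp.2.1, one_ne_zero, one_mem_LL ?_⟩
      · exact (single_le_single (by omega)).trans (le_single_add _ _)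
      · dsimp only
        rw [add_right_comm (Finsupp.single o (-((2 * (2 * d) : ℕ) : ℤ))) (Finsupp.single o 1)
          (div p.2)]
        exact (hle p hp).trans (le_single_add _ _)
      · dsimp only
        rw [map_add, degree_single_one, degree_single_one]; ring
      · rw [← Finsupp.single_add]
        have := single_le_single (K := K) (o := o) (a := -((2 * (2 * d) : ℕ) : ℤ) + 1) (b := 0)
          (by omega)
        rwa [Finsupp.single_zero] at this)
  -- fixed terms
  have he : Bdd A (fun p : Divisor K F × F => Typ o (gn + d) d p.1 ∧ p.2 ≠ 0 ∧ p.2 ∈ LL p.1)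
      (fun _ w => ch.rho A (Finsupp.single o (-((2 * (2 * d) : ℕ) : ℤ))) o w) :=
    ((bdd_T _).sub (bdd_T _)).comp (fun _ => ()) (fun _ _ => trivial)
  have he' : Bdd A (fun p : Divisor K F × F => Typ o (gn + d) d p.1 ∧ p.2 ≠ 0 ∧ p.2 ∈ LL p.1)
      (fun _ w => Real.log (ch.nm A 1 w)) :=
    (bdd_log_nrm (fun h => one_ne_zero ((ch.c_eq_zero_iff h1M).mp h))).comp
      (fun _ => ()) (fun _ _ => trivial)
  refine (((((ha.add hc).sub hd').sub hb).add he).sub he').congr ?_
  rintro ⟨X, f⟩ ⟨hX, hf0, hf⟩ w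
  dsimp only
  have h1 : X + Finsupp.single o (-((2 * d : ℕ) : ℤ)) +
      (div f - X + Finsupp.single o (-((2 * d : ℕ) : ℤ))) =
      Finsupp.single o (-((2 * (2 * d) : ℕ) : ℤ)) + div f := by
    have h2 : (Finsupp.single o (-((2 * (2 * d) : ℕ) : ℤ)) : Divisor K F) =
        Finsupp.single o (-((2 * d : ℕ) : ℤ)) + Finsupp.single o (-((2 * d : ℕ) : ℤ)) := by
      rw [← Finsupp.single_add]; congr 1; push_cast; ring
    rw [h2]; abel
  rw [h1, mul_one]
  unfold Chart.rho
  rw [add_right_comm (Finsupp.single o (-((2 * (2 * d) : ℕ) : ℤ))) (Finsupp.single o 1) (div f)]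
  push_cast
  ring

end loc

variable {F : Type*} [Field F] [Algebra E F] [RRCurve E F] {G : Type*} [Group G]
  (act : G →* SemilinearAut E F) {o : Place E F} {M : ℕ} (ch : Chart E o M)

/-- **Heights on the Jacobian.** -/
theorem exists_height
    (hch : ∀ g x, act g • ch.e x = ch.e (fun i => SemilinearAut.baseAut (act g) (x i)))
    (hsurj : ∀ τ : E ≃+* E, ∃ g, SemilinearAut.baseAut (act g) = τ)
    (ho : ∀ g, act g • o = o) (hM : 40 * genusFF E F + 40 ≤ M)
    (hD : ∀ P : Pic0 E F, (∀ g, act g • P = P) → ∃ D : Divisor E F, Fix act D ∧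
      Finsupp.single o (-(genusFF E F : ℤ)) ≤ D ∧ InCls D P) :
    ∃ (h : Pic0 E F → ℝ) (C : ℝ),
      (∀ x y : Pic0 E F, (∀ g, act g • x = x) → (∀ g, act g • y = y) →
        |h (x + y) + h (x - y) - 2 * (h x + h y)| ≤ C) ∧
      ∀ B : ℝ, {x : Pic0 E F | (∀ g, act g • x = x) ∧ h x ≤ B}.Finite := by
  classical
  obtain ⟨gn, hgn⟩ : ∃ gn, gn = genusFF E F := ⟨_, rfl⟩
  rw [← hgn] at hM hD
  set d : ℕ := 2 * gn + 1 with hd
  -- fixed classes
  let FC : Pic0 E F → Prop := fun x => ∀ g, act g • x = x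
  have hFadd : ∀ {x y}, FC x → FC y → FC (x + y) := fun hx hy g => by
    rw [smul_add, hx, hy]
  have hFneg : ∀ {x}, FC x → FC (-x) := fun hx g => by
    rw [smul_neg, hx]
  have hF0 : FC 0 := fun g => smul_zero (A := Pic0 E F) (act g)
  have hex : ∀ P : Pic0 E F, ∃ D : Divisor E F, FC P → (Fix act D ∧
      Finsupp.single o (-(gn : ℤ)) ≤ D ∧ InCls D P) := by
    intro P
    by_cases h : FC P
    · obtain ⟨D, h1⟩ := hD P h
      exact ⟨D, fun _ => h1⟩
    · exact ⟨0, fun h' => absurd h' h⟩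
  choose D hDD using hex
  have hDt : ∀ {P}, FC P → Typ o gn 0 (D P) := fun {P} hP =>
    ⟨(hDD P hP).2.1, by rw [(hDD P hP).2.2.degree]; simp⟩
  let χ : Pic0 E F → ℝ := fun P => ch.chi d (D P + Finsupp.single o (-(d : ℤ)))
  -- (C2)
  have hC2 : ∀ k : ℕ, k ≤ gn → ∃ C : ℝ, ∀ P, FC P →
      |ch.chi ((d + k : ℕ) : ℤ) (D P + Finsupp.single o (-((d + k : ℕ) : ℤ))) - χ P| ≤ C := by
    intro k
    induction k with
    | zero => intro _; exact ⟨0, fun P _ => by simp [χ]⟩
    | succ k ih =>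
      intro hk
      obtain ⟨C, hC⟩ := ih (by omega)
      obtain ⟨C', hC'⟩ := ch.exists_chi_T1 hch hsurj ho (m := gn + (d + k))
        (M₁ := d + k + 1 + 2 * gn) (δ := ((d + k : ℕ) : ℤ)) (by omega) (by omega) (by omega)
      refine ⟨C' + C, fun P hP => ?_⟩
      have h1 := hC P hP
      have ht : Typ o (gn + (d + k)) ((d + k : ℕ) : ℤ)
          (D P + Finsupp.single o (-((d + k : ℕ) : ℤ))) := by
        have := (hDt hP).add (typ_single (o := o) (K := E) (d + k))
        rwa [zero_add] at this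
      have h2 := hC' _ ht ((hDD P hP).1.add (fix_single ho _))
      have h3 : D P + Finsupp.single o (-((d + k : ℕ) : ℤ)) + Finsupp.single o (-(1 : ℤ)) =
          D P + Finsupp.single o (-((d + (k + 1) : ℕ) : ℤ)) := by
        rw [add_assoc, ← Finsupp.single_add]
        congr 2
        push_cast; ring
      have h4 : ((d + k : ℕ) : ℤ) + 1 = ((d + (k + 1) : ℕ) : ℤ) := by push_cast; ring
      rw [h3, h4] at h2
      have h5 := abs_add_le
        (ch.chi ((d + (k + 1) : ℕ) : ℤ) (D P + Finsupp.single o (-((d + (k + 1) : ℕ) : ℤ))) -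
          ch.chi ((d + k : ℕ) : ℤ) (D P + Finsupp.single o (-((d + k : ℕ) : ℤ))))
        (ch.chi ((d + k : ℕ) : ℤ) (D P + Finsupp.single o (-((d + k : ℕ) : ℤ))) - χ P)
      rw [sub_add_sub_cancel] at h5
      linarith
  -- (C)
  have hC : ∀ k m : ℕ, k ≤ gn → gn + (d + k) ≤ m → 2 * m ≤ M → ∃ C : ℝ, ∀ (Y : Divisor E F)
      (P : Pic0 E F), Typ o m ((d + k : ℕ) : ℤ) Y → Fix act Y → FC P →
      InCls (Y + Finsupp.single o ((d + k : ℕ) : ℤ)) P →
      |ch.chi ((d + k : ℕ) : ℤ) Y - χ P| ≤ C := by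
    intro k m hk hm hmM
    obtain ⟨C, hC⟩ := hC2 k hk
    obtain ⟨C', hC'⟩ := ch.exists_chi_div hch hsurj ho (m := m) (δ := ((d + k : ℕ) : ℤ)) hmM
      (by omega)
    refine ⟨C' + C, fun Y P hY hYf hP hcl => ?_⟩
    obtain ⟨f, hf, hYf'⟩ := (hDD P hP).2.2.exists_div hcl
    have hYX : Y = D P + Finsupp.single o (-((d + k : ℕ) : ℤ)) + div f := by
      have h1 : Y = (Y + Finsupp.single o ((d + k : ℕ) : ℤ)) +
          Finsupp.single o (-((d + k : ℕ) : ℤ)) := by
        rw [add_assoc, ← Finsupp.single_add]; simp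
      rw [h1, hYf']; abel
    have ht : Typ o m ((d + k : ℕ) : ℤ) (D P + Finsupp.single o (-((d + k : ℕ) : ℤ))) := by
      have := (hDt hP).add (typ_single (o := o) (K := E) (d + k))
      rw [zero_add] at this
      exact this.mono hm
    have h2 := hC' _ _ f hf hYX ht hY ((hDD P hP).1.add (fix_single ho _)) hYf
    have h1 := hC P hP
    have h5 := abs_add_le
      (ch.chi ((d + k : ℕ) : ℤ) Y -
        ch.chi ((d + k : ℕ) : ℤ) (D P + Finsupp.single o (-((d + k : ℕ) : ℤ))))
      (ch.chi ((d + k : ℕ) : ℤ) (D P + Finsupp.single o (-((d + k : ℕ) : ℤ))) - χ P)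
    rw [sub_add_sub_cancel] at h5
    linarith
  -- the cube relation for χ
  have hcube : ∃ C : ℝ, ∀ P A B Q : Pic0 E F, FC P → FC A → FC B → FC Q →
      |(χ P + χ (P + A + B) - χ (P + A) - χ (P + B)) -
        (χ (P + Q) + χ (P + A + B + Q) - χ (P + A + Q) - χ (P + B + Q))| ≤ C := by
    obtain ⟨C₁, hC₁⟩ := hC gn (3 * gn + (d + gn)) le_rfl (by omega) (by omega)
    obtain ⟨C₀, hC₀⟩ := hC 0 (3 * gn + (d + gn)) (by omega) (by omega) (by omega)
    obtain ⟨C₂, hC₂⟩ := ch.exists_chi_cube hch hsurj ho (m := 3 * gn + (d + gn))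
      (M₁ := d + gn + 2 * gn) (by omega) gn (δ := ((d + gn : ℕ) : ℤ))
      (by omega) (by omega)
    refine ⟨C₂ + 4 * C₁ + 4 * C₀, fun P A B Q hP hA hB hQ => ?_⟩
    set s : Divisor E F := Finsupp.single o (-((d + gn : ℕ) : ℤ)) with hs
    have hst : Typ o (d + gn) ((d + gn : ℕ) : ℤ) s := typ_single _
    let X : Fin 4 → Divisor E F := ![D P + s, D P + D A + s, D P + D B + s, D P + D A + D B + s]
    let c : Fin 4 → Pic0 E F := ![P, P + A, P + B, P + A + B]
    have hcF : ∀ i, FC (c i) := by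
      intro i
      fin_cases i
      · exact hP
      · exact hFadd hP hA
      · exact hFadd hP hB
      · exact hFadd (hFadd hP hA) hB
    have hX0 : ∀ i, Typ o (3 * gn + (d + gn)) ((d + gn : ℕ) : ℤ) (X i) := by
      intro i
      fin_cases i
      · have := (hDt hP).add hst
        rw [zero_add] at this
        exact this.mono (by omega)
      · have := ((hDt hP).add (hDt hA)).add hst
        rw [zero_add, zero_add] at this
        exact this.mono (by omega)
      · have := ((hDt hP).add (hDt hB)).add hst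
        rw [zero_add, zero_add] at this
        exact this.mono (by omega)
      · have := (((hDt hP).add (hDt hA)).add (hDt hB)).add hst
        rw [zero_add, zero_add, zero_add] at this
        exact this.mono (by omega)
    have hXf : ∀ i, Fix act (X i) := by
      intro i
      have hsf : Fix act s := fix_single ho _
      fin_cases i
      · exact (hDD P hP).1.add hsf
      · exact ((hDD P hP).1.add (hDD A hA).1).add hsf
      · exact ((hDD P hP).1.add (hDD B hB).1).add hsf
      · exact (((hDD P hP).1.add (hDD A hA).1).add (hDD B hB).1).add hsf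
    have hss : s + Finsupp.single o ((d + gn : ℕ) : ℤ) = 0 := by
      rw [hs, ← Finsupp.single_add]; simp
    have hXc : ∀ i, InCls (X i + Finsupp.single o ((d + gn : ℕ) : ℤ)) (c i) := by
      intro i
      fin_cases i
      · show InCls (D P + s + Finsupp.single o ((d + gn : ℕ) : ℤ)) P
        rw [add_assoc, hss, add_zero]; exact (hDD P hP).2.2
      · show InCls (D P + D A + s + Finsupp.single o ((d + gn : ℕ) : ℤ)) (P + A)
        rw [add_assoc, hss, add_zero]; exact (hDD P hP).2.2.add (hDD A hA).2.2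
      · show InCls (D P + D B + s + Finsupp.single o ((d + gn : ℕ) : ℤ)) (P + B)
        rw [add_assoc, hss, add_zero]; exact (hDD P hP).2.2.add (hDD B hB).2.2
      · show InCls (D P + D A + D B + s + Finsupp.single o ((d + gn : ℕ) : ℤ)) (P + A + B)
        rw [add_assoc, hss, add_zero]
        exact ((hDD P hP).2.2.add (hDD A hA).2.2).add (hDD B hB).2.2
    let DQ : Divisor E F := D Q + Finsupp.single o (gn : ℤ)
    have hDQ0 : 0 ≤ DQ := by
      have := (hDD Q hQ).2.1
      have h1 := add_le_add_left this (Finsupp.single o (gn : ℤ))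
      rw [← Finsupp.single_add] at h1
      simpa using h1
    have hDQd : Divisor.degree DQ = gn := by
      rw [map_add, (hDD Q hQ).2.2.degree, degree_single_one, zero_add]
    have hDQf : Fix act DQ := (hDD Q hQ).1.add (fix_single ho _)
    have hXDt : ∀ i, Typ o (3 * gn + (d + gn)) ((d + 0 : ℕ) : ℤ) (X i + DQ) := by
      intro i
      refine ⟨(hX0 i).1.trans (le_add_of_nonneg_right hDQ0), ?_⟩
      rw [map_add, (hX0 i).2, hDQd]
      push_cast; ring
    have hXDc : ∀ i, InCls (X i + DQ + Finsupp.single o ((d + 0 : ℕ) : ℤ)) (c i + Q) := by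
      intro i
      have h1 : X i + DQ + Finsupp.single o ((d + 0 : ℕ) : ℤ) =
          (X i + Finsupp.single o ((d + gn : ℕ) : ℤ)) + D Q := by
        have h2 : (Finsupp.single o ((d + gn : ℕ) : ℤ) : Divisor E F) =
            Finsupp.single o (gn : ℤ) + Finsupp.single o ((d + 0 : ℕ) : ℤ) := by
          rw [← Finsupp.single_add]; congr 1; push_cast; ring
        rw [h2]
        show X i + (D Q + Finsupp.single o (gn : ℤ)) + _ = _
        abel
      rw [h1]
      exact (hXc i).add (hDD Q hQ).2.2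
    have e1 : ∀ i, |ch.chi ((d + gn : ℕ) : ℤ) (X i) - χ (c i)| ≤ C₁ := fun i =>
      hC₁ (X i) (c i) (hX0 i) (hXf i) (hcF i) (hXc i)
    have e0 : ∀ i, |ch.chi ((d + 0 : ℕ) : ℤ) (X i + DQ) - χ (c i + Q)| ≤ C₀ := fun i =>
      hC₀ (X i + DQ) (c i + Q) (hXDt i) ((hXf i).add hDQf) (hFadd (hcF i) hQ) (hXDc i)
    have e2 := hC₂ X DQ hX0 (by
      show D P + s + (D P + D A + D B + s) = D P + D A + s + (D P + D B + s)
      abel) hDQ0 hDQd hXf hDQf
    have hdd : ((d + gn : ℕ) : ℤ) - (gn : ℤ) = ((d + 0 : ℕ) : ℤ) := by push_cast; ring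
    rw [hdd] at e2
    have a0 := abs_le.mp (e1 0)
    have a1 := abs_le.mp (e1 1)
    have a2 := abs_le.mp (e1 2)
    have a3 := abs_le.mp (e1 3)
    have b0 := abs_le.mp (e0 0)
    have b1 := abs_le.mp (e0 1)
    have b2 := abs_le.mp (e0 2)
    have b3 := abs_le.mp (e0 3)
    have e2' := abs_le.mp e2
    change _ ≤ ch.chi ((d + gn : ℕ) : ℤ) (X 0) - χ P ∧
      ch.chi ((d + gn : ℕ) : ℤ) (X 0) - χ P ≤ _ at a0
    change _ ≤ ch.chi ((d + gn : ℕ) : ℤ) (X 1) - χ (P + A) ∧
      ch.chi ((d + gn : ℕ) : ℤ) (X 1) - χ (P + A) ≤ _ at a1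
    change _ ≤ ch.chi ((d + gn : ℕ) : ℤ) (X 2) - χ (P + B) ∧
      ch.chi ((d + gn : ℕ) : ℤ) (X 2) - χ (P + B) ≤ _ at a2
    change _ ≤ ch.chi ((d + gn : ℕ) : ℤ) (X 3) - χ (P + A + B) ∧
      ch.chi ((d + gn : ℕ) : ℤ) (X 3) - χ (P + A + B) ≤ _ at a3
    change _ ≤ ch.chi ((d + 0 : ℕ) : ℤ) (X 0 + DQ) - χ (P + Q) ∧
      ch.chi ((d + 0 : ℕ) : ℤ) (X 0 + DQ) - χ (P + Q) ≤ _ at b0
    change _ ≤ ch.chi ((d + 0 : ℕ) : ℤ) (X 1 + DQ) - χ (P + A + Q) ∧
      ch.chi ((d + 0 : ℕ) : ℤ) (X 1 + DQ) - χ (P + A + Q) ≤ _ at b1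
    change _ ≤ ch.chi ((d + 0 : ℕ) : ℤ) (X 2 + DQ) - χ (P + B + Q) ∧
      ch.chi ((d + 0 : ℕ) : ℤ) (X 2 + DQ) - χ (P + B + Q) ≤ _ at b2
    change _ ≤ ch.chi ((d + 0 : ℕ) : ℤ) (X 3 + DQ) - χ (P + A + B + Q) ∧
      ch.chi ((d + 0 : ℕ) : ℤ) (X 3 + DQ) - χ (P + A + B + Q) ≤ _ at b3
    rw [abs_le]
    constructor <;> linarith [a0.1, a0.2, a1.1, a1.2, a2.1, a2.2, a3.1, a3.2, b0.1, b0.2, b1.1,
      b1.2, b2.1, b2.2, b3.1, b3.2, e2'.1, e2'.2]
  obtain ⟨C₃, hC₃⟩ := hcube
  refine ⟨fun x => χ x + χ (-x) - 2 * χ 0, 2 * C₃, ?_, ?_⟩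
  · intro x y hx hy
    have h1 := hC₃ 0 x y (-y) hF0 hx hy (hFneg hy)
    have h2 := hC₃ 0 (-x) (-y) y hF0 (hFneg hx) (hFneg hy) hy
    simp only [zero_add] at h1 h2
    rw [show x + y + -y = x by abel, show y + -y = 0 by abel, ← sub_eq_add_neg x y] at h1
    rw [show -x + -y + y = -x by abel, show -y + y = 0 by abel,
      show -x + -y = -(x + y) by abel, show -x + y = -(x - y) by abel] at h2
    have a := abs_le.mp h1
    have b := abs_le.mp h2
    dsimp only
    rw [abs_le]
    constructor <;> linarith [a.1, a.2, b.1, b.2]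
  · intro B
    -- Northcott
    obtain ⟨C₄, hC₄⟩ := hC 0 (gn + 2 * d) (by omega) (by omega) (by omega)
    obtain ⟨C₅, hC₅⟩ := ((ch.bdd_siegel absFam (d := d) (by omega) (by omega)).mono
      (P' := fun p : Divisor E F × F => (Typ o (genusFF E F + d) d p.1 ∧ p.2 ≠ 0 ∧
        p.2 ∈ LL p.1) ∧ Fix act p.1 ∧ (∀ g, act g • p.2 = p.2) ∧
        ∃ t, IsRep (fun w => Real.log (ch.nm absFam p.2 w)) t) (fun p hp => hp.1)).exists_abs_le
      (h := fun p => ch.hinf (div p.2 - p.1 + Finsupp.single o (-((2 * d : ℕ) : ℤ))) +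
        ch.hinf p.1 - (if h : ∃ t, IsRep (fun w => Real.log (ch.nm absFam p.2 w)) t
          then h.choose else 0)) (by
        rintro ⟨X, f⟩ ⟨⟨hX, hf0, hf⟩, hXf, hff, hrep⟩
        dsimp only at hX hf0 hf hXf hff hrep ⊢
        rw [dif_pos hrep]
        refine IsRep.sub (IsRep.add (ch.isRep_rho hch hsurj ho ?_ ?_)
          (ch.isRep_rho hch hsurj ho (single_le_trans (by omega) hX.1) hXf)) hrep.choose_spec
        · have h1 : 0 ≤ div f - X := sub_nonneg.mpr ((mem_LL hf0).mp hf)
          exact (single_le_single (by omega)).trans (le_add_of_nonneg_left h1)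
        · exact ((fix_div hff).sub hXf).add (fix_single ho _))
    -- uniqueness of representatives gives the constant for any representative: use the chosen one
    have key : ∀ P, FC P → ∃ Y : Divisor E F, Typ o (gn + 2 * d) (d : ℤ) Y ∧ Fix act Y ∧
        InCls (Y + Finsupp.single o (d : ℤ)) (-P) ∧
        ch.H Y ≤ χ P + χ (-P) + (C₄ + (gn + 2 : ℕ) * (C₅ + Real.log (gn + 2 : ℕ))) := by
      intro P hP
      set X : Divisor E F := D P + Finsupp.single o (-(d : ℤ)) with hX
      have hXt : Typ o (gn + d) (d : ℤ) X := by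
        have := (hDt hP).add (typ_single (o := o) (K := E) d)
        rwa [zero_add] at this
      have hXM : Finsupp.single o (-(M : ℤ)) ≤ X := single_le_trans (by omega) hXt.1
      have hXf : Fix act X := (hDD P hP).1.add (fix_single ho _)
      have hfr : finrank E (ch.S X) = gn + 2 := by
        rw [ch.finrank_S hXM]
        have := finrank_LL (X := X) (by rw [hXt.2]; omega)
        rw [hXt.2] at this
        omega
      have hHX := ch.H_spec hch hsurj hXM hXf
      obtain ⟨x, t, hxW, hx0, hrep, hle⟩ := hHX.exists_siegel (by omega)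
      rw [hfr] at hle
      set f : F := ch.e (fun i => ((x i : ℤ) : E)) with hf
      have hfL : f ∈ LL X := ch.e_mem_of_mem_S hXM hxW
      have hff : ∀ g, act g • f = f := by
        intro g
        rw [hf, hch]
        congr 1
        funext i
        rw [map_intCast]
      have hf0 : f ≠ 0 := by
        intro h0
        have h1 : (fun i => ((x i : ℤ) : E)) = 0 := ch.e_injective (by
          rw [map_zero]; exact h0)
        apply hx0
        funext i
        have := congrFun h1 i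
        simpa using this
      have hnm : ∀ w, ch.nm absFam f w = nrm w (fun i => ((x i : ℤ) : E)) := by
        intro w
        unfold Chart.nm
        rw [hf, ch.ce]
      have hrep' : IsRep (fun w => Real.log (ch.nm absFam f w)) t :=
        hrep.congr fun w => by rw [hnm]
      -- any two representatives agree
      have hexr : ∃ t, IsRep (fun w => Real.log (ch.nm absFam f w)) t := ⟨t, hrep'⟩
      have huniq : hexr.choose = t := by
        have h1 := hexr.choose_spec
        have h2 : ∀ a b : ℝ, IsRep (fun w => Real.log (ch.nm absFam f w)) a →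
            IsRep (fun w => Real.log (ch.nm absFam f w)) b → b ≤ a := by
          intro a b ha hb
          have h3 := ha.sub hb
          have h4 : ∃ C : ℝ, ∀ n : ℕ, True → -C ≤ (n : ℝ) * (a - b) := by
            refine Blw.exists_le (P := fun _ => True)
              (t := fun (n : ℕ) w => (n : ℝ) * (Real.log (ch.nm absFam f w) -
                Real.log (ch.nm absFam f w))) ?_ (fun n _ => h3.nsmul n)
            exact (Bdd.zero.congr fun i _ w => by ring).blw
          obtain ⟨C, hC⟩ := h4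
          by_contra hlt
          push Not at hlt
          obtain ⟨n, hn⟩ := exists_nat_gt (C / (b - a))
          have h5 := hC n trivial
          have h6 : 0 < b - a := by linarith
          rw [div_lt_iff₀ h6] at hn
          linarith
        exact le_antisymm (h2 _ _ hrep' h1) (h2 _ _ h1 hrep')
      set Y : Divisor E F := div f - X + Finsupp.single o (-((2 * d : ℕ) : ℤ)) with hY
      have hYt : Typ o (gn + 2 * d) (d : ℤ) Y := by
        constructor
        · have h1 : 0 ≤ div f - X := sub_nonneg.mpr ((mem_LL hf0).mp hfL)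
          exact (single_le_single (by omega)).trans (le_add_of_nonneg_left h1)
        · rw [hY, map_add, map_sub, degree_div, hXt.2, degree_single_one]
          push_cast; ring
      have hYf : Fix act Y := ((fix_div hff).sub hXf).add (fix_single ho _)
      have hYc : InCls (Y + Finsupp.single o (d : ℤ)) (-P) := by
        have h1 : Y + Finsupp.single o (d : ℤ) = - D P + div f := by
          have h2 : (Finsupp.single o (-((2 * d : ℕ) : ℤ)) : Divisor E F) =
              Finsupp.single o (-(d : ℤ)) - Finsupp.single o (d : ℤ) := by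
            rw [← Finsupp.single_sub]; congr 1; push_cast; ring
          rw [hY, hX, h2]; abel
        rw [h1]
        exact (hDD P hP).2.2.neg.add_div hf0
      refine ⟨Y, hYt, hYf, hYc, ?_⟩
      have h1 := hC₅ (X, f) ⟨⟨by rw [← hgn]; exact hXt, hf0, hfL⟩, hXf, hff, hexr⟩
      dsimp only at h1
      rw [dif_pos hexr, huniq] at h1
      have h2 := hC₄ Y (-P) hYt hYf (hFneg hP) hYc
      have a := abs_le.mp h1
      have b := abs_le.mp h2
      -- definitions
      have hn : ((((d + 0 : ℕ) : ℤ) + 1 - genusFF E F : ℤ) : ℝ) = ((gn + 2 : ℕ) : ℝ) := by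
        rw [← hgn]
        push_cast [hd]; ring
      have hn' : (((d : ℤ) + 1 - genusFF E F : ℤ) : ℝ) = ((gn + 2 : ℕ) : ℝ) := by
        rw [← hgn]
        push_cast [hd]; ring
      have hchiY : ch.chi ((d + 0 : ℕ) : ℤ) Y = ch.H Y - ((gn + 2 : ℕ) : ℝ) * ch.hinf Y := by
        unfold Chart.chi; rw [hn]
      have hchiX : χ P = ch.H X - ((gn + 2 : ℕ) : ℝ) * ch.hinf X := by
        show ch.chi d X = _
        unfold Chart.chi; rw [hn']
      rw [hchiY] at b
      have hpos : (0 : ℝ) < ((gn + 2 : ℕ) : ℝ) := by positivity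
      have c1 : ch.hinf Y ≤ C₅ + t - ch.hinf X := by linarith [a.2]
      have c2 : ((gn + 2 : ℕ) : ℝ) * ch.hinf Y ≤ ((gn + 2 : ℕ) : ℝ) *
          (C₅ + (Real.log (gn + 2 : ℕ) + ch.H X / (gn + 2 : ℕ)) - ch.hinf X) :=
        mul_le_mul_of_nonneg_left (by linarith) hpos.le
      have c3 : ((gn + 2 : ℕ) : ℝ) *
          (C₅ + (Real.log (gn + 2 : ℕ) + ch.H X / (gn + 2 : ℕ)) - ch.hinf X) =
          ((gn + 2 : ℕ) : ℝ) * (C₅ + Real.log (gn + 2 : ℕ)) +
            (ch.H X - ((gn + 2 : ℕ) : ℝ) * ch.hinf X) := by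
        field_simp
        ring
      rw [c3, ← hchiX] at c2
      linarith [b.2]
    -- finiteness of the possible Y
    set B' : ℝ := B + 2 * χ 0 + (C₄ + (gn + 2 : ℕ) * (C₅ + Real.log (gn + 2 : ℕ))) with hB'
    have hfinY : {Y : Divisor E F | Typ o (gn + 2 * d) (d : ℤ) Y ∧ Fix act Y ∧
        ch.H Y ≤ B'}.Finite := by
      refine Set.Finite.of_finite_image (f := ch.S)
        ((finite_hasHt (ι := ch.ι) (gn + 2) B').subset ?_) ?_
      · rintro _ ⟨Y, ⟨hYt, hYf, hYH⟩, rfl⟩
        have hYM : Finsupp.single o (-(M : ℤ)) ≤ Y := single_le_trans (by omega) hYt.1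
        refine ⟨?_, ch.H Y, ch.H_spec hch hsurj hYM hYf, hYH⟩
        rw [ch.finrank_S hYM]
        have := finrank_LL (X := Y) (by rw [hYt.2]; omega)
        rw [hYt.2] at this
        omega
      · rintro Y ⟨hYt, -, -⟩ Y' ⟨hYt', -, -⟩ heq
        have hYM : Finsupp.single o (-(M : ℤ)) ≤ Y := single_le_trans (by omega) hYt.1
        have hYM' : Finsupp.single o (-(M : ℤ)) ≤ Y' := single_le_trans (by omega) hYt'.1
        apply LL_injective
        · rw [hYt.2]; omega
        · rw [hYt'.2]; omega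
        · rw [← ch.map_e_S hYM, ← ch.map_e_S hYM', heq]
    have key' : ∀ P, ∃ Y : Divisor E F, FC P → (Typ o (gn + 2 * d) (d : ℤ) Y ∧ Fix act Y ∧
        InCls (Y + Finsupp.single o (d : ℤ)) (-P) ∧
        ch.H Y ≤ χ P + χ (-P) + (C₄ + (gn + 2 : ℕ) * (C₅ + Real.log (gn + 2 : ℕ)))) := by
      intro P
      by_cases h : FC P
      · obtain ⟨Y, hY⟩ := key P h
        exact ⟨Y, fun _ => hY⟩
      · exact ⟨0, fun h' => absurd h' h⟩
    choose Y hY using key'
    refine Set.Finite.of_finite_image (f := Y) (hfinY.subset ?_) ?_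
    · rintro _ ⟨P, ⟨hP, hle⟩, rfl⟩
      obtain ⟨h1, h2, -, h4⟩ := hY P hP
      refine ⟨h1, h2, ?_⟩
      dsimp only at hle
      rw [hB']
      linarith
    · rintro P ⟨hP, -⟩ P' ⟨hP', -⟩ heq
      obtain ⟨-, -, h3, -⟩ := hY P hP
      obtain ⟨-, -, h3', -⟩ := hY P' hP'
      rw [heq] at h3
      exact neg_injective (h3.unique h3')

end Fermat.Agent.Heights
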