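import Fermat.Agent.Heights.QbarFam
import Fermat.Agent.Heights.Cube
import Fermat.Prelude.Def_AlgebraicCurve_BaseChangeGalois

/-!
# Global heights on the Jacobian of a curve over `ℚ̄` with a descent datum
-/

set_option autoImplicit false
set_option linter.unusedSectionVars false

noncomputable section

open AlgebraicCurve Module Fermat.Agent.RR WithZero
open scoped IntermediateField NNReal

namespace Fermat.Agent.Heights

local notation "E" => AlgebraicClosure ℚ

section pic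

variable {K F : Type*} [Field K] [Field F] [Algebra K F]

/-- `D` is a divisor of degree zero in the class `P`. -/
def InCls (D : Divisor K F) (P : Pic0 K F) : Prop :=
  ∃ h : D ∈ Divisor.degZero (K := K) (F := F), Pic0.mk ⟨D, h⟩ = P

theorem InCls.add {D D' : Divisor K F} {P P' : Pic0 K F} (h : InCls D P) (h' : InCls D' P') :
    InCls (D + D') (P + P') := by
  obtain ⟨h1, rfl⟩ := h
  obtain ⟨h2, rfl⟩ := h'
  exact ⟨add_mem h1 h2, rfl⟩

theorem InCls.neg {D : Divisor K F} {P : Pic0 K F} (h : InCls D P) : InCls (-D) (-P) := by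
  obtain ⟨h1, rfl⟩ := h
  exact ⟨neg_mem h1, rfl⟩

theorem InCls.unique {D : Divisor K F} {P P' : Pic0 K F} (h : InCls D P) (h' : InCls D P') :
    P = P' := by
  obtain ⟨h1, rfl⟩ := h
  obtain ⟨h2, rfl⟩ := h'
  rfl

theorem InCls.degree {D : Divisor K F} {P : Pic0 K F} (h : InCls D P) :
    Divisor.degree D = 0 := h.1

variable [HasPrincipalDivisors K F]

theorem InCls.exists_div {D D' : Divisor K F} {P : Pic0 K F} (h : InCls D P) (h' : InCls D' P) :
    ∃ f : F, f ≠ 0 ∧ D' = D + div f := by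
  obtain ⟨h1, rfl⟩ := h
  obtain ⟨h2, h3⟩ := h'
  have h4 := (QuotientAddGroup.eq (s := (Divisor.principal (K := K) (F := F)).addSubgroupOf
      (Divisor.degZero (K := K) (F := F)))).mp h3.symm
  rw [AddSubgroup.mem_addSubgroupOf] at h4
  obtain ⟨f, hf, hD⟩ := h4
  refine ⟨f, hf, ?_⟩
  ext v
  have h5 := hD v
  rw [AddSubgroup.coe_add, AddSubgroup.coe_neg, Finsupp.add_apply, Finsupp.neg_apply] at h5
  rw [Finsupp.add_apply, div_apply]
  change - D v + D' v = _ at h5
  omega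

theorem InCls.add_div {D : Divisor K F} {P : Pic0 K F} (h : InCls D P) {f : F} (hf : f ≠ 0) :
    InCls (D + div f) P := by
  obtain ⟨h1, rfl⟩ := h
  refine ⟨add_mem h1 (degree_div f), ?_⟩
  apply (QuotientAddGroup.eq (s := (Divisor.principal (K := K) (F := F)).addSubgroupOf
      (Divisor.degZero (K := K) (F := F)))).mpr
  rw [AddSubgroup.mem_addSubgroupOf]
  refine ⟨f⁻¹, inv_ne_zero hf, fun v => ?_⟩
  rw [AddSubgroup.coe_add, AddSubgroup.coe_neg, Finsupp.add_apply, Finsupp.neg_apply]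
  change - ((D + div f : Divisor K F) v) + D v = _
  rw [Finsupp.add_apply, div_apply, v.ord_inv]
  ring

end pic

variable {F : Type*} [Field F] [Algebra E F] [RRCurve E F] {G : Type*} [Group G]
  (act : G →* SemilinearAut E F) {o : Place E F} {M : ℕ} (ch : Chart E o M)

/-- fixed divisors -/
def Fix (X : Divisor E F) : Prop := ∀ g, act g • X = X

variable {act}

theorem Fix.add {X Y : Divisor E F} (hX : Fix act X) (hY : Fix act Y) : Fix act (X + Y) :=
  fun g => by rw [smul_add, hX, hY]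

theorem Fix.neg {X : Divisor E F} (hX : Fix act X) : Fix act (-X) :=
  fun g => by rw [smul_neg, hX]

theorem Fix.sub {X Y : Divisor E F} (hX : Fix act X) (hY : Fix act Y) : Fix act (X - Y) :=
  fun g => by rw [smul_sub, hX, hY]

theorem fix_single (ho : ∀ g, act g • o = o) (n : ℤ) : Fix act (Finsupp.single o n) :=
  fun g => by rw [SemilinearAut.smul_single, ho]

theorem smul_div (s : SemilinearAut E F) (f : F) :
    s • (div f : Divisor E F) = div (s • f) := by
  ext v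
  rw [SemilinearAut.divisor_smul_apply, div_apply, div_apply]
  have := SemilinearAut.ord_smul s (s⁻¹ • v) f
  rw [smul_inv_smul] at this
  exact this.symm

theorem fix_div {f : F} (hf : ∀ g, act g • f = f) : Fix act (div f) :=
  fun g => by rw [smul_div, hf]

theorem Fix.smul_mem {X : Divisor E F} (hX : Fix act X) (g : G) {f : F} (hf : f ∈ LL X) :
    act g • f ∈ LL X := by
  rcases eq_or_ne f 0 with rfl | hf0
  · rw [smul_zero]; exact zero_mem _
  have h0 : act g • f ≠ 0 := by rwa [Ne, smul_eq_zero_iff_eq]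
  rw [mem_LL hf0] at hf
  rw [mem_LL h0, ← smul_div]
  intro v
  rw [SemilinearAut.divisor_smul_apply, ← hX g, SemilinearAut.divisor_smul_apply]
  exact hf _

section fixed

variable (hch : ∀ g x, act g • ch.e x = ch.e (fun i => SemilinearAut.baseAut (act g) (x i)))
  (hsurj : ∀ τ : E ≃+* E, ∃ g, SemilinearAut.baseAut (act g) = τ)

include hch hsurj in
theorem Chart.exists_H {X : Divisor E F} (hX : Finsupp.single o (-(M : ℤ)) ≤ X)
    (hfix : Fix act X) : ∃ h : ℝ, HasHt (ch.S X) h := by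
  apply exists_hasHt
  intro τ x hx
  obtain ⟨g, hg⟩ := hsurj τ
  have h1 := ch.e_mem_of_mem_S hX hx
  have h2 := hfix.smul_mem g h1
  rw [hch, hg] at h2
  have h3 := ch.c_mem_S h2
  rwa [ch.ce] at h3

/-- The height of a fixed divisor. -/
def Chart.H (X : Divisor E F) : ℝ := by
  classical
  exact if h : ∃ h : ℝ, HasHt (ch.S X) h then h.choose else 0

include hch hsurj in
theorem Chart.H_spec {X : Divisor E F} (hX : Finsupp.single o (-(M : ℤ)) ≤ X)
    (hfix : Fix act X) : HasHt (ch.S X) (ch.H X) := by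
  classical
  have h := ch.exists_H hch hsurj hX hfix
  unfold Chart.H
  rw [dif_pos h]
  exact h.choose_spec

/-- `h_∞` -/
def Chart.hinf (X : Divisor E F) : ℝ := ch.H X - ch.H (X + Finsupp.single o 1)

/-- `χ_δ` -/
def Chart.chi (δ : ℤ) (X : Divisor E F) : ℝ :=
  ch.H X - ((δ + 1 - genusFF E F : ℤ) : ℝ) * ch.hinf X

include hch hsurj in
theorem Chart.isRep_t {X : Divisor E F} (hX : Finsupp.single o (-(M : ℤ)) ≤ X)
    (hfix : Fix act X) : IsRep (fun w => ch.t absFam X w) (ch.H X) :=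
  (ch.H_spec hch hsurj hX hfix).isRep

variable (ho : ∀ g, act g • o = o)

include hch hsurj ho in
theorem Chart.isRep_rho {X : Divisor E F} (hX : Finsupp.single o (-(M : ℤ)) ≤ X)
    (hfix : Fix act X) : IsRep (fun w => ch.rho absFam X o w) (ch.hinf X) :=
  (ch.isRep_t hch hsurj hX hfix).sub (ch.isRep_t hch hsurj (hX.trans (le_single_add _ _))
    (hfix.add (fix_single ho 1)))

include hch hsurj ho in
theorem Chart.isRep_T' (δ : ℤ) {X : Divisor E F} (hX : Finsupp.single o (-(M : ℤ)) ≤ X)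
    (hfix : Fix act X) : IsRep (fun w => ch.T' absFam δ X w) (ch.chi δ X) :=
  (ch.isRep_t hch hsurj hX hfix).sub ((ch.isRep_rho hch hsurj ho hX hfix).zsmul _)

include hch hsurj ho in
/-- class invariance -/
theorem Chart.exists_chi_div {m : ℕ} {δ : ℤ} (hm : 2 * m ≤ M)
    (hδ : 2 * (genusFF E F : ℤ) + 1 ≤ δ) : ∃ C : ℝ, ∀ (X Y : Divisor E F) (f : F),
      f ≠ 0 → Y = X + div f → Typ o m δ X → Typ o m δ Y → Fix act X → Fix act Y →
      |ch.chi δ Y - ch.chi δ X| ≤ C := by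
  obtain ⟨C, hC⟩ := ((ch.bdd_CI absFam hm hδ).mono
    (P' := fun p : Divisor E F × F => Typ o m δ p.1 ∧ Typ o m δ (p.1 + div p.2) ∧ p.2 ≠ 0 ∧
      Fix act p.1 ∧ Fix act (p.1 + div p.2))
    (fun p hp => ⟨hp.1.1, hp.2.1.1, hp.1.2, hp.2.2.1⟩)).exists_abs_le
    (h := fun p => ch.chi δ (p.1 + div p.2) - ch.chi δ p.1) (by
      rintro ⟨X, f⟩ ⟨h1, h2, -, h3, h4⟩
      have hM' : m ≤ M := by omega
      have h5 := ch.isRep_T' hch hsurj ho δ (single_le_trans hM' h1.1) h3
      have h6 := ch.isRep_T' hch hsurj ho δ (single_le_trans hM' h2.1) h4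
      exact h6.sub h5)
  refine ⟨C, ?_⟩
  rintro X _ f hf rfl hX hY hX' hY'
  exact hC (X, f) ⟨hX, hY, hf, hX', hY'⟩

include hch hsurj ho in
/-- translation by `∞` -/
theorem Chart.exists_chi_T1 {m M₁ : ℕ} {δ : ℤ} (hM : m + 1 + M₁ ≤ M)
    (hδ : 2 * (genusFF E F : ℤ) ≤ δ) (hM₁ : δ + 1 + 2 * (genusFF E F : ℤ) ≤ M₁) :
    ∃ C : ℝ, ∀ X : Divisor E F, Typ o m δ X → Fix act X →
      |ch.chi (δ + 1) (X + Finsupp.single o (-(1 : ℤ))) - ch.chi δ X| ≤ C := by
  obtain ⟨C, hC⟩ := ((ch.bdd_T'_T1 absFam hM hδ hM₁).mono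
    (P' := fun X : Divisor E F => Typ o m δ X ∧ Fix act X)
    (fun p hp => hp.1)).exists_abs_le
    (h := fun X => ch.chi (δ + 1) (X + Finsupp.single o (-(1 : ℤ))) - ch.chi δ X) (fun X hX =>
      (ch.isRep_T' hch hsurj ho (δ + 1) (by
        have := (hX.1.add (typ_single (o := o) (K := E) 1)).1
        simp only [Nat.cast_one] at this
        exact single_le_trans (by omega) this) (hX.2.add (fix_single ho _))).sub
        (ch.isRep_T' hch hsurj ho δ (single_le_trans (by omega) hX.1.1) hX.2))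
  exact ⟨C, fun X h1 h2 => hC X ⟨h1, h2⟩⟩

include hch hsurj ho in
/-- the cube relation -/
theorem Chart.exists_chi_cube {m M₁ : ℕ} (hM : 2 * m + M₁ ≤ M) (c : ℕ) {δ : ℤ}
    (hδ : 2 * (genusFF E F : ℤ) ≤ δ - c) (hM₁ : δ + 2 * (genusFF E F : ℤ) ≤ M₁) :
    ∃ C : ℝ, ∀ (X : Fin 4 → Divisor E F) (D : Divisor E F), (∀ i, Typ o m δ (X i)) →
      X 0 + X 3 = X 1 + X 2 → 0 ≤ D → Divisor.degree D = c → (∀ i, Fix act (X i)) → Fix act D →
      |(ch.chi δ (X 0) + ch.chi δ (X 3) - ch.chi δ (X 1) - ch.chi δ (X 2)) -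
        (ch.chi (δ - c) (X 0 + D) + ch.chi (δ - c) (X 3 + D) - ch.chi (δ - c) (X 1 + D)
          - ch.chi (δ - c) (X 2 + D))| ≤ C := by
  obtain ⟨C, hC⟩ := ((ch.bdd_cube' absFam hM c hδ hM₁).mono
    (P' := fun p : (Fin 4 → Divisor E F) × Divisor E F =>
      ((∀ i, Typ o m δ (p.1 i)) ∧ p.1 0 + p.1 3 = p.1 1 + p.1 2 ∧ 0 ≤ p.2 ∧
          Divisor.degree p.2 = c) ∧ (∀ i, Fix act (p.1 i)) ∧ Fix act p.2)
    (fun p hp => hp.1)).exists_abs_le
    (h := fun p => (ch.chi δ (p.1 0) + ch.chi δ (p.1 3) - ch.chi δ (p.1 1) - ch.chi δ (p.1 2)) -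
        (ch.chi (δ - c) (p.1 0 + p.2) + ch.chi (δ - c) (p.1 3 + p.2) - ch.chi (δ - c) (p.1 1 + p.2)
          - ch.chi (δ - c) (p.1 2 + p.2))) (by
      rintro ⟨X, D⟩ ⟨⟨hX, -, hD, -⟩, hfX, hfD⟩
      have hM' : m ≤ M := by omega
      have h1 : ∀ i, IsRep (fun w => ch.T' absFam δ (X i) w) (ch.chi δ (X i)) := fun i =>
        ch.isRep_T' hch hsurj ho δ (single_le_trans hM' (hX i).1) (hfX i)
      have h2 : ∀ i, IsRep (fun w => ch.T' absFam (δ - c) (X i + D) w)
          (ch.chi (δ - c) (X i + D)) := fun i =>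
        ch.isRep_T' hch hsurj ho _ ((single_le_trans hM' (hX i).1).trans
          (le_add_of_nonneg_right hD)) ((hfX i).add hfD)
      exact ((((h1 0).add (h1 3)).sub (h1 1)).sub (h1 2)).sub
        ((((h2 0).add (h2 3)).sub (h2 1)).sub (h2 2)))
  exact ⟨C, fun X D h1 h2 h3 h4 h5 h6 => hC (X, D) ⟨⟨h1, h2, h3, h4⟩, h5, h6⟩⟩

include hch hsurj ho in
/-- lower bound for `h_∞` -/
theorem Chart.exists_hinf_ge {m : ℕ} {δ : ℤ} (hm : m ≤ M)
    (hδ : 2 * (genusFF E F : ℤ) ≤ δ) : ∃ C : ℝ, ∀ X : Divisor E F, Typ o m δ X → Fix act X →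
      -C ≤ ch.hinf X := by
  obtain ⟨C, hC⟩ := ((ch.blw_rho absFam hm hδ).mono
    (P' := fun X : Divisor E F => Typ o m δ X ∧ Fix act X)
    (fun p hp => hp.1)).exists_le (h := fun X => ch.hinf X) (fun X hX =>
      ch.isRep_rho hch hsurj ho (single_le_trans hm hX.1.1) hX.2)
  exact ⟨C, fun X h1 h2 => hC X ⟨h1, h2⟩⟩

end fixed

end Fermat.Agent.Heights
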