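import Fermat.Agent.Heights.AbsFam
import Mathlib.LinearAlgebra.Matrix.Rank
import Mathlib.LinearAlgebra.Matrix.NonsingularInverse
import Mathlib.LinearAlgebra.Dimension.StrongRankCondition

/-!
# Norms, minors, echelon bases and the local height `T` of a subspace
-/

set_option autoImplicit false

noncomputable section

open scoped NNReal
open Module Submodule

namespace Fermat.Agent.Heights

section Index

variable {E : Type*} [Field E] {M : Type*} [AddCommGroup M] [Module E M]

/-- In a family of vectors whose span has dimension `n` one finds `n` linearly independent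
members spanning the same space. -/
theorem exists_index {κ : Type*} (v : κ → M) {n : ℕ} [Module.Finite E (span E (Set.range v))]
    (h : finrank E (span E (Set.range v)) = n) :
    ∃ a : Fin n → κ, LinearIndependent E (v ∘ a) ∧
      span E (Set.range (v ∘ a)) = span E (Set.range v) := by
  obtain ⟨f, hf, hs, hli⟩ := Submodule.exists_fun_fin_finrank_span_eq E (Set.range v)
  subst h
  choose a ha using hf
  have : v ∘ a = f := funext ha
  exact ⟨a, this ▸ hli, this ▸ hs⟩

theorem span_eq_of_mem_of_finrank {n : ℕ} {W : Submodule E M} [Module.Finite E W]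
    {x : Fin n → M} (hx : LinearIndependent E x) (hW : ∀ k, x k ∈ W) (hn : finrank E W = n) :
    span E (Set.range x) = W := by
  have hle : span E (Set.range x) ≤ W := span_le.mpr (by rintro _ ⟨k, rfl⟩; exact hW k)
  apply Submodule.eq_of_le_of_finrank_eq hle
  rw [finrank_span_eq_card hx, hn, Fintype.card_fin]

theorem exists_basis_fin {n : ℕ} {W : Submodule E M} [Module.Finite E W] (hn : finrank E W = n) :
    ∃ x : Fin n → M, LinearIndependent E x ∧ span E (Set.range x) = W := by
  subst hn
  let b := Module.finBasis E W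
  refine ⟨fun k => (b k : M), ?_, ?_⟩
  · exact b.linearIndependent.map' W.subtype (Submodule.ker_subtype W)
  · apply span_eq_of_mem_of_finrank
      (b.linearIndependent.map' W.subtype (Submodule.ker_subtype W)) (fun k => (b k).2) rfl

end Index

variable {E : Type*} [Field E] {A : AbsFam E} {ι : Type*}

section Norm

/-- sup norm -/
def nrm (w : A.Pt) (x : ι → E) : ℝ := ⨆ i, A.abs w (x i)

variable [Finite ι]

theorem le_nrm (w : A.Pt) (x : ι → E) (i : ι) : A.abs w (x i) ≤ nrm w x :=
  le_ciSup (Set.finite_range (fun i => A.abs w (x i))).bddAbove i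

omit [Finite ι] in
theorem nrm_le {w : A.Pt} {x : ι → E} {B : ℝ} (hB : 0 ≤ B) (h : ∀ i, A.abs w (x i) ≤ B) :
    nrm w x ≤ B := Real.iSup_le h hB

omit [Finite ι] in
theorem nrm_nonneg (w : A.Pt) (x : ι → E) : 0 ≤ nrm w x :=
  Real.iSup_nonneg fun _ => (A.abs w).nonneg _

theorem nrm_pos (w : A.Pt) {x : ι → E} (hx : x ≠ 0) : 0 < nrm w x := by
  obtain ⟨i, hi⟩ := Function.ne_iff.mp hx
  exact ((A.abs w).pos hi).trans_le (le_nrm w x i)

omit [Finite ι] in
theorem nrm_smul (w : A.Pt) (c : E) (x : ι → E) : nrm w (c • x) = A.abs w c * nrm w x := by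
  unfold nrm
  rw [Real.mul_iSup_of_nonneg ((A.abs w).nonneg c)]
  simp

end Norm

section Minors

variable {n : ℕ}

/-- minors of `n` vectors in `E^ι` -/
def mnr (x : Fin n → ι → E) (s : Fin n → ι) : E := (Matrix.of fun k j => x k (s j)).det

theorem mnr_mul (U : Matrix (Fin n) (Fin n) E) (y : Fin n → ι → E) (s : Fin n → ι) :
    mnr (fun k => ∑ l, U k l • y l) s = U.det * mnr y s := by
  unfold mnr
  rw [← Matrix.det_mul]
  congr 1
  ext k j
  simp [Matrix.mul_apply]

theorem linearIndependent_of_mnr_ne_zero {x : Fin n → ι → E} {s : Fin n → ι}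
    (h : mnr x s ≠ 0) : LinearIndependent E x := by
  have h1 := Matrix.linearIndependent_rows_of_det_ne_zero h
  apply LinearIndependent.of_comp (LinearMap.funLeft E E s)
  exact h1

theorem exists_mnr_ne_zero [Finite ι] {x : Fin n → ι → E} (hx : LinearIndependent E x) :
    ∃ s : Fin n → ι, mnr x s ≠ 0 := by
  have := Fintype.ofFinite ι
  classical
  let X : Matrix (Fin n) ι E := Matrix.of x
  have hrank : X.rank = n := by
    have := LinearIndependent.rank_matrix (M := X) hx
    simpa using this
  rw [Matrix.rank_eq_finrank_span_cols] at hrank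
  obtain ⟨s, hs, -⟩ := exists_index X.col hrank
  refine ⟨s, ?_⟩
  have hU : IsUnit (X.submatrix id s) := by
    rw [← Matrix.linearIndependent_cols_iff_isUnit]
    exact hs
  have := (Matrix.isUnit_iff_isUnit_det _).mp hU
  exact this.ne_zero

/-- Echelon form with respect to a nonzero minor. -/
theorem exists_echelon {x : Fin n → ι → E} {s : Fin n → ι} (h : mnr x s ≠ 0) :
    ∃ (U : Matrix (Fin n) (Fin n) E) (y : Fin n → ι → E), U.det = mnr x s ∧
      (∀ k, x k = ∑ l, U k l • y l) ∧ (∀ k j, y k (s j) = if k = j then 1 else 0) ∧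
      span E (Set.range y) = span E (Set.range x) ∧
      (∀ k i, mnr x s * y k i = mnr x (Function.update s k i)) := by
  classical
  let U : Matrix (Fin n) (Fin n) E := Matrix.of fun k j => x k (s j)
  have hU : IsUnit U.det := (show U.det ≠ 0 from h).isUnit
  let y : Fin n → ι → E := fun k => ∑ l, U⁻¹ k l • x l
  have hx : ∀ k, x k = ∑ l, U k l • y l := by
    intro k
    have h1 : U * U⁻¹ = 1 := Matrix.mul_nonsing_inv U hU
    calc x k = ∑ m, (U * U⁻¹) k m • x m := by
            rw [h1]; simp [Matrix.one_apply]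
      _ = ∑ m, ∑ l, (U k l * U⁻¹ l m) • x m := by
            simp only [Matrix.mul_apply, Finset.sum_smul]
      _ = ∑ l, ∑ m, (U k l * U⁻¹ l m) • x m := Finset.sum_comm
      _ = ∑ l, U k l • y l := by
            simp only [y, Finset.smul_sum, smul_smul]
  have hy : ∀ k j, y k (s j) = if k = j then 1 else 0 := by
    intro k j
    have h1 : U⁻¹ * U = 1 := Matrix.nonsing_inv_mul U hU
    have h2 := congrFun (congrFun h1 k) j
    rw [Matrix.mul_apply, Matrix.one_apply] at h2
    rw [← h2]
    simp [y, U]
  refine ⟨U, y, rfl, hx, hy, ?_, ?_⟩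
  · apply le_antisymm
    · rw [span_le]
      rintro _ ⟨k, rfl⟩
      exact sum_mem fun l _ => smul_mem _ _ (subset_span ⟨l, rfl⟩)
    · rw [span_le]
      rintro _ ⟨k, rfl⟩
      rw [hx k]
      exact sum_mem fun l _ => smul_mem _ _ (subset_span ⟨l, rfl⟩)
  · intro k i
    have h1 : mnr x (Function.update s k i) = U.det * mnr y (Function.update s k i) := by
      conv_lhs => rw [show x = fun k => ∑ l, U k l • y l from funext hx]
      exact mnr_mul U y _
    rw [h1]
    have h2 : mnr y (Function.update s k i) = y k i := by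
      have h3 : (Matrix.of fun k' j => y k' (Function.update s k i j)) =
          (1 : Matrix (Fin n) (Fin n) E).updateCol k (fun k' => y k' i) := by
        ext k' j
        rw [Matrix.updateCol_apply, Matrix.of_apply]
        by_cases hj : j = k
        · subst hj; simp
        · rw [Function.update_of_ne hj, if_neg hj, hy, Matrix.one_apply]
      unfold mnr
      rw [h3, ← Matrix.cramer_apply]
      simp
    rw [h2]
    rfl

/-- Uniform bound for determinants (Hadamard type). -/
theorem exists_det_le (A : AbsFam E) (n : ℕ) : ∃ C : ACon A, ∀ (w : A.Pt)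
    (M : Matrix (Fin n) (Fin n) E) (B : Fin n → ℝ), (∀ i, 0 ≤ B i) →
    (∀ i j, A.abs w (M i j) ≤ B i) → A.abs w M.det ≤ cst A C w * ∏ i, B i := by
  obtain ⟨C, hC⟩ := exists_sum_le A (Equiv.Perm (Fin n))
  refine ⟨C, fun w M B hB hM => ?_⟩
  rw [Matrix.det_apply]
  refine hC w _ _ (Finset.prod_nonneg fun i _ => hB i) fun σ => ?_
  rw [Units.smul_def, zsmul_eq_mul, map_mul, map_prod]
  have h1 : A.abs w ((Equiv.Perm.sign σ : ℤ) : E) = 1 := by
    rcases Int.units_eq_one_or (Equiv.Perm.sign σ) with h | h <;> simp [h, map_neg_eq_map]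
  rw [h1, one_mul]
  calc ∏ i, A.abs w (M (σ i) i) ≤ ∏ i, B (σ i) :=
        Finset.prod_le_prod (fun _ _ => (A.abs w).nonneg _) (fun i _ => hM _ _)
    _ = ∏ i, B i := Equiv.prod_comp σ B

/-- Plücker norm -/
def plk (w : A.Pt) (x : Fin n → ι → E) : ℝ := ⨆ s : Fin n → ι, A.abs w (mnr x s)

variable [Finite ι]

theorem le_plk (w : A.Pt) (x : Fin n → ι → E) (s : Fin n → ι) :
    A.abs w (mnr x s) ≤ plk w x :=
  le_ciSup (Set.finite_range (fun s => A.abs w (mnr x s))).bddAbove s

omit [Finite ι] in
theorem plk_le {w : A.Pt} {x : Fin n → ι → E} {B : ℝ} (hB : 0 ≤ B)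
    (h : ∀ s, A.abs w (mnr x s) ≤ B) : plk w x ≤ B := Real.iSup_le h hB

theorem plk_pos (w : A.Pt) {x : Fin n → ι → E} (hx : LinearIndependent E x) : 0 < plk w x := by
  obtain ⟨s, hs⟩ := exists_mnr_ne_zero hx
  exact ((A.abs w).pos hs).trans_le (le_plk w x s)

omit [Finite ι] in
theorem plk_mul (w : A.Pt) (U : Matrix (Fin n) (Fin n) E) (y : Fin n → ι → E) :
    plk w (fun k => ∑ l, U k l • y l) = A.abs w U.det * plk w y := by
  unfold plk
  rw [Real.mul_iSup_of_nonneg ((A.abs w).nonneg _)]
  simp only [mnr_mul, map_mul]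

/-- At each point `w` a linearly independent family has an echelon form with entries of absolute
value at most one, whose transition determinant has absolute value the Plücker norm. -/
theorem exists_echelon_le (w : A.Pt) {x : Fin n → ι → E} (hx : LinearIndependent E x) :
    ∃ (s : Fin n → ι) (U : Matrix (Fin n) (Fin n) E) (y : Fin n → ι → E),
      U.det = mnr x s ∧ U.det ≠ 0 ∧ A.abs w U.det = plk w x ∧
      (∀ k, x k = ∑ l, U k l • y l) ∧ (∀ k j, y k (s j) = if k = j then 1 else 0) ∧
      span E (Set.range y) = span E (Set.range x) ∧ (∀ k i, A.abs w (y k i) ≤ 1) := by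
  obtain ⟨s₀, hs₀⟩ := exists_mnr_ne_zero hx
  have : Nonempty (Fin n → ι) := ⟨s₀⟩
  obtain ⟨s, hs⟩ := Finite.exists_max (fun s => A.abs w (mnr x s))
  have hpos : 0 < A.abs w (mnr x s) := ((A.abs w).pos hs₀).trans_le (hs s₀)
  have hne : mnr x s ≠ 0 := fun h => by rw [h, map_zero] at hpos; exact lt_irrefl _ hpos
  obtain ⟨U, y, hU, hxy, hy, hsp, hcr⟩ := exists_echelon hne
  refine ⟨s, U, y, hU, hU ▸ hne, ?_, hxy, hy, hsp, fun k i => ?_⟩
  · rw [hU]
    exact le_antisymm (le_plk w x s) (plk_le ((A.abs w).nonneg _) hs)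
  · have h1 := congrArg (A.abs w) (hcr k i)
    rw [map_mul] at h1
    have h2 := hs (Function.update s k i)
    rw [← h1] at h2
    by_contra h3
    push Not at h3
    have := mul_lt_mul_of_pos_left h3 hpos
    rw [mul_one] at this
    exact absurd h2 (not_le.mpr this)

/-- Two bases of the same space have proportional minors. -/
theorem exists_mnr_eq {x y : Fin n → ι → E} (hx : LinearIndependent E x)
    (h : span E (Set.range x) = span E (Set.range y)) :
    ∃ U : Matrix (Fin n) (Fin n) E, U.det ≠ 0 ∧ ∀ k, x k = ∑ l, U k l • y l := by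
  have h1 : ∀ k, x k ∈ span E (Set.range y) := fun k => h ▸ subset_span ⟨k, rfl⟩
  simp only [mem_span_range_iff_exists_fun] at h1
  choose U hU using h1
  refine ⟨Matrix.of U, fun h0 => ?_, fun k => (hU k).symm⟩
  obtain ⟨s, hs⟩ := exists_mnr_ne_zero hx
  apply hs
  have : x = fun k => ∑ l, (Matrix.of U) k l • y l := funext fun k => (hU k).symm
  rw [this, mnr_mul, h0, zero_mul]

end Minors

section T

variable [Finite ι]

/-- the chosen basis of a subspace -/
def bas (W : Submodule E (ι → E)) : Fin (finrank E W) → ι → E :=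
  (exists_basis_fin (W := W) rfl).choose

theorem bas_li (W : Submodule E (ι → E)) : LinearIndependent E (bas W) :=
  (exists_basis_fin (W := W) rfl).choose_spec.1

theorem span_bas (W : Submodule E (ι → E)) : span E (Set.range (bas W)) = W :=
  (exists_basis_fin (W := W) rfl).choose_spec.2

/-- The local height of a subspace: logarithm of the Plücker norm of the chosen basis. -/
def T (W : Submodule E (ι → E)) (w : A.Pt) : ℝ := Real.log (plk w (bas W))

theorem T_eq {n : ℕ} {x : Fin n → ι → E} (hx : LinearIndependent E x) {W : Submodule E (ι → E)}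
    (hW : span E (Set.range x) = W) :
    ∃ c : E, c ≠ 0 ∧ ∀ w : A.Pt, Real.log (plk w x) = Real.log (A.abs w c) + T W w := by
  obtain rfl : n = finrank E W := by
    rw [← hW, finrank_span_eq_card hx, Fintype.card_fin]
  obtain ⟨U, hU, hxU⟩ := exists_mnr_eq hx (hW.trans (span_bas W).symm)
  refine ⟨U.det, hU, fun w => ?_⟩
  have : x = fun k => ∑ l, U k l • bas W l := funext hxU
  rw [this, plk_mul, Real.log_mul ((A.abs w).pos hU).ne' (plk_pos w (bas_li W)).ne']
  rfl

end T

end Fermat.Agent.Heights
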