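import Fermat.Agent.Heights.Rep
import Fermat.Agent.Heights.LinAlg

/-!
# The family of all places of `ℚ̄`, heights of Galois stable subspaces, local to global principle
-/

set_option autoImplicit false

noncomputable section

open scoped NNReal
open Module Submodule

namespace Fermat.Agent.Heights

local notation "E" => AlgebraicClosure ℚ

attribute [local instance] isAlgClosure_rat

/-- The absolute value `|σ x|_v`. -/
def absW (v : Option Nat.Primes) (σ : E ≃ₐ[ℚ] E) : AbsoluteValue E ℝ :=
  (absE v).comp (f := (σ : E →+* E)) σ.injective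

theorem absW_apply (v : Option Nat.Primes) (σ : E ≃ₐ[ℚ] E) (x : E) :
    absW v σ x = absE v (σ x) := rfl

theorem exists_bdd (c : E) : ∃ C : Option Nat.Primes →₀ ℝ≥0,
    ∀ (v : Option Nat.Primes) (σ : E ≃ₐ[ℚ] E), absE v (σ c) ≤ Real.exp (C v) := by
  classical
  have hfin : {v : Option Nat.Primes | ∃ σ : E ≃ₐ[ℚ] E, 1 < absE v (σ c)}.Finite := by
    refine (((finite_one_lt_absE_conj c).image some).union (Set.finite_singleton none)).subset ?_
    rintro v ⟨σ, hσ⟩
    cases v with
    | none => right; rfl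
    | some p => left; exact ⟨p, ⟨σ, hσ⟩, rfl⟩
  have hB : ∀ v : Option Nat.Primes, ∃ B : ℝ≥0, ∀ σ : E ≃ₐ[ℚ] E, absE v (σ c) ≤ Real.exp B := by
    intro v
    obtain ⟨M, hM⟩ := (finite_absE_conj v c).bddAbove
    refine ⟨⟨max M 0, le_max_right _ _⟩, fun σ => ?_⟩
    have h1 : absE v (σ c) ≤ M := hM ⟨σ, rfl⟩
    have h2 : M ≤ max M 0 := le_max_left _ _
    have h3 : max M 0 + 1 ≤ Real.exp (max M 0) := Real.add_one_le_exp _
    change absE v (σ c) ≤ Real.exp (max M 0)
    linarith
  choose B hB using hB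
  refine ⟨Finsupp.onFinset hfin.toFinset (fun v => if ∃ σ : E ≃ₐ[ℚ] E, 1 < absE v (σ c) then B v
    else 0) (fun v hv => ?_), fun v σ => ?_⟩
  · rw [Set.Finite.mem_toFinset]
    by_contra h
    exact hv (if_neg h)
  · rw [Finsupp.onFinset_apply]
    split_ifs with h
    · exact hB v σ
    · push Not at h
      simpa using h σ

/-- The family of all places of `ℚ̄` fibred over the places of `ℚ`. -/
def famQ : AbsFam E where
  V := Option Nat.Primes
  Pt := Option Nat.Primes × (E ≃ₐ[ℚ] E)
  pl := Prod.fst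
  abs w := absW w.1 w.2
  arch := {none}
  nonarch := by
    rintro ⟨v, σ⟩ hv x y
    cases v with
    | none => simp at hv
    | some p =>
      rw [absW_apply, absW_apply, absW_apply, map_add]
      exact absE_add_le_max p _ _
  bdd := fun c => by
    obtain ⟨C, hC⟩ := exists_bdd c
    exact ⟨C, fun w => hC w.1 w.2⟩

@[simp] theorem famQ_abs (v : Option Nat.Primes) (σ : E ≃ₐ[ℚ] E) (x : E) :
    famQ.abs (v, σ) x = absE v (σ x) := rfl

@[simp] theorem famQ_pl (v : Option Nat.Primes) (σ : E ≃ₐ[ℚ] E) : famQ.pl (v, σ) = v := rfl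

/-- The sum of an adelic constant over all places. -/
def total (C : ACon famQ) : ℝ := C.sum fun _ r => (r : ℝ)

theorem total_add (C D : ACon famQ) : total (C + D) = total C + total D := by
  unfold total
  rw [Finsupp.sum_add_index']
  · intro; simp
  · intro _ a b; simp

theorem total_nonneg (C : ACon famQ) : 0 ≤ total C :=
  Finset.sum_nonneg fun _ _ => NNReal.coe_nonneg _

/-- **local to global principle**, elementary form. -/
theorem le_total {c : E} (hc : c ≠ 0) (C : ACon famQ) (H : ℝ)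
    (h : ∀ (v : Option Nat.Primes) (σ : E ≃ₐ[ℚ] E),
      Real.log (absE v (σ c)) + (if v = none then H else 0) ≤ C v) : H ≤ total C := by
  have h1 := norm_trick_finset hc (fun v => (C v : ℝ)) C.support (fun v hv => by
    have h0 : C v = 0 := Finsupp.notMem_support_iff.mp hv
    change ((C v : ℝ≥0) : ℝ) = 0
    rw [h0]; rfl) (fun v => if v = none then -H else 0) (fun p => by simp) (fun v σ => by
    have := h v σ
    change Real.log (absE v (σ c)) - ((C v : ℝ≥0) : ℝ) ≤ if v = none then -H else 0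
    split_ifs at this ⊢ with hv <;> linarith)
  simp only [if_true] at h1
  have h2 : total C = ∑ v ∈ C.support, ((C v : ℝ≥0) : ℝ) := rfl
  rw [h2]
  change -∑ v ∈ C.support, ((C v : ℝ≥0) : ℝ) ≤ -H at h1
  linarith

section Stable

variable {ι : Type*}

/-- Galois stable subspaces. -/
def IsStable (W : Submodule E (ι → E)) : Prop :=
  ∀ σ : E ≃ₐ[ℚ] E, ∀ x ∈ W, (fun i => σ (x i)) ∈ W

variable [Fintype ι]

/-- The logarithmic height of a Galois stable subspace (zero if the subspace is not stable). -/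
def hgt (W : Submodule E (ι → E)) : ℝ := by
  classical
  exact if h : IsStable W then Real.log (frameHeight (exists_satFrame W h).choose) else 0

theorem exists_frame (W : Submodule E (ι → E)) (hW : IsStable W) :
    ∃ b : Fin (finrank E W) → ι → ℤ, SatFrame b ∧
      LinearIndependent E (fun l (i : ι) => ((b l i : ℤ) : E)) ∧
      span E (Set.range fun l (i : ι) => ((b l i : ℤ) : E)) = W ∧
      (∀ x : ι → ℤ, (fun i => ((x i : ℤ) : E)) ∈ W → x ∈ span ℤ (Set.range b)) ∧
      hgt W = Real.log (frameHeight b) := by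
  classical
  have h := (exists_satFrame W hW).choose_spec
  refine ⟨_, h.1, h.2.1, h.2.2.1, h.2.2.2, ?_⟩
  unfold hgt
  rw [dif_pos hW]

theorem hgt_nonneg (W : Submodule E (ι → E)) : 0 ≤ hgt W := by
  classical
  by_cases hW : IsStable W
  · obtain ⟨b, hb, -, -, -, h⟩ := exists_frame W hW
    rw [h]
    exact Real.log_nonneg (by exact_mod_cast hb.one_le_frameHeight)
  · unfold hgt
    rw [dif_neg hW]

/-- (G2) -/
theorem exists_T_eq (W : Submodule E (ι → E)) (hW : IsStable W) :
    ∃ c : E, c ≠ 0 ∧ ∀ (v : Option Nat.Primes) (σ : E ≃ₐ[ℚ] E),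
      T (A := famQ) W (v, σ) = Real.log (absE v (σ c)) + (if v = none then hgt W else 0) := by
  classical
  obtain ⟨b, hb, hbli, hbs, -, hh⟩ := exists_frame W hW
  obtain ⟨c, hc, -, hcv⟩ := hb.exists_minorSup_conj (bas W) (bas_li W) ((span_bas W).trans hbs.symm)
  refine ⟨c, hc, fun v σ => ?_⟩
  have h1 : plk (A := famQ) (v, σ) (bas W) = minorSup (absE v) (fun k i => σ (bas W k i)) := by
    unfold plk minorSup
    congr 1
    funext s
    rw [famQ_abs]
    congr 1
    exact (minor_map (σ : E →+* E) (bas W) s).symm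
  unfold T
  rw [h1, hcv]
  have hpos : 0 < absE v (σ c) := (AbsoluteValue.pos_iff _).2 (by simpa using hc)
  cases v with
  | none =>
    have h2 : (0 : ℝ) < frameHeight b := by exact_mod_cast hb.one_le_frameHeight
    simp only [placeHeight, if_true]
    rw [Real.log_mul hpos.ne' h2.ne', hh]
  | some p =>
    simp [placeHeight]

/-- (G4) **Northcott** for stable subspaces. -/
theorem finite_hgt_le (n : ℕ) (B : ℝ) :
    {W : Submodule E (ι → E) | IsStable W ∧ finrank E W = n ∧ hgt W ≤ B}.Finite := by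
  classical
  refine (finite_subspaces E n (Real.exp B)).subset ?_
  rintro W ⟨hW, hn, hB⟩
  obtain ⟨b, hb, hbli, hbs, -, hh⟩ := exists_frame W hW
  subst hn
  refine ⟨b, hbli, hbs, fun s => ?_⟩
  have h1 : (1 : ℝ) ≤ frameHeight b := by exact_mod_cast hb.one_le_frameHeight
  have h2 : (frameHeight b : ℝ) ≤ Real.exp B := by
    rw [← Real.exp_log (lt_of_lt_of_le one_pos h1), ← hh]
    exact Real.exp_le_exp.mpr hB
  refine le_trans ?_ h2
  have h3 := natAbs_minor_le_frameHeight b s
  rw [← Int.cast_abs, Int.abs_eq_natAbs, Int.cast_natCast]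
  exact_mod_cast h3

/-- (G5) **Siegel's lemma** for stable subspaces. -/
theorem exists_small (W : Submodule E (ι → E)) (hW : IsStable W) (hn : 0 < finrank E W) :
    ∃ x : ι → ℤ, (fun i => ((x i : ℤ) : E)) ∈ W ∧ x ≠ 0 ∧
      (∀ i, |(x i : ℝ)| ≤ finrank E W * Real.exp (hgt W / finrank E W)) ∧
      ∀ p : ℕ, p.Prime → ∃ i, ¬ (p : ℤ) ∣ x i := by
  classical
  obtain ⟨b, hb, hbli, hbs, -, hh⟩ := exists_frame W hW
  obtain ⟨x, hx, hx0, hxi, hxp⟩ := hb.siegel hn (frameHeight b) (natAbs_minor_le_frameHeight b)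
  refine ⟨x, ?_, hx0, fun i => ?_, hxp⟩
  · rw [← hbs]
    obtain ⟨f, hf⟩ := (mem_span_range_iff_exists_fun ℤ).mp hx
    rw [mem_span_range_iff_exists_fun]
    refine ⟨fun k => ((f k : ℤ) : E), ?_⟩
    funext i
    have := congrArg (fun y : ι → ℤ => ((y i : ℤ) : E)) hf
    simpa [Finset.sum_apply] using this
  · have h1 : (0 : ℝ) < frameHeight b := by exact_mod_cast hb.one_le_frameHeight
    have h2 : (frameHeight b : ℝ) ^ ((1 : ℝ) / (finrank E W : ℝ)) =
        Real.exp (hgt W / finrank E W) := by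
      rw [Real.rpow_def_of_pos h1, hh]
      congr 1
      ring
    rw [← h2]
    exact hxi i

end Stable

section principle

variable {J : Type*} [Fintype J] {κ : J → Type*} [∀ j, Fintype (κ j)]

/-- (G3) **local to global principle**. -/
theorem sum_hgt_le (a : J → ℤ) (W : ∀ j, Submodule E (κ j → E)) (hW : ∀ j, IsStable (W j))
    {c₀ : E} (hc₀ : c₀ ≠ 0) (C : ACon famQ)
    (h : ∀ w : famQ.Pt, ∑ j, (a j : ℝ) * T (A := famQ) (W j) w ≤
      Real.log (famQ.abs w c₀) + C (famQ.pl w)) :
    ∑ j, (a j : ℝ) * hgt (W j) ≤ total C := by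
  classical
  choose c hc hT using fun j => exists_T_eq (W j) (hW j)
  let d : E := (∏ j, c j ^ a j) * c₀⁻¹
  have hd : d ≠ 0 := mul_ne_zero (Finset.prod_ne_zero_iff.mpr fun j _ => zpow_ne_zero _ (hc j))
    (inv_ne_zero hc₀)
  refine le_total hd C _ fun v σ => ?_
  have h1 := h (v, σ)
  rw [famQ_abs, famQ_pl] at h1
  simp_rw [hT] at h1
  have hpos : ∀ x : E, x ≠ 0 → 0 < absE v (σ x) := fun x hx =>
    (AbsoluteValue.pos_iff _).2 (by simpa using hx)
  have h2 : Real.log (absE v (σ d)) =
      ∑ j, (a j : ℝ) * Real.log (absE v (σ (c j))) - Real.log (absE v (σ c₀)) := by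
    simp only [d]
    rw [map_mul, map_mul, map_prod, map_prod, map_inv₀, map_inv₀,
      Real.log_mul (Finset.prod_ne_zero_iff.mpr fun j _ => by
        rw [map_zpow₀, map_zpow₀]
        exact zpow_ne_zero _ (hpos _ (hc j)).ne')
        (inv_ne_zero (hpos _ hc₀).ne'), Real.log_prod, Real.log_inv]
    · simp_rw [map_zpow₀, Real.log_zpow]
      ring
    · intro j _
      rw [map_zpow₀, map_zpow₀]
      exact zpow_ne_zero _ (hpos _ (hc j)).ne'
  rw [h2]
  simp_rw [mul_add, Finset.sum_add_distrib] at h1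
  split_ifs at h1 ⊢ with hv
  · linarith
  · simp only [mul_zero, Finset.sum_const_zero, add_zero] at h1 ⊢
    linarith

/-- two-sided version of the local to global principle. -/
theorem abs_sum_hgt_le (a : J → ℤ) (W : ∀ j, Submodule E (κ j → E)) (hW : ∀ j, IsStable (W j))
    {c₀ : E} (hc₀ : c₀ ≠ 0) (C : ACon famQ)
    (h : ∀ w : famQ.Pt, |∑ j, (a j : ℝ) * T (A := famQ) (W j) w -
      Real.log (famQ.abs w c₀)| ≤ C (famQ.pl w)) :
    |∑ j, (a j : ℝ) * hgt (W j)| ≤ total C := by
  rw [abs_le]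
  constructor
  · have h1 := sum_hgt_le (fun j => - a j) W hW (inv_ne_zero hc₀) C (fun w => by
      have h2 := (abs_le.mp (h w)).1
      rw [map_inv₀, Real.log_inv]
      have h3 : ∑ j, (((- a j : ℤ)) : ℝ) * T (A := famQ) (W j) w =
          - ∑ j, (a j : ℝ) * T (A := famQ) (W j) w := by
        rw [← Finset.sum_neg_distrib]
        refine Finset.sum_congr rfl fun j _ => ?_
        push_cast
        ring
      rw [h3]
      linarith)
    have h4 : ∑ j, (((- a j : ℤ)) : ℝ) * hgt (W j) = - ∑ j, (a j : ℝ) * hgt (W j) := by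
      rw [← Finset.sum_neg_distrib]
      refine Finset.sum_congr rfl fun j _ => ?_
      push_cast
      ring
    rw [h4] at h1
    linarith
  · exact sum_hgt_le a W hW hc₀ C (fun w => by
      have h2 := (abs_le.mp (h w)).2
      linarith)

end principle

end Fermat.Agent.Heights
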