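import Mathlib.FieldTheory.IsAlgClosed.AlgebraicClosure
import Mathlib.FieldTheory.Galois.Infinite
import Mathlib.LinearAlgebra.FreeModule.Finite.CardQuotient
import Mathlib.LinearAlgebra.FreeModule.PID
import Mathlib.LinearAlgebra.Matrix.NonsingularInverse
import Mathlib.LinearAlgebra.Matrix.Determinant.Basic
import Mathlib.LinearAlgebra.Matrix.Rank
import Mathlib.LinearAlgebra.LinearIndependent.BaseChange
import Mathlib.RingTheory.Localization.Module
import Mathlib.Analysis.SpecialFunctions.Pow.Real
import Mathlib.Tactic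

/-!
# Integral frames of Galois stable subspaces, Siegel's lemma, Northcott for subspaces

Linear algebra part (A1)-(A4) of the height argument.
-/

set_option autoImplicit false

noncomputable section

namespace Fermat.Agent.Heights

open Module

/-- A saturated integral frame: the rows `b k` form a `ℤ`-basis of a saturated sublattice of
`ι → ℤ`. -/
structure SatFrame {ι : Type*} {n : ℕ} (b : Fin n → ι → ℤ) : Prop where
  linInd : LinearIndependent ℤ b
  sat : ∀ (m : ℤ) (x : ι → ℤ), m ≠ 0 → m • x ∈ Submodule.span ℤ (Set.range b) →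
    x ∈ Submodule.span ℤ (Set.range b)

section Minor

variable {ι : Type*} {n : ℕ} {R : Type*} [CommRing R]

/-- the minor of the frame `b` on the columns `s`. -/
def minor (b : Fin n → ι → R) (s : Fin n → ι) : R :=
  Matrix.det (Matrix.of fun k j => b k (s j))

theorem minor_def (b : Fin n → ι → R) (s : Fin n → ι) :
    minor b s = Matrix.det (Matrix.of fun k j => b k (s j)) := rfl

end Minor

section Field

variable {ι : Type*} [Finite ι] {n : ℕ} {k : Type*} [Field k]

/-- rows linearly independent over a field have a nonzero maximal minor. -/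
theorem exists_minor_ne_zero {b : Fin n → ι → k} (hb : LinearIndependent k b) :
    ∃ s : Fin n → ι, minor b s ≠ 0 := by
  classical
  cases nonempty_fintype ι
  -- columns span
  let col : ι → (Fin n → k) := fun i j => b j i
  have hspan : Submodule.span k (Set.range col) = ⊤ := by
    by_contra hne
    obtain ⟨f, hf0, hf⟩ := Submodule.exists_le_ker_of_lt_top _ (lt_top_iff_ne_top.mpr hne)
    apply hf0
    have hcomb : ∑ j, f (Pi.single j 1) • b j = 0 := by
      funext i
      have h1 : f (col i) = 0 := by
        have : col i ∈ Submodule.span k (Set.range col) := Submodule.subset_span ⟨i, rfl⟩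
        exact hf this
      have h2 : col i = ∑ j, b j i • (Pi.single j (1 : k) : Fin n → k) := by
        funext j
        simp [col, Finset.sum_apply, Pi.single_apply]
      rw [h2, map_sum] at h1
      simp only [map_smul, smul_eq_mul] at h1
      simp only [Finset.sum_apply, Pi.smul_apply, smul_eq_mul, Pi.zero_apply]
      rw [← h1]
      exact Finset.sum_congr rfl fun j _ => mul_comm _ _
    have h3 := Fintype.linearIndependent_iff.mp hb (fun j => f (Pi.single j 1)) hcomb
    apply LinearMap.pi_ext'
    intro j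
    ext
    simpa using h3 j
  -- extract basis
  obtain ⟨κ, a, ha, hspan', hli⟩ := exists_linearIndependent' k col
  have hspan'' : Submodule.span k (Set.range (col ∘ a)) = ⊤ := by rw [hspan', hspan]
  let B : Module.Basis κ k (Fin n → k) := Module.Basis.mk hli (by rw [hspan''])
  have : Finite κ := Finite.of_injective a ha
  cases nonempty_fintype κ
  have hcard : Fintype.card κ = n := by
    have := Module.finrank_eq_card_basis B
    simpa using this.symm
  let e : Fin n ≃ κ := (Fintype.equivFinOfCardEq hcard).symm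
  refine ⟨fun j => a (e j), ?_⟩
  have hli2 : LinearIndependent k (fun j : Fin n => col (a (e j))) :=
    hli.comp e e.injective
  rw [minor_def]
  have hT : (Matrix.of fun k' j => b k' (a (e j))).transpose = Matrix.of (fun j : Fin n => col (a (e j))) := by
    ext i j; rfl
  rw [← Matrix.det_transpose, hT]
  have hu : IsUnit (Matrix.of (fun j : Fin n => col (a (e j)))) := by
    rw [← Matrix.linearIndependent_rows_iff_isUnit]
    exact hli2
  exact ((Matrix.isUnit_iff_isUnit_det _).mp hu).ne_zero

end Field

section Cramer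

variable {ι : Type*} {n : ℕ} {R : Type*} [CommRing R]

/-- Cramer's rule: the other coordinates of an element of the span. -/
theorem cramer_rel (b : Fin n → ι → R) (s : Fin n → ι) (i : ι) {x : ι → R}
    (hx : x ∈ Submodule.span R (Set.range b)) :
    ∑ j, minor b (Function.update s j i) * x (s j) = minor b s * x i := by
  induction hx using Submodule.span_induction with
  | mem x hx =>
    obtain ⟨k, rfl⟩ := hx
    let M : Matrix (Fin n) (Fin n) R := Matrix.of fun k j => b k (s j)
    let v : Fin n → R := fun k => b k i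
    have h := congrFun (Matrix.mulVec_cramer M v) k
    have h2 : ∀ j, Matrix.cramer M v j = minor b (Function.update s j i) := by
      intro j
      rw [Matrix.cramer_apply, minor_def]
      congr 1
      ext k' j'
      by_cases hj : j' = j
      · subst hj; simp [M, v, Matrix.updateCol_self]
      · simp [M, v, Matrix.updateCol_ne hj, Function.update_of_ne hj]
    simp only [Matrix.mulVec, dotProduct, Pi.smul_apply, smul_eq_mul, h2] at h
    have h3 : minor b s * b k i = M.det * v k := rfl
    rw [h3, ← h]
    exact Finset.sum_congr rfl fun j _ => mul_comm _ _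
  | zero => simp
  | add x y _ _ hx hy =>
    simp only [Pi.add_apply, mul_add, Finset.sum_add_distrib, hx, hy]
  | smul c x _ hx =>
    simp only [Pi.smul_apply, smul_eq_mul]
    calc ∑ j, minor b (Function.update s j i) * (c * x (s j))
        = c * ∑ j, minor b (Function.update s j i) * x (s j) := by
          rw [Finset.mul_sum]; exact Finset.sum_congr rfl fun j _ => by ring
      _ = _ := by rw [hx]; ring

end Cramer

section Northcott

variable {ι : Type*} {n : ℕ} {k : Type*} [Field k]

/-- The span of a frame over a field is cut out by equations only involving the minors. -/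
theorem mem_span_iff_of_minor_ne_zero (b : Fin n → ι → k) (s : Fin n → ι) (hs : minor b s ≠ 0)
    (x : ι → k) :
    x ∈ Submodule.span k (Set.range b) ↔
      ∀ i, ∑ j, minor b (Function.update s j i) * x (s j) = minor b s * x i := by
  constructor
  · intro hx i
    exact cramer_rel b s i hx
  · intro hx
    let M : Matrix (Fin n) (Fin n) k := Matrix.of fun k j => b k (s j)
    have hM : IsUnit M.det := isUnit_iff_ne_zero.mpr hs
    -- coefficients
    let c : Fin n → k := Matrix.vecMul (fun j => x (s j)) M⁻¹
    have hc : ∀ j, ∑ l, c l * b l (s j) = x (s j) := by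
      intro j
      have h1 : Matrix.vecMul c M = fun j => x (s j) := by
        simp only [c]
        rw [Matrix.vecMul_vecMul, Matrix.nonsing_inv_mul _ hM, Matrix.vecMul_one]
      have h2 := congrFun h1 j
      simpa [Matrix.vecMul, dotProduct, M] using h2
    have hmem : ∑ l, c l • b l ∈ Submodule.span k (Set.range b) :=
      Submodule.sum_mem _ fun l _ => Submodule.smul_mem _ _ (Submodule.subset_span ⟨l, rfl⟩)
    have hxe : x = ∑ l, c l • b l := by
      funext i
      have h3 := cramer_rel b s i hmem
      have h4 := hx i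
      have h5 : ∀ j, (∑ l, c l • b l) (s j) = x (s j) := by
        intro j
        rw [← hc j]
        simp [Finset.sum_apply]
      simp only [h5] at h3
      rw [h4] at h3
      exact mul_left_cancel₀ hs h3
    rw [hxe]; exact hmem

theorem span_eq_of_minor_eq {b b' : Fin n → ι → k} [Finite ι] (hb : LinearIndependent k b)
    (h : ∀ s, minor b s = minor b' s) :
    Submodule.span k (Set.range b) = Submodule.span k (Set.range b') := by
  obtain ⟨s, hs⟩ := exists_minor_ne_zero hb
  ext x
  rw [mem_span_iff_of_minor_ne_zero b s hs, mem_span_iff_of_minor_ne_zero b' s (h s ▸ hs)]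
  simp only [h]

end Northcott

section CastFrame

variable {ι : Type*} {n : ℕ} (k : Type*) [Field k]

/-- the frame with coefficients in `k`. -/
def castFrame (b : Fin n → ι → ℤ) : Fin n → ι → k := fun l i => ((b l i : ℤ) : k)

variable {k}

theorem minor_castFrame (b : Fin n → ι → ℤ) (s : Fin n → ι) :
    minor (castFrame k b) s = ((minor b s : ℤ) : k) := by
  rw [minor_def, minor_def, ← eq_intCast (Int.castRingHom k), RingHom.map_det]
  congr 1

end CastFrame

/-- (A4) Northcott for subspaces. -/
theorem finite_subspaces {ι : Type*} [Finite ι] (k : Type*) [Field k] (n : ℕ) (T : ℝ) :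
    {W : Submodule k (ι → k) | ∃ b : Fin n → ι → ℤ,
      LinearIndependent k (fun (l : Fin n) (i : ι) => ((b l i : ℤ) : k)) ∧
      Submodule.span k (Set.range fun (l : Fin n) (i : ι) => ((b l i : ℤ) : k)) = W ∧
      ∀ s, |((minor b s : ℤ) : ℝ)| ≤ T}.Finite := by
  classical
  let N : ℕ := ⌊T⌋₊
  let box : Set ((Fin n → ι) → ℤ) := Set.pi Set.univ fun _ => Set.Icc (-(N : ℤ)) N
  have hbox : box.Finite := Set.Finite.pi fun _ => Set.finite_Icc _ _
  let S := {W : Submodule k (ι → k) | ∃ b : Fin n → ι → ℤ,
      LinearIndependent k (fun (l : Fin n) (i : ι) => ((b l i : ℤ) : k)) ∧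
      Submodule.span k (Set.range fun (l : Fin n) (i : ι) => ((b l i : ℤ) : k)) = W ∧
      ∀ s, |((minor b s : ℤ) : ℝ)| ≤ T}
  have key : ∀ W : S, ∃ b : Fin n → ι → ℤ,
      LinearIndependent k (fun (l : Fin n) (i : ι) => ((b l i : ℤ) : k)) ∧
      Submodule.span k (Set.range fun (l : Fin n) (i : ι) => ((b l i : ℤ) : k)) = W.1 ∧
      ∀ s, |((minor b s : ℤ) : ℝ)| ≤ T := fun W => W.2
  choose fr h1 h2 h3 using key
  have : Finite S := by
    have hfb : Finite box := hbox
    refine Finite.of_injective (β := box) (fun W => ⟨fun s => minor (fr W) s, ?_⟩) ?_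
    · intro s _
      have h4 := h3 W s
      have h5 : ((minor (fr W) s).natAbs : ℝ) ≤ T := by
        rw [Nat.cast_natAbs]; exact_mod_cast h4
      have h6 : (minor (fr W) s).natAbs ≤ N := Nat.le_floor h5
      show minor (fr W) s ∈ Set.Icc (-(N : ℤ)) N
      constructor <;> omega
    · intro W W' hWW
      have h4 : ∀ s, minor (fr W) s = minor (fr W') s := fun s =>
        congrFun (congrArg Subtype.val hWW) s
      apply Subtype.ext
      rw [← h2 W, ← h2 W']
      refine span_eq_of_minor_eq (h1 W) fun s => ?_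
      have e1 := minor_castFrame (k := k) (fr W) s
      have e2 := minor_castFrame (k := k) (fr W') s
      rw [h4 s] at e1
      exact e1.trans e2.symm
  exact this

section Saturated

variable {ι : Type*} [Finite ι] {n : ℕ} {b : Fin n → ι → ℤ}

/-- (A2) the minors of a saturated frame have no common prime factor. -/
theorem SatFrame.exists_not_dvd_minor (hb : SatFrame b) {p : ℕ} (hp : p.Prime) :
    ∃ s : Fin n → ι, ¬ (p : ℤ) ∣ minor b s := by
  have : Fact p.Prime := ⟨hp⟩
  have hli : LinearIndependent (ZMod p) (castFrame (ZMod p) b) := by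
    rw [Fintype.linearIndependent_iff]
    intro c hc l
    -- lift coefficients
    let d : Fin n → ℤ := fun l => ((c l).val : ℤ)
    have hd : ∀ l, ((d l : ℤ) : ZMod p) = c l := by
      intro l; simp [d]
    have h1 : ∀ i, (p : ℤ) ∣ (∑ l, d l • b l) i := by
      intro i
      rw [← ZMod.intCast_zmod_eq_zero_iff_dvd]
      have h2 := congrFun hc i
      simp only [Finset.sum_apply, Pi.smul_apply, smul_eq_mul, castFrame, Pi.zero_apply] at h2
      simp only [Finset.sum_apply, Pi.smul_apply, smul_eq_mul]
      push_cast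
      simp only [hd]
      exact h2
    choose y hy using h1
    have h3 : (p : ℤ) • y = ∑ l, d l • b l := by
      funext i; rw [hy i]; rfl
    have h4 : y ∈ Submodule.span ℤ (Set.range b) := by
      refine hb.sat p y (by exact_mod_cast hp.ne_zero) ?_
      rw [h3]
      exact Submodule.sum_mem _ fun l _ => Submodule.smul_mem _ _ (Submodule.subset_span ⟨l, rfl⟩)
    obtain ⟨e, he⟩ := (Submodule.mem_span_range_iff_exists_fun ℤ).mp h4
    have h5 : ∑ l, (d l - (p : ℤ) * e l) • b l = 0 := by
      simp only [sub_smul, Finset.sum_sub_distrib, mul_smul, ← Finset.smul_sum, he, h3, sub_self]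
    have h6 := (Fintype.linearIndependent_iff.mp hb.linInd) _ h5 l
    rw [← hd l, show d l = (p : ℤ) * e l by linarith]
    simp
  obtain ⟨s, hs⟩ := exists_minor_ne_zero hli
  refine ⟨s, fun hdvd => hs ?_⟩
  rw [minor_castFrame]
  exact (ZMod.intCast_zmod_eq_zero_iff_dvd _ p).mpr hdvd

theorem SatFrame.exists_minor_ne_zero (hb : SatFrame b) : ∃ s : Fin n → ι, minor b s ≠ 0 := by
  obtain ⟨s, hs⟩ := hb.exists_not_dvd_minor Nat.prime_two
  exact ⟨s, fun h => hs (h ▸ dvd_zero _)⟩

theorem pigeonhole_aux (M : Matrix (Fin n) (Fin n) ℤ) (hM : M.det ≠ 0) (m : ℕ)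
    (hm : M.det.natAbs < (m + 1) ^ n) :
    ∃ c : Fin n → ℤ, c ≠ 0 ∧ ∀ j, ((∑ l, c l * M l j).natAbs ≤ m) := by
  classical
  have hli : LinearIndependent ℤ (fun l => M l) := by
    have := Matrix.linearIndependent_rows_of_det_ne_zero hM
    exact this
  let N : Submodule ℤ (Fin n → ℤ) := Submodule.span ℤ (Set.range (fun l => M l))
  let B : Module.Basis (Fin n) ℤ N := Module.Basis.span hli
  have hcard : (M.det).natAbs = Nat.card ((Fin n → ℤ) ⧸ N) := by
    have h := Submodule.natAbs_det_basis_change (Pi.basisFun ℤ (Fin n)) N B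
    rw [← h, Module.Basis.det_apply, ← Matrix.det_transpose]
    congr 2
    ext i j
    have hB : ((B j : N) : Fin n → ℤ) = M j := congrArg Subtype.val (Module.Basis.span_apply hli j)
    simp [Module.Basis.toMatrix_apply, hB]
  have hpos : 0 < Nat.card ((Fin n → ℤ) ⧸ N) := by
    rw [← hcard]; exact Int.natAbs_pos.mpr hM
  have : Finite ((Fin n → ℤ) ⧸ N) := (Nat.card_pos_iff.mp hpos).2
  let f : (Fin n → Fin (m + 1)) → (Fin n → ℤ) ⧸ N := fun u => N.mkQ (fun j => ((u j : ℕ) : ℤ))
  have hf : ¬ Function.Injective f := by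
    intro hinj
    have h := Nat.card_le_card_of_injective f hinj
    rw [← hcard] at h
    simp only [Nat.card_eq_fintype_card, Fintype.card_pi, Fintype.card_fin, Finset.prod_const,
      Finset.card_univ] at h
    omega
  simp only [Function.Injective, not_forall] at hf
  obtain ⟨u, v, huv, hne⟩ := hf
  have hmem : (fun j => ((u j : ℕ) : ℤ)) - (fun j => ((v j : ℕ) : ℤ)) ∈ N :=
    (Submodule.Quotient.eq N).mp huv
  obtain ⟨c, hc⟩ := (Submodule.mem_span_range_iff_exists_fun ℤ).mp hmem
  have hcj : ∀ j, ∑ l, c l * M l j = (u j : ℤ) - (v j : ℤ) := by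
    intro j
    have := congrFun hc j
    simpa [Finset.sum_apply] using this
  refine ⟨c, ?_, ?_⟩
  · rintro rfl
    apply hne
    funext j
    have := hcj j
    simp only [Pi.zero_apply, zero_mul, Finset.sum_const_zero] at this
    apply Fin.ext
    omega
  · intro j
    rw [hcj j]
    have h1 := (u j).isLt
    have h2 := (v j).isLt
    omega

/-- (A3) Siegel's lemma for saturated frames. -/
theorem SatFrame.siegel (hb : SatFrame b) (hn : 0 < n) (q : ℕ)
    (hq : ∀ s, (minor b s).natAbs ≤ q) :
    ∃ x ∈ Submodule.span ℤ (Set.range b), x ≠ 0 ∧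
      (∀ i, (|x i| : ℝ) ≤ n * (q : ℝ) ^ ((1 : ℝ) / n)) ∧
      ∀ p : ℕ, p.Prime → ∃ i, ¬ (p : ℤ) ∣ x i := by
  classical
  cases nonempty_fintype ι
  obtain ⟨s0, hs0⟩ := hb.exists_minor_ne_zero
  obtain ⟨s, -, hs⟩ := Finset.exists_max_image (Finset.univ : Finset (Fin n → ι))
    (fun s => (minor b s).natAbs) ⟨s0, Finset.mem_univ _⟩
  have hs' : ∀ s', (minor b s').natAbs ≤ (minor b s).natAbs := fun s' => hs s' (Finset.mem_univ _)
  have hD : minor b s ≠ 0 := by
    intro h0
    have := hs' s0
    rw [h0] at this
    exact hs0 (Int.natAbs_eq_zero.mp (Nat.le_zero.mp (by simpa using this)))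
  set D : ℕ := (minor b s).natAbs with hDdef
  have hDpos : 0 < D := Int.natAbs_pos.mpr hD
  let m : ℕ := ⌊(D : ℝ) ^ ((1 : ℝ) / n)⌋₊
  have hm : D < (m + 1) ^ n := by
    have h1 : (D : ℝ) ^ ((1 : ℝ) / n) < (m + 1 : ℕ) := by
      push_cast; exact Nat.lt_floor_add_one _
    have h2 : ((D : ℝ) ^ ((1 : ℝ) / n)) ^ n < ((m + 1 : ℕ) : ℝ) ^ n :=
      pow_lt_pow_left₀ h1 (by positivity) hn.ne'
    rw [← Real.rpow_natCast, ← Real.rpow_mul (by positivity), one_div,
      inv_mul_cancel₀ (by exact_mod_cast hn.ne'), Real.rpow_one] at h2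
    exact_mod_cast h2
  obtain ⟨c, hc0, hc⟩ := pigeonhole_aux (Matrix.of fun k j => b k (s j)) hD m hm
  have hbound : ∃ x ∈ Submodule.span ℤ (Set.range b), x ≠ 0 ∧ ∀ i, (x i).natAbs ≤ n * m := by
    refine ⟨∑ l, c l • b l, Submodule.sum_mem _ fun l _ => Submodule.smul_mem _ _
      (Submodule.subset_span ⟨l, rfl⟩), ?_, ?_⟩
    · intro h0
      exact hc0 (funext (Fintype.linearIndependent_iff.mp hb.linInd c h0))
    · intro i
      have hmem : ∑ l, c l • b l ∈ Submodule.span ℤ (Set.range b) :=
        Submodule.sum_mem _ fun l _ => Submodule.smul_mem _ _ (Submodule.subset_span ⟨l, rfl⟩)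
      have h1 := cramer_rel b s i hmem
      have h2 : ∀ j, ((∑ l, c l • b l) (s j)).natAbs ≤ m := by
        intro j
        have := hc j
        simpa [Finset.sum_apply] using this
      have h3 : D * ((∑ l, c l • b l) i).natAbs ≤ n * (D * m) := by
        rw [hDdef, ← Int.natAbs_mul, ← h1]
        calc (∑ j, minor b (Function.update s j i) * (∑ l, c l • b l) (s j)).natAbs
            ≤ ∑ j, (minor b (Function.update s j i) * (∑ l, c l • b l) (s j)).natAbs :=
              Int.natAbs_sum_le _ _
          _ ≤ ∑ _j : Fin n, D * m := by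
              refine Finset.sum_le_sum fun j _ => ?_
              rw [Int.natAbs_mul]
              exact Nat.mul_le_mul (hs' _) (h2 j)
          _ = n * (D * m) := by simp
      have h4 : D * ((∑ l, c l • b l) i).natAbs ≤ D * (n * m) := by
        calc _ ≤ n * (D * m) := h3
          _ = _ := by ring
      exact Nat.le_of_mul_le_mul_left h4 hDpos
  -- make it primitive by minimality
  let P : ℕ → Prop := fun t => ∃ x ∈ Submodule.span ℤ (Set.range b), x ≠ 0 ∧
    (∀ i, (x i).natAbs ≤ n * m) ∧ ∑ i, (x i).natAbs = t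
  have hP : ∃ t, P t := by
    obtain ⟨x, h1, h2, h3⟩ := hbound
    exact ⟨_, x, h1, h2, h3, rfl⟩
  obtain ⟨x, hx1, hx2, hx3, hx4⟩ := Nat.find_spec hP
  refine ⟨x, hx1, hx2, ?_, ?_⟩
  · intro i
    have h1 : ((x i).natAbs : ℝ) ≤ ((n * m : ℕ) : ℝ) := by exact_mod_cast hx3 i
    have h2 : (|x i| : ℝ) = ((x i).natAbs : ℝ) := by
      rw [Nat.cast_natAbs]; simp
    rw [h2]
    refine h1.trans ?_
    push_cast
    have h3 : (m : ℝ) ≤ (D : ℝ) ^ ((1 : ℝ) / n) := Nat.floor_le (by positivity)
    have h4 : (D : ℝ) ^ ((1 : ℝ) / n) ≤ (q : ℝ) ^ ((1 : ℝ) / n) :=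
      Real.rpow_le_rpow (by positivity) (by exact_mod_cast hq s) (by positivity)
    exact mul_le_mul_of_nonneg_left (h3.trans h4) (by positivity)
  · intro p hp
    by_contra hcon
    push Not at hcon
    choose y hy using hcon
    have hxy : x = (p : ℤ) • y := by
      funext i; rw [hy i]; rfl
    have hy1 : y ∈ Submodule.span ℤ (Set.range b) :=
      hb.sat p y (by exact_mod_cast hp.ne_zero) (hxy ▸ hx1)
    have hy0 : y ≠ 0 := by
      rintro rfl
      exact hx2 (by rw [hxy, smul_zero])
    have habs : ∀ i, (x i).natAbs = p * (y i).natAbs := by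
      intro i; rw [hy i, Int.natAbs_mul, Int.natAbs_natCast]
    have hle : ∀ i, (y i).natAbs ≤ (x i).natAbs := by
      intro i; rw [habs i]; exact Nat.le_mul_of_pos_left _ hp.pos
    have hsum : ∑ i, (y i).natAbs < ∑ i, (x i).natAbs := by
      obtain ⟨i0, hi0⟩ : ∃ i, y i ≠ 0 := by
        by_contra h; push Not at h; exact hy0 (funext h)
      refine Finset.sum_lt_sum (fun i _ => hle i) ⟨i0, Finset.mem_univ _, ?_⟩
      rw [habs i0]
      have := Int.natAbs_pos.mpr hi0
      have := hp.two_le
      nlinarith
    have hmin := Nat.find_min' hP ⟨y, hy1, hy0, fun i => (hle i).trans (hx3 i), rfl⟩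
    rw [← hx4] at hmin
    omega

end Saturated

section Descent

local notation "E" => AlgebraicClosure ℚ

theorem linearIndependent_cast_iff {ι : Type*} [Finite ι] {n : ℕ} (k : Type*) [Field k] [CharZero k]
    {b : Fin n → ι → ℤ} :
    LinearIndependent k (fun (l : Fin n) (i : ι) => ((b l i : ℤ) : k)) ↔ LinearIndependent ℤ b := by
  have h := linearIndependent_algebraMap_comp_iff (R := ℤ) (S := k) (v := b)
  rw [← h]
  rfl

variable {ι : Type*} [Finite ι]

theorem isAlgClosure_rat : @IsAlgClosure ℚ E _ _ DivisionRing.toRatAlgebra _ := by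
  have h : (DivisionRing.toRatAlgebra : Algebra ℚ E) = AlgebraicClosure.instAlgebra ℚ :=
    Subsingleton.elim _ _
  rw [h]
  infer_instance

attribute [local instance] isAlgClosure_rat

/-- rational vectors span a Galois stable subspace. -/
theorem mem_span_rat (W : Submodule E (ι → E))
    (hW : ∀ σ : E ≃ₐ[ℚ] E, ∀ x ∈ W, (fun i => σ (x i)) ∈ W) (w : ι → E) (hw : w ∈ W) :
    w ∈ Submodule.span E {x : ι → E | x ∈ W ∧ ∃ y : ι → ℚ, x = fun i => algebraMap ℚ E (y i)} := by
  classical
  cases nonempty_fintype ι
  induction hN : (Finset.univ.filter fun i => w i ≠ 0).card using Nat.strong_induction_on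
    generalizing w with
  | _ N ih =>
  by_cases hw0 : w = 0
  · rw [hw0]; exact Submodule.zero_mem _
  -- choose a nonzero vector of minimal support inside supp w
  let P : ℕ → Prop := fun t => ∃ v ∈ W, v ≠ 0 ∧ (∀ i, w i = 0 → v i = 0) ∧
    (Finset.univ.filter fun i => v i ≠ 0).card = t
  have hP : ∃ t, P t := ⟨_, w, hw, hw0, fun i hi => hi, rfl⟩
  obtain ⟨v, hvW, hv0, hvs, hvc⟩ := Nat.find_spec hP
  obtain ⟨i0, hi0⟩ : ∃ i, v i ≠ 0 := by
    by_contra h; push Not at h; exact hv0 (funext h)
  let u : ι → E := (v i0)⁻¹ • v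
  have huW : u ∈ W := W.smul_mem _ hvW
  have hui0 : u i0 = 1 := by simp [u, hi0]
  have husupp : ∀ i, u i = 0 ↔ v i = 0 := by
    intro i; simp [u, hi0]
  have hfix : ∀ σ : E ≃ₐ[ℚ] E, ∀ i, σ (u i) = u i := by
    intro σ
    by_contra hcon
    push Not at hcon
    obtain ⟨i1, hi1⟩ := hcon
    let d : ι → E := (fun i => σ (u i)) - u
    have hdW : d ∈ W := W.sub_mem (hW σ u huW) huW
    have hd0 : d ≠ 0 := by
      intro h
      apply hi1
      have := congrFun h i1
      simpa [d, sub_eq_zero] using this
    have hdsupp : ∀ i, v i = 0 → d i = 0 := by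
      intro i hi
      have : u i = 0 := (husupp i).mpr hi
      simp [d, this]
    have hdi0 : d i0 = 0 := by simp [d, hui0]
    have hlt : (Finset.univ.filter fun i => d i ≠ 0).card <
        (Finset.univ.filter fun i => v i ≠ 0).card := by
      apply Finset.card_lt_card
      rw [Finset.ssubset_iff_of_subset]
      · exact ⟨i0, by simp [hi0], by simp [hdi0]⟩
      · intro i hi
        simp only [Finset.mem_filter, Finset.mem_univ, true_and] at hi ⊢
        exact fun h => hi (hdsupp i h)
    have hmin := Nat.find_min' hP ⟨d, hdW, hd0, fun i hi => hdsupp i (hvs i hi), rfl⟩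
    omega
  have hurat : ∃ y : ι → ℚ, u = fun i => algebraMap ℚ E (y i) := by
    have h1 : ∀ i, ∃ q : ℚ, algebraMap ℚ E q = u i := fun i =>
      (InfiniteGalois.mem_range_algebraMap_iff_fixed (k := ℚ) (u i)).mpr fun σ => hfix σ i
    choose y hy using h1
    exact ⟨y, funext fun i => (hy i).symm⟩
  have hu : u ∈ Submodule.span E
      {x : ι → E | x ∈ W ∧ ∃ y : ι → ℚ, x = fun i => algebraMap ℚ E (y i)} :=
    Submodule.subset_span ⟨huW, hurat⟩
  -- subtract
  have hrest : w - w i0 • u ∈ Submodule.span E
      {x : ι → E | x ∈ W ∧ ∃ y : ι → ℚ, x = fun i => algebraMap ℚ E (y i)} := by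
    refine ih _ ?_ _ (W.sub_mem hw (W.smul_mem _ huW)) rfl
    rw [← hN]
    apply Finset.card_lt_card
    rw [Finset.ssubset_iff_of_subset]
    · refine ⟨i0, ?_, ?_⟩
      · simp only [Finset.mem_filter, Finset.mem_univ, true_and]
        exact fun h => hi0 (hvs i0 h)
      · simp [hui0]
    · intro i hi
      simp only [Finset.mem_filter, Finset.mem_univ, true_and] at hi ⊢
      intro h
      apply hi
      have : u i = 0 := (husupp i).mpr (hvs i h)
      simp [h, this]
  have := Submodule.add_mem _ hrest (Submodule.smul_mem _ (w i0) hu)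
  simpa using this

/-- (A1) Galois descent with a saturated integral frame. -/
theorem exists_satFrame (W : Submodule E (ι → E))
    (hW : ∀ σ : E ≃ₐ[ℚ] E, ∀ x ∈ W, (fun i => σ (x i)) ∈ W) :
    ∃ b : Fin (Module.finrank E W) → ι → ℤ, SatFrame b ∧
      LinearIndependent E (fun l (i : ι) => ((b l i : ℤ) : E)) ∧
      Submodule.span E (Set.range fun l (i : ι) => ((b l i : ℤ) : E)) = W ∧
      ∀ x : ι → ℤ, (fun i => ((x i : ℤ) : E)) ∈ W → x ∈ Submodule.span ℤ (Set.range b) := by
  classical
  cases nonempty_fintype ι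
  let Λ : Submodule ℤ (ι → ℤ) :=
    { carrier := {x | (fun i => ((x i : ℤ) : E)) ∈ W}
      add_mem' := by
        intro x y hx hy
        have := W.add_mem hx hy
        simpa [Pi.add_def] using this
      zero_mem' := by
        show (fun i : ι => (((0 : ι → ℤ) i : ℤ) : E)) ∈ W
        simp only [Pi.zero_apply, Int.cast_zero]
        exact W.zero_mem
      smul_mem' := by
        intro c x hx
        have := W.smul_mem (c : E) hx
        simpa [Pi.smul_def] using this }
  have hΛ : ∀ x : ι → ℤ, x ∈ Λ ↔ (fun i => ((x i : ℤ) : E)) ∈ W := fun x => Iff.rfl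
  obtain ⟨m, B⟩ := Submodule.basisOfPid (Pi.basisFun ℤ ι) Λ
  let b : Fin m → ι → ℤ := fun l => (B l : ι → ℤ)
  have hbli : LinearIndependent ℤ b := by
    have := B.linearIndependent.map' Λ.subtype (Submodule.ker_subtype Λ)
    exact this
  have hbspan : Submodule.span ℤ (Set.range b) = Λ := by
    have h1 := B.span_eq
    have h2 := congrArg (Submodule.map Λ.subtype) h1
    rw [Submodule.map_span, Submodule.map_top, Submodule.range_subtype, ← Set.range_comp] at h2
    exact h2
  have hliE : LinearIndependent E (fun (l : Fin m) (i : ι) => ((b l i : ℤ) : E)) :=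
    (linearIndependent_cast_iff E).mpr hbli
  have hspanE : Submodule.span E (Set.range fun (l : Fin m) (i : ι) => ((b l i : ℤ) : E)) = W := by
    apply le_antisymm
    · rw [Submodule.span_le]
      rintro _ ⟨l, rfl⟩
      have : b l ∈ Λ := (B l).2
      exact this
    · intro w hw
      have h1 := mem_span_rat W hW w hw
      refine Submodule.span_le.mpr ?_ h1
      rintro x ⟨hxW, y, rfl⟩
      -- clear denominators
      obtain ⟨N, hN⟩ := IsLocalization.exist_integer_multiples_of_finset (nonZeroDivisors ℤ)
        (Finset.univ.image y)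
      have hN' : ∀ i, ∃ z : ℤ, (z : ℚ) = (N : ℤ) * y i := by
        intro i
        obtain ⟨z, hz⟩ := hN (y i) (Finset.mem_image_of_mem _ (Finset.mem_univ i))
        refine ⟨z, ?_⟩
        have : (algebraMap ℤ ℚ) z = (N : ℤ) • y i := hz
        simpa using this
      choose z hz using hN'
      have hN0 : ((N : ℤ) : E) ≠ 0 := by
        have := nonZeroDivisors.coe_ne_zero N
        exact_mod_cast this
      have hzE : (fun i => ((z i : ℤ) : E)) = ((N : ℤ) : E) • (fun i => algebraMap ℚ E (y i)) := by
        funext i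
        have h3 := congrArg (algebraMap ℚ E) (hz i)
        simpa using h3
      have hzΛ : z ∈ Λ := by
        rw [hΛ, hzE]
        exact W.smul_mem _ hxW
      have h4 : (fun i => ((z i : ℤ) : E)) ∈
          Submodule.span E (Set.range fun (l : Fin m) (i : ι) => ((b l i : ℤ) : E)) := by
        rw [← hbspan] at hzΛ
        obtain ⟨c, hc⟩ := (Submodule.mem_span_range_iff_exists_fun ℤ).mp hzΛ
        rw [Submodule.mem_span_range_iff_exists_fun]
        refine ⟨fun l => ((c l : ℤ) : E), ?_⟩
        funext i
        have h5 := congrFun hc i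
        simp only [Finset.sum_apply, Pi.smul_apply, smul_eq_mul] at h5 ⊢
        rw [← h5]; push_cast; rfl
      have h6 : (fun i => algebraMap ℚ E (y i)) = (((N : ℤ) : E)⁻¹) • (fun i => ((z i : ℤ) : E)) := by
        rw [hzE, smul_smul, inv_mul_cancel₀ hN0, one_smul]
      show (fun i => algebraMap ℚ E (y i)) ∈ _
      rw [h6]
      exact Submodule.smul_mem _ _ h4
  have hm : m = Module.finrank E W := by
    have h1 := finrank_span_eq_card hliE
    rw [hspanE] at h1
    simpa using h1.symm
  subst hm
  refine ⟨b, ⟨hbli, ?_⟩, hliE, hspanE, fun x hx => ?_⟩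
  · intro c x hc hx
    rw [hbspan] at hx ⊢
    rw [hΛ] at hx ⊢
    have hcE : ((c : ℤ) : E) ≠ 0 := by exact_mod_cast hc
    have h1 : (fun i => ((x i : ℤ) : E)) = ((c : ℤ) : E)⁻¹ • (fun i => (((c • x) i : ℤ) : E)) := by
      funext i
      simp [hcE]
    rw [h1]
    exact W.smul_mem _ hx
  · rw [hbspan]; exact hx

end Descent

end Fermat.Agent.Heights
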