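import Fermat.Agent.Heights.Chart
import Fermat.Agent.Heights.Bdd

/-!
# Local heights on a curve: quasi-additivity of `ρ`, similarity under multiplication by functions
-/

set_option autoImplicit false
set_option linter.unusedSectionVars false

noncomputable section

open AlgebraicCurve Module Fermat.Agent.RR WithZero
open scoped IntermediateField NNReal

namespace Fermat.Agent.Heights

variable {K F : Type*} [Field K] [Field F] [Algebra K F]
variable {o : Place K F} {M : ℕ} (ch : Chart K o M) (A : AbsFam K)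

/-- local height of the space `LL X` -/
def Chart.t (X : Divisor K F) (w : A.Pt) : ℝ := T (ch.S X) w

/-- the difference of local heights for `X` and `X + v` -/
def Chart.rho (X : Divisor K F) (v : Place K F) (w : A.Pt) : ℝ :=
  ch.t A X w - ch.t A (X + Finsupp.single v 1) w

/-- norm of a function -/
def Chart.nm (f : F) (w : A.Pt) : ℝ := nrm w (ch.c f)

variable [RRCurve K F]

theorem Chart.nm_pos {f : F} (hf : f ∈ LL (Finsupp.single o (-(M : ℤ)))) (hf0 : f ≠ 0)
    (w : A.Pt) : 0 < ch.nm A f w :=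
  nrm_pos w fun h => hf0 ((ch.c_eq_zero_iff hf).mp h)

variable {A}

theorem Chart.nm_nonneg (f : F) (w : A.Pt) : 0 ≤ ch.nm A f w := nrm_nonneg _ _

theorem Chart.nm_smul (a : K) (f : F) (w : A.Pt) :
    ch.nm A (a • f) w = A.abs w a * ch.nm A f w := by
  unfold Chart.nm
  rw [map_smul, nrm_smul]

variable (A)

section one

variable [IsAlgClosed K]

theorem apply_eq_of_mem_of_notMem {X : Divisor K F} {v : Place K F} {f : F} (hf : f ∈ LL X)
    (hf' : f ∉ LL (X + Finsupp.single v 1)) : f ≠ 0 ∧ (div f : Divisor K F) v = X v := by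
  classical
  have hf0 : f ≠ 0 := fun h => hf' (h ▸ zero_mem _)
  refine ⟨hf0, ?_⟩
  rw [mem_LL hf0] at hf hf'
  apply le_antisymm _ (hf v)
  by_contra hlt
  push Not at hlt
  apply hf'
  intro w
  rw [Finsupp.add_apply]
  by_cases h : v = w
  · subst h; rw [Finsupp.single_eq_same]; exact hlt
  · rw [Finsupp.single_apply, if_neg h, add_zero]; exact hf w

theorem notMem_of_apply_eq {X : Divisor K F} {v : Place K F} {f : F} (hf0 : f ≠ 0)
    (h : (div f : Divisor K F) v = X v) : f ∉ LL (X + Finsupp.single v 1) := by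
  rw [mem_LL hf0]
  intro h'
  have := h' v
  rw [Finsupp.add_apply, Finsupp.single_eq_same, h] at this
  omega

theorem mul_notMem {X Y : Divisor K F} {v : Place K F} {f h : F} (hf : f ∈ LL X)
    (hf' : f ∉ LL (X + Finsupp.single v 1)) (hh : h ∈ LL Y)
    (hh' : h ∉ LL (Y + Finsupp.single v 1)) : f * h ∉ LL (X + Y + Finsupp.single v 1) := by
  obtain ⟨hf0, h1⟩ := apply_eq_of_mem_of_notMem hf hf'
  obtain ⟨hh0, h2⟩ := apply_eq_of_mem_of_notMem hh hh'
  apply notMem_of_apply_eq (mul_ne_zero hf0 hh0)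
  rw [RR.div_mul hf0 hh0, Finsupp.add_apply, Finsupp.add_apply, h1, h2]

/-- decomposition along `LL X = LL (X + v) ⊕ K f` -/
theorem exists_sub_smul_mem {X : Divisor K F} (hX : 2 * (genusFF K F : ℤ) ≤ - Divisor.degree X)
    {v : Place K F} {f : F} (hf : f ∈ LL X) (hf' : f ∉ LL (X + Finsupp.single v 1)) {g : F}
    (hg : g ∈ LL X) : ∃ α : K, g - α • f ∈ LL (X + Finsupp.single v 1) := by
  have h1 : LL (X + Finsupp.single v 1) ⊔ Submodule.span K {f} = LL X := by
    have hle : LL (X + Finsupp.single v 1) ⊔ Submodule.span K {f} ≤ LL X :=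
      sup_le (LL_anti (le_single_add X v)) (by
        rw [Submodule.span_singleton_le_iff_mem]; exact hf)
    apply Submodule.eq_of_le_of_finrank_le hle
    have hlt : LL (X + Finsupp.single v 1) < LL (X + Finsupp.single v 1) ⊔ Submodule.span K {f} := by
      refine lt_of_le_of_ne le_sup_left fun h => hf' ?_
      rw [h]
      exact Submodule.mem_sup_right (Submodule.mem_span_singleton_self f)
    have h2 := Submodule.finrank_lt_finrank_of_lt hlt
    have h3 := finrank_LL (X := X) (by omega)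
    have h4 := finrank_LL (X := X + Finsupp.single v 1) (by
      rw [map_add, degree_single_one]; omega)
    rw [map_add, degree_single_one] at h4
    omega
  rw [← h1, Submodule.mem_sup] at hg
  obtain ⟨a, ha, b, hb, rfl⟩ := hg
  obtain ⟨α, rfl⟩ := Submodule.mem_span_singleton.mp hb
  exact ⟨α, by rwa [add_sub_cancel_right]⟩

theorem Chart.exists_tsucc {δ : ℤ} (hδ : 2 * (genusFF K F : ℤ) ≤ δ) : ∃ C : ACon A,
    ∀ (X : Divisor K F) (v : Place K F) (f : F), Finsupp.single o (-(M : ℤ)) ≤ X →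
      Divisor.degree X = - δ → f ∈ LL X → f ∉ LL (X + Finsupp.single v 1) →
      ∃ c : K, c ≠ 0 ∧ ∀ w : A.Pt,
        (∀ u ∈ LL (X + Finsupp.single v 1), ch.rho A X v w ≤
          Real.log (A.abs w c) + Real.log (ch.nm A (f + u) w) + C (A.pl w)) ∧
        (∃ u ∈ LL (X + Finsupp.single v 1),
          Real.log (A.abs w c) + Real.log (ch.nm A (f + u) w) ≤ ch.rho A X v w) := by
  obtain ⟨C, hC⟩ := exists_T_succ A (ι := ch.ι) (δ - genusFF K F).toNat
  refine ⟨C, fun X v f hX hdeg hf hf' => ?_⟩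
  have hX' : Finsupp.single o (-(M : ℤ)) ≤ X + Finsupp.single v 1 := hX.trans (le_single_add X v)
  have hfM := LL_anti hX hf
  have h1 := finrank_LL (X := X) (by omega)
  have h2 := finrank_LL (X := X + Finsupp.single v 1) (by
    rw [map_add, degree_single_one]; omega)
  rw [map_add, degree_single_one] at h2
  obtain ⟨c, hc, h⟩ := hC (ch.S (X + Finsupp.single v 1)) (ch.S X) (ch.c f)
    (Submodule.map_mono (LL_anti (le_single_add X v)))
    (by rw [ch.finrank_S hX']; omega) (by rw [ch.finrank_S hX]; omega) (ch.c_mem_S hf)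
    (by rw [ch.c_mem_S_iff hX' hfM]; exact hf')
  refine ⟨c, hc, fun w => ⟨fun u hu => ?_, ?_⟩⟩
  · have := (h w).1 (ch.c u) (ch.c_mem_S hu)
    rwa [← map_add] at this
  · obtain ⟨x, hx, hx'⟩ := (h w).2
    obtain ⟨u, hu, rfl⟩ := hx
    exact ⟨u, hu, by rwa [← map_add] at hx'⟩

theorem single_add_le {m m' : ℕ} {X Y : Divisor K F} (hX : Finsupp.single o (-(m : ℤ)) ≤ X)
    (hY : Finsupp.single o (-(m' : ℤ)) ≤ Y) :
    Finsupp.single o (-((m + m' : ℕ) : ℤ)) ≤ X + Y := by
  have : (Finsupp.single o (-((m + m' : ℕ) : ℤ)) : Divisor K F) =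
      Finsupp.single o (-(m : ℤ)) + Finsupp.single o (-(m' : ℤ)) := by
    rw [← Finsupp.single_add]; congr 1; push_cast; ring
  rw [this]
  exact add_le_add hX hY

theorem Chart.exists_mul_le : ∃ C : ACon A, ∀ (w : A.Pt) (f g : F),
    f ∈ LL (Finsupp.single o (-(M : ℤ))) → g ∈ LL (Finsupp.single o (-(M : ℤ))) →
    ch.nm A (f * g) w ≤ cst A C w * (ch.nm A f w * ch.nm A g w) := by
  obtain ⟨C, hC⟩ := exists_bilin_le A ch.mu
  refine ⟨C, fun w f g hf hg => ?_⟩
  have := hC w (ch.c f) (ch.c g)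
  rwa [ch.mu_c hf hg] at this

/-- (BC) quasi-additivity of `ρ` -/
theorem Chart.bdd_BC {m m' : ℕ} {δ δ' : ℤ} (hm : m + m' ≤ M) (hδ : 2 * (genusFF K F : ℤ) ≤ δ)
    (hδ' : 2 * (genusFF K F : ℤ) ≤ δ') (hδδ' : 2 * (genusFF K F : ℤ) - 1 ≤ δ - δ') :
    Bdd A (fun p : Divisor K F × Divisor K F × Place K F =>
        Finsupp.single o (-(m : ℤ)) ≤ p.1 ∧ Divisor.degree p.1 = - δ ∧
        Finsupp.single o (-(m' : ℤ)) ≤ p.2.1 ∧ Divisor.degree p.2.1 = - δ')
      (fun p w => ch.rho A p.1 p.2.2 w + ch.rho A p.2.1 p.2.2 w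
        - ch.rho A (p.1 + p.2.1) p.2.2 w) := by
  obtain ⟨C₁, hC₁⟩ := ch.exists_tsucc A hδ
  obtain ⟨C₂, hC₂⟩ := ch.exists_tsucc A hδ'
  obtain ⟨C₃, hC₃⟩ := ch.exists_tsucc A (δ := δ + δ') (by omega)
  obtain ⟨CM, hCM⟩ := ch.exists_mul_le A
  set d := (δ + δ' + 1 - genusFF K F).toNat with hd
  obtain ⟨CD, hCD⟩ := exists_sum_le A (Fin d)
  have halg := ch.isAlg (m := m) (by omega) hδ
  have halg' := ch.isAlg (m := m') (by omega) hδ'
  obtain ⟨CS, hCS⟩ := exists_surj A ch.mu halg halg' (d := d) (by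
    rintro _ ⟨X, hX, hdeg, rfl⟩ _ ⟨Y, hY, hdeg', rfl⟩
    rw [ch.map₂_mu (single_le_trans (by omega) hX) (single_le_trans (by omega) hY),
      LL_mul (by omega) (by omega)]
    change finrank K (ch.S (X + Y)) = d
    rw [ch.finrank_S (single_le_trans hm (single_add_le hX hY))]
    have := finrank_LL (X := X + Y) (by rw [map_add]; omega)
    rw [map_add] at this
    omega)
  refine Bdd.of_bounds (C₁ + C₂ + CD + CS) (C₃ + CM) ?_
  rintro ⟨X, Y, v⟩ ⟨hX, hdX, hY, hdY⟩
  dsimp only at hX hdX hY hdY ⊢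
  have hXM := single_le_trans (M := M) (by omega) hX
  have hYM := single_le_trans (M := M) (by omega) hY
  have hXY : Finsupp.single o (-(M : ℤ)) ≤ X + Y := single_le_trans hm (single_add_le hX hY)
  have hdXY : Divisor.degree (X + Y) = -(δ + δ') := by rw [map_add]; omega
  obtain ⟨f, hf, hf'⟩ := exists_mem_LL_notMem (X := X) (by omega) v
  obtain ⟨h, hh, hh'⟩ := exists_mem_LL_notMem (X := Y) (by omega) v
  have hfh := mul_mem_LL hf hh
  have hfh' := mul_notMem hf hf' hh hh'
  obtain ⟨c₁, hc₁, h₁⟩ := hC₁ X v f hXM hdX hf hf'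
  obtain ⟨c₂, hc₂, h₂⟩ := hC₂ Y v h hYM hdY hh hh'
  obtain ⟨c₃, hc₃, h₃⟩ := hC₃ (X + Y) v (f * h) hXY hdXY hfh hfh'
  refine ⟨c₁ * c₂ * c₃⁻¹, mul_ne_zero (mul_ne_zero hc₁ hc₂) (inv_ne_zero hc₃), fun w => ?_⟩
  rw [log_abs_mul w (mul_ne_zero hc₁ hc₂) (inv_ne_zero hc₃), log_abs_mul w hc₁ hc₂, log_abs_inv]
  -- auxiliary membership facts
  have hlt : ∀ {Z : Divisor K F} (u : F), u ∈ LL (Z + Finsupp.single v 1) → u ∈ LL Z :=
    fun u hu => LL_anti (le_single_add _ v) hu
  constructor
  · -- upper bound: bounded surjectivity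
    obtain ⟨u, hu, hle⟩ := (h₃ w).2
    set e' := f * h + u with he'
    have he'mem : e' ∈ LL (X + Y) := add_mem hfh (hlt u hu)
    have hce' : ch.c e' ∈ Submodule.map₂ ch.mu (ch.S X) (ch.S Y) := by
      rw [ch.map₂_mu hXM hYM, LL_mul (by omega) (by omega)]
      exact Submodule.mem_map_of_mem he'mem
    obtain ⟨a, a', ha, ha', hsum, hnorm⟩ := hCS w _ ⟨X, hX, hdX, rfl⟩ _ ⟨Y, hY, hdY, rfl⟩ _ hce'
    have hea : ∀ k, ch.e (a k) ∈ LL X := fun k => ch.e_mem_of_mem_S hXM (ha k)
    have hea' : ∀ k, ch.e (a' k) ∈ LL Y := fun k => ch.e_mem_of_mem_S hYM (ha' k)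
    have hsumF : e' = ∑ k, ch.e (a k) * ch.e (a' k) := by
      have h1 := congrArg ch.e hsum
      rw [ch.ec (LL_anti hXY he'mem), map_sum] at h1
      rw [h1]
      refine Finset.sum_congr rfl fun k _ => ?_
      rw [ch.mu_apply, ch.ec (LL_anti hXY (mul_mem_LL (hea k) (hea' k)))]
    choose α hα using fun k => exists_sub_smul_mem (X := X) (v := v) (by omega) hf hf' (hea k)
    choose α' hα' using fun k => exists_sub_smul_mem (X := Y) (v := v) (by omega) hh hh' (hea' k)
    -- the sum of the products is one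
    have hone : ∑ k, α k * α' k = 1 := by
      have h1 : ∀ k, ch.e (a k) * ch.e (a' k) - (α k * α' k) • (f * h) ∈
          LL (X + Y + Finsupp.single v 1) := by
        intro k
        have h2 : ch.e (a k) * ch.e (a' k) - (α k * α' k) • (f * h) =
            (ch.e (a k) - α k • f) * ch.e (a' k) + (α k • f) * (ch.e (a' k) - α' k • h) := by
          simp only [Algebra.smul_def, map_mul]; ring
        rw [h2]
        apply add_mem
        · rw [show X + Y + Finsupp.single v 1 = (X + Finsupp.single v 1) + Y by abel]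
          exact mul_mem_LL (hα k) (hea' k)
        · rw [add_assoc]
          exact mul_mem_LL (Submodule.smul_mem _ _ hf) (hα' k)
      have h3 : (1 - ∑ k, α k * α' k) • (f * h) ∈ LL (X + Y + Finsupp.single v 1) := by
        have h4 : (1 - ∑ k, α k * α' k) • (f * h) =
            (∑ k, (ch.e (a k) * ch.e (a' k) - (α k * α' k) • (f * h))) - u := by
          rw [Finset.sum_sub_distrib, ← hsumF, ← Finset.sum_smul, sub_smul, one_smul, he']
          ring
        rw [h4]
        exact sub_mem (sum_mem fun k _ => h1 k) hu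
      by_contra hne
      have hne' : (1 - ∑ k, α k * α' k) ≠ 0 := fun h => hne (sub_eq_zero.mp h).symm
      apply hfh'
      have := Submodule.smul_mem _ (1 - ∑ k, α k * α' k)⁻¹ h3
      rwa [smul_smul, inv_mul_cancel₀ hne', one_smul] at this
    have hdne : Nonempty (Fin d) := by
      by_contra hemp
      rw [not_nonempty_iff] at hemp
      simp at hone
    obtain ⟨k, hk⟩ := Finite.exists_max (fun k => A.abs w (α k * α' k))
    have h5 := hCD w (fun k => α k * α' k) _ ((A.abs w).nonneg _) hk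
    rw [hone, map_one] at h5
    -- so both coefficients are nonzero
    have h6 : 0 < A.abs w (α k * α' k) := by
      by_contra h
      push Not at h
      have := mul_nonpos_of_nonneg_of_nonpos (cst_pos CD w).le h
      linarith
    have hαα : α k * α' k ≠ 0 := (A.abs w).pos_iff.mp h6
    have hαk : α k ≠ 0 := left_ne_zero_of_mul hαα
    have hαk' : α' k ≠ 0 := right_ne_zero_of_mul hαα
    -- the two distance estimates
    have h7 := (h₁ w).1 ((α k)⁻¹ • (ch.e (a k) - α k • f)) (Submodule.smul_mem _ _ (hα k))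
    have h8 := (h₂ w).1 ((α' k)⁻¹ • (ch.e (a' k) - α' k • h)) (Submodule.smul_mem _ _ (hα' k))
    have h9 : f + (α k)⁻¹ • (ch.e (a k) - α k • f) = (α k)⁻¹ • ch.e (a k) := by
      rw [smul_sub, smul_smul, inv_mul_cancel₀ hαk, one_smul]; ring
    have h10 : h + (α' k)⁻¹ • (ch.e (a' k) - α' k • h) = (α' k)⁻¹ • ch.e (a' k) := by
      rw [smul_sub, smul_smul, inv_mul_cancel₀ hαk', one_smul]; ring
    have hek0 : ch.e (a k) ≠ 0 := by
      intro h0
      apply hf'
      have := Submodule.smul_mem _ (α k)⁻¹ (hα k)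
      rw [h0, zero_sub, smul_neg, smul_smul, inv_mul_cancel₀ hαk, one_smul] at this
      simpa using neg_mem this
    have hek0' : ch.e (a' k) ≠ 0 := by
      intro h0
      apply hh'
      have := Submodule.smul_mem _ (α' k)⁻¹ (hα' k)
      rw [h0, zero_sub, smul_neg, smul_smul, inv_mul_cancel₀ hαk', one_smul] at this
      simpa using neg_mem this
    have hp1 := ch.nm_pos A (LL_anti hXM (hea k)) hek0 w
    have hp2 := ch.nm_pos A (LL_anti hYM (hea' k)) hek0' w
    rw [h9, ch.nm_smul, Real.log_mul ((A.abs w).pos (inv_ne_zero hαk)).ne' hp1.ne',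
      log_abs_inv] at h7
    rw [h10, ch.nm_smul, Real.log_mul ((A.abs w).pos (inv_ne_zero hαk')).ne' hp2.ne',
      log_abs_inv] at h8
    have h11 := hnorm k
    have hna : nrm w (a k) = ch.nm A (ch.e (a k)) w := by
      unfold Chart.nm; rw [ch.ce]
    have hna' : nrm w (a' k) = ch.nm A (ch.e (a' k)) w := by
      unfold Chart.nm; rw [ch.ce]
    have he'0 : e' ≠ 0 := by
      intro h0
      apply hfh'
      have : f * h = -u := by rw [he'] at h0; exact eq_neg_of_add_eq_zero_left h0
      rw [this]; exact neg_mem hu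
    have hpe := ch.nm_pos A (LL_anti hXY he'mem) he'0 w
    rw [hna, hna'] at h11
    have h12 := Real.log_le_log (mul_pos hp1 hp2) h11
    rw [Real.log_mul hp1.ne' hp2.ne', Real.log_mul (cst_pos _ _).ne' (nrm_pos w fun h =>
      he'0 ((ch.c_eq_zero_iff (LL_anti hXY he'mem)).mp h)).ne', log_cst] at h12
    have h13 := Real.log_le_log one_pos h5
    rw [Real.log_one, Real.log_mul (cst_pos _ _).ne' h6.ne', log_cst,
      log_abs_mul w hαk hαk'] at h13
    change _ ≤ _ + Real.log (ch.nm A e' w) at h12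
    simp only [Finsupp.add_apply, NNReal.coe_add]
    linarith
  · -- lower bound: boundedness of multiplication
    obtain ⟨u, hu, hle⟩ := (h₁ w).2
    obtain ⟨u', hu', hle'⟩ := (h₂ w).2
    have hmem : (f + u) * (h + u') - f * h ∈ LL (X + Y + Finsupp.single v 1) := by
      have : (f + u) * (h + u') - f * h = u * (h + u') + f * u' := by ring
      rw [this]
      apply add_mem
      · rw [show X + Y + Finsupp.single v 1 = (X + Finsupp.single v 1) + Y by abel]
        exact mul_mem_LL hu (add_mem hh (hlt u' hu'))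
      · rw [add_assoc]
        exact mul_mem_LL hf hu'
    have h4 := (h₃ w).1 _ hmem
    rw [add_sub_cancel] at h4
    have hfu : f + u ∈ LL X := add_mem hf (hlt u hu)
    have hhu : h + u' ∈ LL Y := add_mem hh (hlt u' hu')
    have hfu0 : f + u ≠ 0 := fun h0 => hf' (by
      rw [eq_neg_of_add_eq_zero_left h0]; exact neg_mem hu)
    have hhu0 : h + u' ≠ 0 := fun h0 => hh' (by
      rw [eq_neg_of_add_eq_zero_left h0]; exact neg_mem hu')
    have h5 := hCM w (f + u) (h + u') (LL_anti hXM hfu) (LL_anti hYM hhu)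
    have hp1 := ch.nm_pos A (LL_anti hXM hfu) hfu0 w
    have hp2 := ch.nm_pos A (LL_anti hYM hhu) hhu0 w
    have hp3 := ch.nm_pos A (LL_anti hXY (mul_mem_LL hfu hhu)) (mul_ne_zero hfu0 hhu0) w
    have h6 := Real.log_le_log hp3 h5
    rw [Real.log_mul (cst_pos _ _).ne' (mul_pos hp1 hp2).ne', Real.log_mul hp1.ne' hp2.ne',
      log_cst] at h6
    simp only [Finsupp.add_apply, NNReal.coe_add]
    linarith

end one

end Fermat.Agent.Heights
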