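import Fermat.Agent.Heights.Local

/-!
# Local heights on a curve, continued: similarity, lower bound, cube relation
-/

set_option autoImplicit false
set_option linter.unusedSectionVars false

noncomputable section

open AlgebraicCurve Module Fermat.Agent.RR WithZero
open scoped IntermediateField NNReal

namespace Fermat.Agent.Heights

variable {K F : Type*} [Field K] [Field F] [Algebra K F]
variable {o : Place K F} {M : ℕ} (ch : Chart K o M) (A : AbsFam K)
variable [RRCurve K F] [IsAlgClosed K]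

theorem Chart.exists_gauss {m : ℕ} (hm : 2 * m ≤ M) : ∃ C : ACon A, ∀ (w : A.Pt) (f g : F),
    f ∈ LL (Finsupp.single o (-(m : ℤ))) → g ∈ LL (Finsupp.single o (-(m : ℤ))) →
    ch.nm A f w * ch.nm A g w ≤ cst A C w * ch.nm A (f * g) w := by
  have hmM : Finsupp.single o (-(M : ℤ)) ≤ Finsupp.single o (-(m : ℤ)) :=
    single_le_single (K := K) (by omega)
  obtain ⟨C, hC⟩ := Heights.exists_gauss A ch.mu (ch.S (Finsupp.single o (-(m : ℤ))))
    (ch.S (Finsupp.single o (-(m : ℤ)))) (by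
      intro x hx y hy hx0 hy0 h0
      have hx' := ch.e_mem_of_mem_S hmM hx
      have hy' := ch.e_mem_of_mem_S hmM hy
      rw [ch.mu_apply, ch.c_eq_zero_iff] at h0
      · rcases mul_eq_zero.mp h0 with h | h
        · exact hx0 (ch.e_injective (by rw [h, map_zero]))
        · exact hy0 (ch.e_injective (by rw [h, map_zero]))
      · refine LL_anti ?_ (mul_mem_LL hx' hy')
        exact single_le_trans (by omega) (single_add_le le_rfl le_rfl))
  refine ⟨C, fun w f g hf hg => ?_⟩
  have := hC w (ch.c f) (ch.c_mem_S hf) (ch.c g) (ch.c_mem_S hg)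
  rwa [ch.mu_c (LL_anti hmM hf) (LL_anti hmM hg)] at this

/-- multiplication by a function as a linear equivalence of coordinate spaces -/
def Chart.mulEquiv {X : Divisor K F} {f : F} (hf : f ≠ 0)
    (hX : Finsupp.single o (-(M : ℤ)) ≤ X) (hX' : Finsupp.single o (-(M : ℤ)) ≤ X + div f) :
    ch.S X ≃ₗ[K] ch.S (X + div f) where
  toFun x := ⟨ch.c (f * ch.e x), ch.c_mem_S ((mul_mem_LL_iff hf).mpr (ch.e_mem_of_mem_S hX x.2))⟩
  map_add' x y := by
    apply Subtype.ext
    simp [mul_add]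
  map_smul' a x := by
    apply Subtype.ext
    simp
  invFun y := ⟨ch.c (f⁻¹ * ch.e y), ch.c_mem_S (by
    rw [← mul_mem_LL_iff hf, mul_inv_cancel_left₀ hf]
    exact ch.e_mem_of_mem_S hX' y.2)⟩
  left_inv x := by
    apply Subtype.ext
    dsimp only
    rw [ch.ec (LL_anti hX' ((mul_mem_LL_iff hf).mpr (ch.e_mem_of_mem_S hX x.2))),
      inv_mul_cancel_left₀ hf, ch.ce]
  right_inv y := by
    apply Subtype.ext
    dsimp only
    rw [ch.ec (LL_anti hX (by
      rw [← mul_mem_LL_iff hf, mul_inv_cancel_left₀ hf]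
      exact ch.e_mem_of_mem_S hX' y.2)), mul_inv_cancel_left₀ hf, ch.ce]

/-- (E1) multiplication by a function is a similarity -/
theorem Chart.bdd_E1 {m : ℕ} {δ : ℤ} (hm : 2 * m ≤ M) (hδ : 2 * (genusFF K F : ℤ) ≤ δ) :
    Bdd A (fun p : Divisor K F × F × F =>
        Finsupp.single o (-(m : ℤ)) ≤ p.1 ∧ Finsupp.single o (-(m : ℤ)) ≤ p.1 + div p.2.1 ∧
        Divisor.degree p.1 = - δ ∧ p.2.1 ≠ 0 ∧ p.2.2 ≠ 0 ∧ p.2.2 ∈ LL p.1)
      (fun p w => ch.t A (p.1 + div p.2.1) w - ch.t A p.1 w -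
        ((δ + 1 - genusFF K F : ℤ) : ℝ) * (Real.log (ch.nm A (p.2.1 * p.2.2) w) -
          Real.log (ch.nm A p.2.2 w))) := by
  set n := (δ + 1 - genusFF K F).toNat with hn
  have hnn : (n : ℤ) = δ + 1 - genusFF K F := Int.toNat_of_nonneg (by omega)
  obtain ⟨CT, hCT⟩ := exists_T_map A (ι := ch.ι) n
  obtain ⟨CM, hCM⟩ := ch.exists_mul_le A
  obtain ⟨CG, hCG⟩ := ch.exists_gauss A hm
  refine Bdd.of_bounds (CT + n • (CM + CG)) (CT + n • (CM + CG)) ?_
  rintro ⟨X, f, g⟩ ⟨hX, hX', hdeg, hf, hg0, hg⟩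
  dsimp only at hX hX' hdeg hf hg0 hg ⊢
  have hXM := single_le_trans (M := M) (by omega) hX
  have hXM' := single_le_trans (M := M) (by omega) hX'
  obtain ⟨c, hc, h⟩ := hCT (ch.S X) (ch.S (X + div f)) (ch.mulEquiv hf hXM hXM') (by
    rw [ch.finrank_S hXM]
    have := finrank_LL (X := X) (by omega)
    omega)
  refine ⟨c, hc, fun w => ?_⟩
  have hfg := (mul_mem_LL_iff hf).mpr hg
  have hp1 := ch.nm_pos A (LL_anti hXM hg) hg0 w
  have hp2 := ch.nm_pos A (LL_anti hXM' hfg) (mul_ne_zero hf hg0) w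
  -- abbreviations
  set a := ch.nm A g w with ha
  set b := ch.nm A (f * g) w with hb
  have hcM := cst_pos CM w
  have hcG := cst_pos CG w
  have key : ∀ x : ch.S X,
      ch.nm A (f * ch.e x) w * a ≤ cst A CG w * (cst A CM w * (b * ch.nm A (ch.e x) w)) ∧
      ch.nm A (ch.e x) w * b ≤ cst A CG w * (cst A CM w * (ch.nm A (f * ch.e x) w * a)) := by
    intro x
    have hx := ch.e_mem_of_mem_S hXM x.2
    have hfx := (mul_mem_LL_iff hf).mpr hx
    constructor
    · refine (hCG w _ _ (LL_anti hX' hfx) (LL_anti hX hg)).trans ?_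
      apply mul_le_mul_of_nonneg_left _ hcG.le
      rw [show f * ch.e x * g = (f * g) * ch.e x by ring]
      exact hCM w _ _ (LL_anti hXM' hfg) (LL_anti hXM hx)
    · refine (hCG w _ _ (LL_anti hX hx) (LL_anti hX' hfg)).trans ?_
      apply mul_le_mul_of_nonneg_left _ hcG.le
      rw [show ch.e x * (f * g) = (f * ch.e x) * g by ring]
      exact hCM w _ _ (LL_anti hXM' hfx) (LL_anti hXM hg)
  have hnx : ∀ x : ch.S X, nrm w (x : ch.ι → K) = ch.nm A (ch.e x) w := by
    intro x; unfold Chart.nm; rw [ch.ce]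
  have hnfx : ∀ x : ch.S X, nrm w (ch.mulEquiv hf hXM hXM' x : ch.ι → K) =
      ch.nm A (f * ch.e x) w := fun x => rfl
  have hlog : Real.log (cst A CG w * cst A CM w) = (CG (A.pl w) : ℝ) + CM (A.pl w) := by
    rw [Real.log_mul hcG.ne' hcM.ne', log_cst, log_cst]
  have hnR : ((δ + 1 - genusFF K F : ℤ) : ℝ) = (n : ℝ) := by
    rw [← hnn]; simp
  rw [hnR]
  constructor
  · have h1 := (h w).1 (cst A CG w * cst A CM w * (b / a)) (by positivity) (fun x => by
      rw [hnx, hnfx]
      have := (key x).1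
      rw [← le_div_iff₀ hp1] at this
      refine this.trans (le_of_eq ?_)
      field_simp)
    rw [Real.log_mul (mul_pos hcG hcM).ne' (div_pos hp2 hp1).ne', hlog,
      Real.log_div hp2.ne' hp1.ne'] at h1
    simp only [Finsupp.add_apply, Finsupp.smul_apply, NNReal.coe_add, nsmul_eq_mul,
      NNReal.coe_mul, NNReal.coe_natCast]
    change ch.t A (X + div f) w ≤ ch.t A X w + _ + _ + _ at h1
    linarith
  · have h1 := (h w).2 (cst A CG w * cst A CM w * (a / b)) (by positivity) (fun x => by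
      rw [hnx, hnfx]
      have := (key x).2
      rw [← le_div_iff₀ hp2] at this
      refine this.trans (le_of_eq ?_)
      field_simp)
    rw [Real.log_mul (mul_pos hcG hcM).ne' (div_pos hp1 hp2).ne', hlog,
      Real.log_div hp1.ne' hp2.ne'] at h1
    simp only [Finsupp.add_apply, Finsupp.smul_apply, NNReal.coe_add, nsmul_eq_mul,
      NNReal.coe_mul, NNReal.coe_natCast]
    change ch.t A X w ≤ ch.t A (X + div f) w - _ + _ + _ at h1
    linarith

/-- the class function -/
def Chart.T' (δ : ℤ) (X : Divisor K F) (w : A.Pt) : ℝ :=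
  ch.t A X w - ((δ + 1 - genusFF K F : ℤ) : ℝ) * ch.rho A X o w

/-- (CI) class invariance -/
theorem Chart.bdd_CI {m : ℕ} {δ : ℤ} (hm : 2 * m ≤ M) (hδ : 2 * (genusFF K F : ℤ) + 1 ≤ δ) :
    Bdd A (fun p : Divisor K F × F =>
        Finsupp.single o (-(m : ℤ)) ≤ p.1 ∧ Finsupp.single o (-(m : ℤ)) ≤ p.1 + div p.2 ∧
        Divisor.degree p.1 = - δ ∧ p.2 ≠ 0)
      (fun p w => ch.T' A δ (p.1 + div p.2) w - ch.T' A δ p.1 w) := by
  classical
  -- choose a function in each space
  have hex : ∀ X : Divisor K F, ∃ g : F, Divisor.degree X = - δ →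
      (g ∈ LL (X + Finsupp.single o 1) ∧ g ≠ 0) := by
    intro X
    by_cases h : Divisor.degree X = - δ
    · have h1 := finrank_LL (X := X + Finsupp.single o 1) (by
        rw [map_add, degree_single_one]; omega)
      rw [map_add, degree_single_one] at h1
      have hne : LL (X + Finsupp.single o 1) ≠ ⊥ := by
        intro h0
        rw [h0, finrank_bot] at h1
        omega
      obtain ⟨g, hg, hg0⟩ := (Submodule.ne_bot_iff _).mp hne
      exact ⟨g, fun _ => ⟨hg, hg0⟩⟩
    · exact ⟨0, fun h' => absurd h' h⟩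
  choose G hG using hex
  have h1 := (ch.bdd_E1 A hm (δ := δ) (by omega)).comp
    (Q := fun p : Divisor K F × F =>
        Finsupp.single o (-(m : ℤ)) ≤ p.1 ∧ Finsupp.single o (-(m : ℤ)) ≤ p.1 + div p.2 ∧
        Divisor.degree p.1 = - δ ∧ p.2 ≠ 0)
    (fun p => (p.1, p.2, G p.1)) (by
      rintro ⟨X, f⟩ ⟨hX, hX', hdeg, hf⟩
      exact ⟨hX, hX', hdeg, hf, (hG X hdeg).2, LL_anti (le_single_add X o) (hG X hdeg).1⟩)
  have h2 := (ch.bdd_E1 A hm (δ := δ - 1) (by omega)).comp
    (Q := fun p : Divisor K F × F =>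
        Finsupp.single o (-(m : ℤ)) ≤ p.1 ∧ Finsupp.single o (-(m : ℤ)) ≤ p.1 + div p.2 ∧
        Divisor.degree p.1 = - δ ∧ p.2 ≠ 0)
    (fun p => (p.1 + Finsupp.single o 1, p.2, G p.1)) (by
      rintro ⟨X, f⟩ ⟨hX, hX', hdeg, hf⟩
      refine ⟨hX.trans (le_single_add X o), ?_, ?_, hf, (hG X hdeg).2, (hG X hdeg).1⟩
      · dsimp only at hX' ⊢
        rw [add_right_comm]
        exact hX'.trans (le_single_add _ o)
      · dsimp only at hdeg ⊢
        rw [map_add, degree_single_one, hdeg]; ring)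
  refine ((h1.zsmul (1 - (δ + 1 - genusFF K F))).add
    (h2.zsmul (δ + 1 - genusFF K F))).congr ?_
  rintro ⟨X, f⟩ ⟨hX, hX', hdeg, hf⟩ w
  dsimp only
  unfold Chart.T' Chart.rho
  rw [add_right_comm X (Finsupp.single o 1) (div f)]
  push_cast
  ring

/-- the lower bound for `ρ(X, ∞)` -/
theorem Chart.blw_rho {m : ℕ} {δ : ℤ} (hm : m ≤ M) (hδ : 2 * (genusFF K F : ℤ) ≤ δ) :
    Blw A (fun X : Divisor K F =>
        Finsupp.single o (-(m : ℤ)) ≤ X ∧ Divisor.degree X = - δ)
      (fun X w => ch.rho A X o w) := by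
  classical
  obtain ⟨C, hC⟩ := ch.exists_tsucc A hδ
  -- linear functionals detecting the leading coefficient
  have hφ : ∀ a : Fin (m + 1), ∃ φ : Dual K (ch.ι → K), (∀ g ∈ LL (Finsupp.single o (-(a : ℤ))),
      g ∉ LL (Finsupp.single o (-(a : ℤ)) + Finsupp.single o 1) →
      ∀ u ∈ LL (Finsupp.single o (-(a : ℤ)) + Finsupp.single o 1),
        φ (ch.c (g + u)) = φ (ch.c g) ∧ (2 * (genusFF K F : ℤ) ≤ a → φ (ch.c g) ≠ 0)) := by
    intro a
    have haM : Finsupp.single o (-(M : ℤ)) ≤ Finsupp.single o (-(a : ℤ)) :=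
      single_le_single (K := K) (by have := a.2; omega)
    by_cases ha : 2 * (genusFF K F : ℤ) ≤ a
    · have hdeg : - Divisor.degree (Finsupp.single o (-(a : ℤ)) : Divisor K F) = a := by
        rw [degree_single_one]; ring
      obtain ⟨g₀, hg₀, hg₀'⟩ := exists_mem_LL_notMem
        (X := (Finsupp.single o (-(a : ℤ)) : Divisor K F)) (by omega) o
      have hnot : ch.c g₀ ∉ ch.S (Finsupp.single o (-(a : ℤ)) + Finsupp.single o 1) := by
        rw [ch.c_mem_S_iff (haM.trans (le_single_add _ _)) (LL_anti haM hg₀)]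
        exact hg₀'
      obtain ⟨φ, hφ0, hφ⟩ := Submodule.exists_le_ker_of_notMem hnot
      refine ⟨φ, fun g hg hg' u hu => ⟨?_, fun _ h0 => ?_⟩⟩
      · rw [map_add, map_add]
        have : φ (ch.c u) = 0 := hφ (ch.c_mem_S hu)
        rw [this, add_zero]
      · obtain ⟨α, hα⟩ := exists_sub_smul_mem (by omega) hg hg' hg₀
        have h1 : φ (ch.c (g₀ - α • g)) = 0 := hφ (ch.c_mem_S hα)
        rw [map_sub, map_sub, map_smul, map_smul, h0, smul_zero, sub_zero] at h1
        exact hφ0 h1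
    · refine ⟨0, fun g _ _ u _ => ⟨by simp, fun h => absurd h ha⟩⟩
  choose φ hφ using hφ
  -- uniform bound for the functionals
  obtain ⟨D, hD⟩ := exists_const_le A (fun p : Fin (m + 1) × ch.ι => φ p.1 (Pi.single p.2 1))
  obtain ⟨S, hS⟩ := exists_sum_le A ch.ι
  have hbound : ∀ (w : A.Pt) (a : Fin (m + 1)) (x : ch.ι → K),
      A.abs w (φ a x) ≤ cst A (S + D) w * nrm w x := by
    intro w a x
    have hx : φ a x = ∑ i, x i * φ a (Pi.single i 1) := by
      have hx : x = ∑ i, x i • (Pi.single i (1 : K) : ch.ι → K) := by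
        rw [pi_eq_sum_univ' x]
        simp [Pi.single_apply, Finset.sum_apply]
      conv_lhs => rw [hx]
      simp
    rw [hx, cst_add, mul_assoc]
    apply hS w _ _ (mul_nonneg (cst_pos _ _).le (nrm_nonneg _ _))
    intro i
    rw [map_mul, mul_comm]
    exact mul_le_mul (hD w (a, i)) (le_nrm w x i) ((A.abs w).nonneg _) (cst_pos _ _).le
  refine ⟨S + D, ?_⟩
  rintro X ⟨hX, hdeg⟩
  obtain ⟨g, hg, hg'⟩ := exists_mem_LL_notMem (X := X) (by omega) o
  obtain ⟨c, hc, h⟩ := hC X o g (single_le_trans hm hX) hdeg hg hg'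
  -- the order at infinity
  have hXo : X o ≤ - δ := by
    have h1 : Finsupp.single o (X o + m) ≤ X - Finsupp.single o (-(m : ℤ)) := by
      intro v
      rw [Finsupp.sub_apply]
      by_cases hv : o = v
      · subst hv; simp
      · rw [Finsupp.single_apply, if_neg hv, Finsupp.single_apply, if_neg hv]
        have := hX v
        rw [Finsupp.single_apply, if_neg hv] at this
        omega
    have h2 := degree_mono h1
    rw [map_sub, degree_single_one, degree_single_one] at h2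
    omega
  have hXm : -(m : ℤ) ≤ X o := by
    have := hX o
    rwa [Finsupp.single_eq_same] at this
  obtain ⟨a, ha⟩ : ∃ a : Fin (m + 1), (a : ℤ) = - X o :=
    ⟨⟨(- X o).toNat, by omega⟩, by simp; omega⟩
  have hXa : Finsupp.single o (-(a : ℤ)) ≤ X := by
    intro v
    by_cases hv : o = v
    · subst hv; rw [Finsupp.single_eq_same]; omega
    · rw [Finsupp.single_apply, if_neg hv]
      have := hX v
      rwa [Finsupp.single_apply, if_neg hv] at this
  have hga := LL_anti hXa hg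
  have hga' : g ∉ LL (Finsupp.single o (-(a : ℤ)) + Finsupp.single o 1) := by
    obtain ⟨hg0, hord⟩ := apply_eq_of_mem_of_notMem hg hg'
    apply notMem_of_apply_eq hg0
    rw [hord, Finsupp.single_eq_same]
    omega
  obtain ⟨-, hne⟩ := hφ a g hga hga' 0 (zero_mem _)
  have hne := hne (by omega)
  refine ⟨c * φ a (ch.c g), mul_ne_zero hc hne, fun w => ?_⟩
  obtain ⟨u, hu, hle⟩ := (h w).2
  have hua : u ∈ LL (Finsupp.single o (-(a : ℤ)) + Finsupp.single o 1) :=
    LL_anti (add_le_add_left hXa _) hu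
  have h1 := hbound w a (ch.c (g + u))
  rw [(hφ a g hga hga' u hua).1] at h1
  have hgu0 : g + u ≠ 0 := fun h0 => hg' (by
    rw [eq_neg_of_add_eq_zero_left h0]; exact neg_mem hu)
  have hgumem : g + u ∈ LL X := add_mem hg (LL_anti (le_single_add _ _) hu)
  have hpos := ch.nm_pos A (LL_anti (single_le_trans hm hX) hgumem) hgu0 w
  have h2 := Real.log_le_log ((A.abs w).pos hne) h1
  rw [Real.log_mul (cst_pos _ _).ne' (nrm_pos w fun h =>
    hgu0 ((ch.c_eq_zero_iff (LL_anti (single_le_trans hm hX) hgumem)).mp h)).ne', log_cst] at h2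
  rw [log_abs_mul w hc hne]
  change _ ≤ _ + Real.log (ch.nm A (g + u) w) at h2
  linarith

end Fermat.Agent.Heights
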