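import Fermat.Agent.Heights.Lattice
import Mathlib.NumberTheory.Padics.Complex
import Mathlib.Analysis.Complex.Polynomial.Basic
import Mathlib.Topology.Algebra.Ring.Basic
import Mathlib.Tactic

/-!
# Absolute values of algebraic numbers and the norm trick

`absE v` is an absolute value on `E = AlgebraicClosure ℚ` for `v` a place of `ℚ` (`none` is the
archimedean place). We prove the finiteness properties of the values on a Galois orbit, the
product formula on `ℚ` and the norm trick.
-/

set_option autoImplicit false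

noncomputable section

namespace Fermat.Agent.Heights

open Polynomial

local notation "E" => AlgebraicClosure ℚ

attribute [local instance] isAlgClosure_rat

instance isAlgebraic_rat_algClosure :
    @Algebra.IsAlgebraic ℚ (AlgebraicClosure ℚ) _ _ DivisionRing.toRatAlgebra := by
  have h : (DivisionRing.toRatAlgebra : Algebra ℚ (AlgebraicClosure ℚ)) =
      AlgebraicClosure.instAlgebra ℚ := Subsingleton.elim _ _
  rw [h]
  infer_instance

/-- an embedding of the algebraic numbers in the complex numbers. -/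
def embC : E →ₐ[ℚ] ℂ := IsAlgClosed.lift

/-- an embedding of the algebraic numbers in `PadicAlgCl p`. -/
def embP (p : ℕ) [Fact p.Prime] : E →ₐ[ℚ] PadicAlgCl p := IsAlgClosed.lift

/-- an absolute value on the algebraic numbers above each place of `ℚ`. -/
def absE : Option Nat.Primes → AbsoluteValue E ℝ
  | none => (NormedField.toAbsoluteValue ℂ).comp (f := embC.toRingHom) embC.injective
  | some p =>
    have : Fact (p : ℕ).Prime := ⟨p.2⟩
    (NormedField.toAbsoluteValue (PadicAlgCl p)).comp (f := (embP p).toRingHom) (embP p).injective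

theorem absE_none (x : E) : absE none x = ‖embC x‖ := rfl

theorem absE_some (p : Nat.Primes) (x : E) :
    absE (some p) x = haveI : Fact (p : ℕ).Prime := ⟨p.2⟩; ‖embP p x‖ := rfl

theorem absE_none_rat (q : ℚ) : absE none (algebraMap ℚ E q) = |(q : ℝ)| := by
  rw [absE_none, AlgHom.commutes]
  simp

theorem absE_some_rat (p : Nat.Primes) (q : ℚ) :
    absE (some p) (algebraMap ℚ E q) = (padicNorm p q : ℝ) := by
  have : Fact (p : ℕ).Prime := ⟨p.2⟩
  rw [absE_some, AlgHom.commutes]
  have h : algebraMap ℚ (PadicAlgCl p) q = algebraMap ℚ_[p] (PadicAlgCl p) (q : ℚ_[p]) := by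
    simp
  rw [h]
  show ‖((q : ℚ_[p]) : PadicAlgCl p)‖ = _
  rw [PadicAlgCl.norm_extends]
  simp

theorem absE_some_int (p : Nat.Primes) (n : ℤ) :
    absE (some p) (n : E) = (padicNorm p n : ℝ) := by
  have := absE_some_rat p (n : ℚ)
  simpa using this

theorem absE_none_int (n : ℤ) : absE none (n : E) = |(n : ℝ)| := by
  have := absE_none_rat (n : ℚ)
  simpa using this

theorem absE_add_le_max (p : Nat.Primes) (x y : E) :
    absE (some p) (x + y) ≤ max (absE (some p) x) (absE (some p) y) := by
  have : Fact (p : ℕ).Prime := ⟨p.2⟩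
  simp only [absE_some, map_add]
  exact PadicAlgCl.isNonarchimedean p _ _

theorem isNonarchimedean_absE (p : Nat.Primes) : IsNonarchimedean (absE (some p)) :=
  fun x y => absE_add_le_max p x y

theorem absE_some_int_le_one (p : Nat.Primes) (n : ℤ) : absE (some p) (n : E) ≤ 1 := by
  rw [absE_some_int]
  have : Fact (p : ℕ).Prime := ⟨p.2⟩
  exact_mod_cast padicNorm.of_int n

theorem absE_some_int_eq_one (p : Nat.Primes) (n : ℤ) (h : ¬ ((p : ℕ) : ℤ) ∣ n) :
    absE (some p) (n : E) = 1 := by
  rw [absE_some_int]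
  have : Fact (p : ℕ).Prime := ⟨p.2⟩
  have := (padicNorm.int_eq_one_iff (p := p) n).2 h
  exact_mod_cast this


/-! ### Galois orbits -/

theorem mem_aroots_of_conj (c : E) (σ : E ≃ₐ[ℚ] E) : σ c ∈ (minpoly ℚ c).aroots E := by
  have hint : IsIntegral ℚ c := Algebra.IsIntegral.isIntegral c
  rw [Polynomial.mem_aroots]
  refine ⟨minpoly.ne_zero hint, ?_⟩
  have h := minpoly.aeval ℚ c
  have h2 := congrArg σ h
  rw [map_zero] at h2
  rw [← h2]
  exact (Polynomial.aeval_algHom_apply σ.toAlgHom c (minpoly ℚ c))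

theorem exists_conj_of_mem_aroots (c : E) {r : E} (hr : r ∈ (minpoly ℚ c).aroots E) :
    ∃ σ : E ≃ₐ[ℚ] E, σ c = r := by
  have hint : IsIntegral ℚ c := Algebra.IsIntegral.isIntegral c
  have : Normal ℚ E := IsAlgClosure.normal ℚ E
  rw [Polynomial.mem_aroots] at hr
  exact minpoly.exists_algEquiv_of_root' hint.isAlgebraic hr.2

/-- the Galois orbit of an algebraic number is finite. -/
theorem finite_conj (c : E) : (Set.range fun σ : E ≃ₐ[ℚ] E => σ c).Finite := by
  classical
  refine Set.Finite.subset ((minpoly ℚ c).aroots E).toFinset.finite_toSet ?_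
  rintro _ ⟨σ, rfl⟩
  simpa using mem_aroots_of_conj c σ

theorem finite_absE_conj (v : Option Nat.Primes) (c : E) :
    (Set.range fun σ : E ≃ₐ[ℚ] E => absE v (σ c)).Finite := by
  have h : (Set.range fun σ : E ≃ₐ[ℚ] E => absE v (σ c)) =
      (absE v) '' (Set.range fun σ : E ≃ₐ[ℚ] E => σ c) := by
    rw [← Set.range_comp]; rfl
  rw [h]
  exact (finite_conj c).image _

/-- a nonzero integer is a unit for almost all primes. -/
theorem finite_dvd_int {n : ℤ} (hn : n ≠ 0) : {p : Nat.Primes | ((p : ℕ) : ℤ) ∣ n}.Finite := by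
  have : {p : Nat.Primes | ((p : ℕ) : ℤ) ∣ n} ⊆ (fun p : Nat.Primes => (p : ℕ)) ⁻¹'
      (n.natAbs.divisors : Set ℕ) := by
    intro p hp
    simp only [Set.mem_preimage, Finset.mem_coe, Nat.mem_divisors]
    refine ⟨?_, by simpa using hn⟩
    have := Int.natAbs_dvd_natAbs.2 hp
    simpa using this
  refine Set.Finite.subset (Set.Finite.preimage ?_ (Finset.finite_toSet _)) this
  intro a _ b _ h
  exact Subtype.ext h

theorem absE_sum_le {κ : Type*} (p : Nat.Primes) (s : Finset κ) (f : κ → E) {B : ℝ} (hB : 0 ≤ B)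
    (h : ∀ i ∈ s, absE (some p) (f i) ≤ B) : absE (some p) (∑ i ∈ s, f i) ≤ B := by
  classical
  induction s using Finset.induction_on with
  | empty => simpa using hB
  | insert a s ha ih =>
    rw [Finset.sum_insert ha]
    refine (absE_add_le_max p _ _).trans (max_le (h a (Finset.mem_insert_self a s)) ?_)
    exact ih fun i hi => h i (Finset.mem_insert_of_mem hi)

/-- algebraic integers have absolute value at most one at the finite places. -/
theorem absE_le_one_of_isIntegral (p : Nat.Primes) {z : E} (hz : IsIntegral ℤ z) :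
    absE (some p) z ≤ 1 := by
  obtain ⟨f, hf, hfz⟩ := hz
  by_contra hlt
  push Not at hlt
  have hn : f.natDegree ≠ 0 := by
    intro h0
    rw [Polynomial.eq_one_of_monic_natDegree_zero hf h0] at hfz
    simp at hfz
  obtain ⟨n, hn⟩ := Nat.exists_eq_succ_of_ne_zero hn
  have h1 : z ^ (n + 1) = -∑ i ∈ Finset.range (n + 1), (f.coeff i : E) * z ^ i := by
    rw [hf.as_sum] at hfz
    rw [hn] at hfz
    simp only [Polynomial.eval₂_add, Polynomial.eval₂_pow, Polynomial.eval₂_X,
      Polynomial.eval₂_finsetSum, Polynomial.eval₂_mul, Polynomial.eval₂_C] at hfz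
    rw [eq_neg_iff_add_eq_zero]
    simpa using hfz
  have h2 : absE (some p) (z ^ (n + 1)) ≤ absE (some p) z ^ n := by
    rw [h1, AbsoluteValue.map_neg]
    refine absE_sum_le p _ _ (by positivity) fun i hi => ?_
    rw [map_mul, map_pow]
    have hi' : i ≤ n := Nat.lt_succ_iff.1 (Finset.mem_range.1 hi)
    calc absE (some p) (f.coeff i : E) * absE (some p) z ^ i
        ≤ 1 * absE (some p) z ^ n := by
          refine mul_le_mul (absE_some_int_le_one p _) (pow_le_pow_right₀ hlt.le hi')
            (by positivity) zero_le_one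
      _ = _ := one_mul _
  rw [map_pow] at h2
  have h3 : absE (some p) z ^ n < absE (some p) z ^ (n + 1) :=
    pow_lt_pow_right₀ hlt (Nat.lt_succ_self n)
  exact absurd h2 (not_le.2 h3)

/-- almost all primes are integral on an algebraic number and all its conjugates. -/
theorem finite_one_lt_absE_conj (c : E) :
    {p : Nat.Primes | ∃ σ : E ≃ₐ[ℚ] E, 1 < absE (some p) (σ c)}.Finite := by
  -- `m • c` is integral over `ℤ` for some nonzero integer `m`
  have halg : IsAlgebraic ℤ c := by
    have h : IsAlgebraic ℚ c := Algebra.IsAlgebraic.isAlgebraic c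
    exact (IsFractionRing.isAlgebraic_iff ℤ ℚ E).2 h
  obtain ⟨m, hm, hint⟩ := halg.exists_integral_multiple
  refine (finite_dvd_int hm).subset ?_
  rintro p ⟨σ, hσ⟩
  by_contra hdvd
  have h1 : IsIntegral ℤ (σ (m • c)) := hint.map (σ : E →+* E).toIntAlgHom
  have h2 := absE_le_one_of_isIntegral p h1
  rw [map_zsmul, zsmul_eq_mul, map_mul, absE_some_int_eq_one p m hdvd, one_mul] at h2
  exact absurd h2 (not_le.2 hσ)

/-- almost all primes are trivial on a nonzero algebraic number and all its conjugates. -/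
theorem finite_absE_conj_ne_one {c : E} (hc : c ≠ 0) :
    {p : Nat.Primes | ∃ σ : E ≃ₐ[ℚ] E, absE (some p) (σ c) ≠ 1}.Finite := by
  refine ((finite_one_lt_absE_conj c).union (finite_one_lt_absE_conj c⁻¹)).subset ?_
  rintro p ⟨σ, hσ⟩
  rcases lt_or_gt_of_ne hσ with h | h
  · right
    refine ⟨σ, ?_⟩
    rw [map_inv₀, map_inv₀]
    exact (one_lt_inv₀ ((AbsoluteValue.pos_iff _).2 (by simpa using hc))).2 h
  · left
    exact ⟨σ, h⟩

theorem finite_absE_ne_one {c : E} (hc : c ≠ 0) :
    {p : Nat.Primes | absE (some p) c ≠ 1}.Finite :=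
  (finite_absE_conj_ne_one hc).subset fun _ hp => ⟨AlgEquiv.refl, hp⟩

/-! ### The product formula -/

theorem log_padicNorm_nat (p : Nat.Primes) (n : ℕ) (hn : n ≠ 0) :
    Real.log (padicNorm p n : ℝ) = -(n.factorization p * Real.log p) := by
  have : Fact (p : ℕ).Prime := ⟨p.2⟩
  have h : padicNorm p n = (p : ℚ) ^ (-(n.factorization p : ℤ)) := by
    rw [padicNorm.eq_zpow_of_nonzero (by exact_mod_cast hn), padicValRat.of_nat,
      Nat.factorization_def n p.2]
  rw [h]
  push_cast
  rw [Real.log_zpow]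
  push_cast
  ring

theorem log_nat_add_sum (n : ℕ) (hn : n ≠ 0) (S : Finset Nat.Primes)
    (hS : ∀ p : Nat.Primes, (p : ℕ) ∣ n → p ∈ S) :
    Real.log n + ∑ p ∈ S, Real.log (padicNorm p n : ℝ) = 0 := by
  classical
  rw [Real.log_nat_eq_sum_factorization]
  have h1 : ∑ p ∈ S, Real.log (padicNorm p n : ℝ) =
      -∑ p ∈ S, (n.factorization p * Real.log p) := by
    rw [← Finset.sum_neg_distrib]
    exact Finset.sum_congr rfl fun p _ => log_padicNorm_nat p n hn
  rw [h1, Finsupp.sum]
  have h2 : ∑ p ∈ S, ((n.factorization p : ℝ) * Real.log p) =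
      ∑ q ∈ S.image (fun p : Nat.Primes => (p : ℕ)), ((n.factorization q : ℝ) * Real.log q) := by
    rw [Finset.sum_image]
    intro a _ b _ h
    exact Subtype.ext h
  rw [h2]
  have h3 : n.factorization.support ⊆ S.image (fun p : Nat.Primes => (p : ℕ)) := by
    intro q hq
    rw [Nat.support_factorization] at hq
    have hqp := Nat.prime_of_mem_primeFactors hq
    exact Finset.mem_image.2 ⟨⟨q, hqp⟩, hS ⟨q, hqp⟩ (Nat.dvd_of_mem_primeFactors hq), rfl⟩
  rw [Finset.sum_subset h3]
  · ring
  · intro q _ hq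
    rw [Finsupp.notMem_support_iff.1 hq]
    simp

theorem sum_log_rat {q : ℚ} (hq : q ≠ 0) : ∃ S₀ : Finset Nat.Primes, ∀ S : Finset Nat.Primes,
    S₀ ⊆ S → Real.log |(q : ℝ)| + ∑ p ∈ S, Real.log (padicNorm p q : ℝ) = 0 := by
  classical
  have hnum : q.num.natAbs ≠ 0 := by simpa using hq
  have hden : q.den ≠ 0 := q.den_ne_zero
  obtain ⟨T, hT⟩ : ∃ T : Finset Nat.Primes, ∀ p : Nat.Primes,
      ((p : ℕ) : ℤ) ∣ (q.num.natAbs : ℤ) ∨ ((p : ℕ) : ℤ) ∣ (q.den : ℤ) → p ∈ T := by
    have h1 := finite_dvd_int (n := (q.num.natAbs : ℤ)) (by exact_mod_cast hnum)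
    have h2 := finite_dvd_int (n := (q.den : ℤ)) (by exact_mod_cast hden)
    refine ⟨(h1.union h2).toFinset, fun p hp => ?_⟩
    rw [Set.Finite.mem_toFinset]
    exact hp
  refine ⟨T, fun S hS => ?_⟩
  have h1 := log_nat_add_sum q.num.natAbs hnum S
    (fun p hp => hS (hT p (Or.inl (by exact_mod_cast hp))))
  have h2 := log_nat_add_sum q.den hden S
    (fun p hp => hS (hT p (Or.inr (by exact_mod_cast hp))))
  have hq' : |(q : ℝ)| = (q.num.natAbs : ℝ) / (q.den : ℝ) := by
    conv_lhs => rw [← Rat.num_div_den q]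
    push_cast
    rw [abs_div, Nat.abs_cast, Nat.cast_natAbs, Int.cast_abs]
  have h3 : ∀ p : Nat.Primes, Real.log (padicNorm p q : ℝ) =
      Real.log (padicNorm p (q.num.natAbs : ℚ) : ℝ) - Real.log (padicNorm p (q.den : ℚ) : ℝ) := by
    intro p
    have : Fact (p : ℕ).Prime := ⟨p.2⟩
    have h4 : padicNorm p q = padicNorm p (q.num.natAbs : ℚ) / padicNorm p (q.den : ℚ) := by
      conv_lhs => rw [← Rat.num_div_den q]
      rw [padicNorm.div]
      congr 1
      rcases Int.natAbs_eq q.num with h | h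
      · conv_lhs => rw [h]
        simp
      · conv_lhs => rw [h]
        simp
    rw [h4]
    push_cast
    rw [Real.log_div]
    · have := padicNorm.nonzero (p := p) (q := (q.num.natAbs : ℚ)) (by exact_mod_cast hnum)
      exact_mod_cast this
    · have := padicNorm.nonzero (p := p) (q := (q.den : ℚ)) (by exact_mod_cast hden)
      exact_mod_cast this
  rw [hq', Real.log_div (by exact_mod_cast hnum) (by exact_mod_cast hden)]
  simp only [h3, Finset.sum_sub_distrib]
  linarith

/-- **product formula** for a rational number. -/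
theorem sum_log_absE_rat {q : ℚ} (hq : q ≠ 0) : ∃ S₀ : Finset (Option Nat.Primes),
    none ∈ S₀ ∧ ∀ S : Finset (Option Nat.Primes),
    S₀ ⊆ S → ∑ v ∈ S, Real.log (absE v (algebraMap ℚ E q)) = 0 := by
  classical
  obtain ⟨S₀, hS₀⟩ := sum_log_rat hq
  refine ⟨insert none (S₀.image some), Finset.mem_insert_self _ _, fun S hS => ?_⟩
  have h1 : S = insert none ((S.eraseNone).image some) := by
    ext v
    cases v with
    | none => simpa using hS (Finset.mem_insert_self _ _)
    | some p => simp
  have h2 : S₀ ⊆ S.eraseNone := by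
    intro p hp
    rw [Finset.mem_eraseNone]
    exact hS (Finset.mem_insert_of_mem (Finset.mem_image_of_mem _ hp))
  rw [h1, Finset.sum_insert (by simp), Finset.sum_image (by intro a _ b _ h; simpa using h),
    absE_none_rat]
  simp only [absE_some_rat]
  exact hS₀ _ h2

/-! ### The norm trick -/

/-- **norm trick**, finite set version. -/
theorem norm_trick_finset {c : E} (hc : c ≠ 0) (C : Option Nat.Primes → ℝ)
    (S : Finset (Option Nat.Primes)) (hS : ∀ v, v ∉ S → C v = 0)
    (t : Option Nat.Primes → ℝ) (ht : ∀ p : Nat.Primes, t (some p) = 0)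
    (h : ∀ v, ∀ σ : E ≃ₐ[ℚ] E, Real.log (absE v (σ c)) - C v ≤ t v) :
    -∑ v ∈ S, C v ≤ t none := by
  classical
  have hint : IsIntegral ℚ c := Algebra.IsIntegral.isIntegral c
  set f := minpoly ℚ c with hf
  have hmonic : f.Monic := minpoly.monic hint
  set m : Multiset E := f.aroots E with hm
  have hsplit : (f.map (algebraMap ℚ E)).Splits := IsAlgClosed.splits _
  have hcard : Multiset.card m = f.natDegree := by
    have := hsplit.natDegree_eq_card_roots
    rw [Polynomial.natDegree_map] at this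
    exact this.symm
  have hdeg : 0 < f.natDegree := minpoly.natDegree_pos hint
  have hprod : algebraMap ℚ E ((-1) ^ f.natDegree * f.coeff 0) = m.prod := by
    have h1 := hsplit.coeff_zero_eq_prod_roots_of_monic (hmonic.map _)
    rw [Polynomial.coeff_map, Polynomial.natDegree_map] at h1
    rw [map_mul, h1, map_pow, map_neg, map_one, ← mul_assoc, ← mul_pow]
    simp [hm, Polynomial.aroots]
  have ha0 : f.coeff 0 ≠ 0 := minpoly.coeff_zero_ne_zero hint hc
  set a : ℚ := (-1) ^ f.natDegree * f.coeff 0 with ha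
  have hane : a ≠ 0 := mul_ne_zero (pow_ne_zero _ (by norm_num)) ha0
  have hr0 : ∀ r ∈ m, r ≠ 0 := by
    intro r hr h0
    obtain ⟨σ, hσ⟩ := exists_conj_of_mem_aroots c hr
    rw [h0] at hσ
    exact hc (by simpa using hσ)
  -- the bound at each place
  have hv : ∀ v, Real.log (absE v (algebraMap ℚ E a)) ≤ f.natDegree * (t v + C v) := by
    intro v
    rw [hprod, map_multiset_prod, Real.log_multiset_prod]
    · rw [Multiset.map_map, ← hcard, ← nsmul_eq_mul]
      refine (Multiset.sum_le_card_nsmul _ (t v + C v) ?_).trans_eq (by simp)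
      intro x hx
      rw [Multiset.mem_map] at hx
      obtain ⟨r, hr, rfl⟩ := hx
      obtain ⟨σ, rfl⟩ := exists_conj_of_mem_aroots c hr
      have := h v σ
      simp only [Function.comp]
      linarith
    · intro x hx
      rw [Multiset.mem_map] at hx
      obtain ⟨r, hr, rfl⟩ := hx
      exact ((AbsoluteValue.pos_iff _).2 (hr0 r hr)).ne'
  obtain ⟨S₀, hnone, hS₀⟩ := sum_log_absE_rat hane
  have h0 := hS₀ (S₀ ∪ S) Finset.subset_union_left
  have h1 : (0 : ℝ) ≤ ∑ v ∈ S₀ ∪ S, (f.natDegree : ℝ) * (t v + C v) := by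
    rw [← h0]
    exact Finset.sum_le_sum fun v _ => hv v
  rw [← Finset.mul_sum] at h1
  have h2 : 0 ≤ ∑ v ∈ S₀ ∪ S, (t v + C v) := by
    by_contra hneg
    push Not at hneg
    have : (f.natDegree : ℝ) * ∑ v ∈ S₀ ∪ S, (t v + C v) < 0 :=
      mul_neg_of_pos_of_neg (by exact_mod_cast hdeg) hneg
    linarith
  rw [Finset.sum_add_distrib] at h2
  have h3 : ∑ v ∈ S₀ ∪ S, t v = t none := by
    refine Finset.sum_eq_single none ?_ ?_
    · intro v _ hvn
      cases v with
      | none => exact absurd rfl hvn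
      | some p => exact ht p
    · intro hn
      exact absurd (Finset.mem_union_left _ hnone) hn
  have h4 : ∑ v ∈ S₀ ∪ S, C v = ∑ v ∈ S, C v := by
    symm
    refine Finset.sum_subset Finset.subset_union_right ?_
    intro v _ hvS
    exact hS v hvS
  rw [h3, h4] at h2
  linarith

/-- **norm trick**. -/
theorem norm_trick {c : E} (hc : c ≠ 0) (C : Option Nat.Primes → ℝ)
    (hC : (Function.support C).Finite)
    (t : Option Nat.Primes → ℝ) (ht : ∀ p : Nat.Primes, t (some p) = 0)
    (h : ∀ v, ∀ σ : E ≃ₐ[ℚ] E, Real.log (absE v (σ c)) - C v ≤ t v) :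
    -∑ᶠ v, C v ≤ t none := by
  classical
  rw [finsum_eq_sum_of_support_subset C (s := hC.toFinset) (by simp)]
  refine norm_trick_finset hc C _ ?_ t ht h
  intro v hv
  simpa using hv

end Fermat.Agent.Heights
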