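import Fermat.Agent.Heights.Rep
import Fermat.Agent.Heights.Bdd

/-!
# The family of all absolute values of `ℚ̄` and globally represented functions
-/

set_option autoImplicit false

noncomputable section

open scoped NNReal
open Module

namespace Fermat.Agent.Heights

local notation "E" => AlgebraicClosure ℚ

attribute [local instance] isAlgClosure_rat

theorem bddAbove_absE_conj (v : Option Nat.Primes) (c : E) :
    BddAbove (Set.range fun σ : E ≃ₐ[ℚ] E => absE v (σ c)) :=
  (finite_absE_conj v c).bddAbove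

theorem exists_bdd_absE (c : E) : ∃ C : Option Nat.Primes →₀ ℝ≥0,
    ∀ (v : Option Nat.Primes) (σ : E ≃ₐ[ℚ] E), absE v (σ c) ≤ Real.exp (C v) := by
  classical
  let B : Option Nat.Primes → ℝ := fun v => ⨆ σ : E ≃ₐ[ℚ] E, absE v (σ c)
  let D : Option Nat.Primes → ℝ≥0 := fun v =>
    ⟨Real.log (max 1 (B v)), Real.log_nonneg (le_max_left _ _)⟩
  have hsupp : (Function.support D).Finite := by
    have h1 : (insert none (Option.some '' {p : Nat.Primes | ∃ σ : E ≃ₐ[ℚ] E,
        1 < absE (some p) (σ c)}) : Set (Option Nat.Primes)).Finite :=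
      ((finite_one_lt_absE_conj c).image _).insert _
    refine h1.subset fun v hv => ?_
    rcases v with _ | p
    · exact Set.mem_insert _ _
    · refine Set.mem_insert_of_mem _ ⟨p, ?_, rfl⟩
      by_contra hcon
      simp only [Set.mem_ofPred_eq, not_exists, not_lt] at hcon
      apply hv
      have h2 : B (some p) ≤ 1 := Real.iSup_le hcon zero_le_one
      apply NNReal.coe_injective
      show Real.log (max 1 (B (some p))) = 0
      rw [max_eq_left h2, Real.log_one]
  refine ⟨Finsupp.ofSupportFinite D hsupp, fun v σ => ?_⟩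
  show _ ≤ Real.exp (Real.log (max 1 (B v)))
  rw [Real.exp_log (lt_of_lt_of_le one_pos (le_max_left _ _))]
  exact (le_ciSup (bddAbove_absE_conj v c) σ).trans (le_max_right _ _)

/-- all absolute values `absE v ∘ σ` on the algebraic numbers -/
@[reducible] def absFam : AbsFam E where
  V := Option Nat.Primes
  Pt := Option Nat.Primes × (E ≃ₐ[ℚ] E)
  pl w := w.1
  abs w := (absE w.1).comp (f := (w.2 : E →+* E)) w.2.injective
  arch := {none}
  nonarch := by
    rintro ⟨v, σ⟩ hv x y
    rcases v with _ | p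
    · simp at hv
    · show absE (some p) (σ (x + y)) ≤ _
      rw [map_add]
      exact absE_add_le_max p _ _
  bdd c := by
    obtain ⟨C, hC⟩ := exists_bdd_absE c
    exact ⟨C, fun w => hC w.1 w.2⟩

theorem absFam_abs (w : absFam.Pt) (x : E) : absFam.abs w x = absE w.1 (w.2 x) := rfl

theorem absFam_pl (w : absFam.Pt) : absFam.pl w = w.1 := rfl

/-- a function on the points is globally represented with value `h` -/
def IsRep (t : absFam.Pt → ℝ) (h : ℝ) : Prop :=
  ∃ c : E, c ≠ 0 ∧ ∀ w : absFam.Pt, t w = Real.log (absFam.abs w c) + if w.1 = none then h else 0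

namespace IsRep

variable {s t : absFam.Pt → ℝ} {g h : ℝ}

theorem congr (ht : IsRep t h) (hst : ∀ w, s w = t w) : IsRep s h := by
  obtain ⟨c, hc, h1⟩ := ht
  exact ⟨c, hc, fun w => (hst w).trans (h1 w)⟩

theorem add (hs : IsRep s g) (ht : IsRep t h) : IsRep (fun w => s w + t w) (g + h) := by
  obtain ⟨c, hc, h1⟩ := hs
  obtain ⟨d, hd, h2⟩ := ht
  refine ⟨c * d, mul_ne_zero hc hd, fun w => ?_⟩
  beta_reduce
  rw [log_abs_mul w hc hd, h1 w, h2 w]
  split_ifs <;> ring

theorem neg (hs : IsRep s g) : IsRep (fun w => - s w) (- g) := by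
  obtain ⟨c, hc, h1⟩ := hs
  refine ⟨c⁻¹, inv_ne_zero hc, fun w => ?_⟩
  beta_reduce
  rw [log_abs_inv, h1 w]
  split_ifs <;> ring

theorem sub (hs : IsRep s g) (ht : IsRep t h) : IsRep (fun w => s w - t w) (g - h) := by
  rw [sub_eq_add_neg]
  exact (hs.add ht.neg).congr fun w => sub_eq_add_neg _ _

theorem zero : IsRep (fun _ => 0) 0 := ⟨1, one_ne_zero, fun w => by simp⟩

theorem nsmul (n : ℕ) (hs : IsRep s g) : IsRep (fun w => n * s w) (n * g) := by
  induction n with
  | zero => simpa using zero
  | succ n ih =>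
    have := ih.add hs
    rw [show ((n + 1 : ℕ) : ℝ) * g = n * g + g by push_cast; ring]
    exact this.congr fun w => by push_cast; ring

theorem zsmul (n : ℤ) (hs : IsRep s g) : IsRep (fun w => n * s w) (n * g) := by
  obtain ⟨m, rfl | rfl⟩ := n.eq_nat_or_neg
  · simpa using hs.nsmul m
  · have := (hs.nsmul m).neg
    rw [show ((-(m : ℤ) : ℤ) : ℝ) * g = -(m * g) by push_cast; ring]
    exact this.congr fun w => by push_cast; ring

end IsRep

/-- The norm trick for families: a family which is bounded below and globally represented has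
values bounded below. -/
theorem Blw.exists_le {I : Type*} {P : I → Prop} {t : I → absFam.Pt → ℝ} {h : I → ℝ}
    (hb : Blw absFam P t) (hr : ∀ i, P i → IsRep (t i) (h i)) : ∃ C : ℝ, ∀ i, P i → -C ≤ h i := by
  obtain ⟨C, hC⟩ := hb
  refine ⟨∑ᶠ v, (C v : ℝ), fun i hi => ?_⟩
  obtain ⟨c, hc, h1⟩ := hC i hi
  obtain ⟨d, hd, h2⟩ := hr i hi
  have h3 := norm_trick (c := c * d⁻¹) (mul_ne_zero hc (inv_ne_zero hd)) (fun v => (C v : ℝ))
    (by
      refine C.hasFiniteSupport.subset fun v hv => ?_
      intro h0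
      apply hv
      show ((C v : ℝ≥0) : ℝ) = 0
      rw [h0]; rfl)
    (fun v => if v = none then h i else 0) (fun p => by simp) (fun v σ => by
      have h4 := h1 (v, σ)
      rw [h2 (v, σ)] at h4
      have h5 : Real.log (absE v (σ (c * d⁻¹))) =
          Real.log (absFam.abs (v, σ) c) - Real.log (absFam.abs (v, σ) d) := by
        have := log_abs_mul (A := absFam) (v, σ) hc (inv_ne_zero hd)
        rw [log_abs_inv, absFam_abs] at this
        rw [this]; ring
      rw [h5]
      change -(C v : ℝ) ≤ _ at h4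
      dsimp only at h4 ⊢
      linarith)
  simpa using h3

theorem Bdd.exists_abs_le {I : Type*} {P : I → Prop} {t : I → absFam.Pt → ℝ} {h : I → ℝ}
    (hb : Bdd absFam P t) (hr : ∀ i, P i → IsRep (t i) (h i)) : ∃ C : ℝ, ∀ i, P i → |h i| ≤ C := by
  obtain ⟨C, hC⟩ := hb.blw.exists_le hr
  obtain ⟨D, hD⟩ := hb.neg.blw.exists_le (h := fun i => - h i) (fun i hi => (hr i hi).neg)
  refine ⟨max C D, fun i hi => ?_⟩
  rw [abs_le]
  have h1 := hC i hi
  have h2 := hD i hi
  have h3 := le_max_left C D
  have h4 := le_max_right C D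
  constructor <;> linarith

section subspaces

variable {ι : Type*} [Fintype ι]

/-- `W` has an integral saturated frame of logarithmic height `h`. -/
def HasHt (W : Submodule E (ι → E)) (h : ℝ) : Prop :=
  ∃ b : Fin (finrank E W) → ι → ℤ, SatFrame b ∧
      LinearIndependent E (fun l (i : ι) => ((b l i : ℤ) : E)) ∧
      Submodule.span E (Set.range fun l (i : ι) => ((b l i : ℤ) : E)) = W ∧
      h = Real.log (frameHeight b)

theorem exists_hasHt (W : Submodule E (ι → E))
    (hW : ∀ σ : E ≃+* E, ∀ x ∈ W, (fun i => σ (x i)) ∈ W) : ∃ h : ℝ, HasHt W h := by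
  obtain ⟨b, hb, h1, h2, -⟩ := exists_satFrame W fun σ x hx => hW σ.toRingEquiv x hx
  exact ⟨_, b, hb, h1, h2, rfl⟩

theorem HasHt.isRep {W : Submodule E (ι → E)} {h : ℝ} (hW : HasHt W h) :
    IsRep (fun w => T W w) h := by
  classical
  obtain ⟨b, hb, h1, h2, rfl⟩ := hW
  obtain ⟨c, hc, h3, -⟩ := hb.exists_minorSup_conj (bas W) (bas_li W) ((span_bas W).trans h2.symm)
  refine ⟨c, hc, ?_⟩
  rintro ⟨v, σ⟩
  have h4 : plk (A := absFam) (v, σ) (bas W) =
      absFam.abs (v, σ) c * placeHeight (frameHeight b) v := by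
    rw [← hb.minorSup_eq]
    unfold plk minorSup
    rw [Real.mul_iSup_of_nonneg ((absFam.abs (v, σ)).nonneg _)]
    congr 1
    funext s
    have h5 : mnr (bas W) s = c * ((minor b s : ℤ) : E) := h3 s
    rw [h5, map_mul]
    congr 1
    rw [minor_cast, absFam_abs]
    dsimp only
    rw [map_intCast]
  have hpos := plk_pos (A := absFam) (v, σ) (bas_li W)
  have hcpos : 0 < absFam.abs (v, σ) c := (absFam.abs (v, σ)).pos hc
  have h1le := hb.one_le_frameHeight
  have h1le' : (1 : ℝ) ≤ frameHeight b := by exact_mod_cast h1le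
  show Real.log (plk (A := absFam) (v, σ) (bas W)) = _
  rw [h4]
  rcases v with _ | p
  · simp only [placeHeight, if_true]
    rw [Real.log_mul hcpos.ne' (by positivity)]
  · simp only [placeHeight]
    rw [mul_one]
    simp

/-- Siegel's lemma -/
theorem HasHt.exists_siegel {W : Submodule E (ι → E)} {h : ℝ} (hW : HasHt W h)
    (hn : 0 < finrank E W) : ∃ (x : ι → ℤ) (g : ℝ), (fun i => ((x i : ℤ) : E)) ∈ W ∧ x ≠ 0 ∧
      IsRep (fun w => Real.log (nrm w (fun i => ((x i : ℤ) : E)))) g ∧
      g ≤ Real.log (finrank E W) + h / finrank E W := by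
  classical
  obtain ⟨b, hb, h1, h2, rfl⟩ := hW
  obtain ⟨x, hx, hx0, hle, hprim⟩ := hb.siegel hn (frameHeight b)
    (fun s => natAbs_minor_le_frameHeight b s)
  have hxW : (fun i => ((x i : ℤ) : E)) ∈ W := by
    rw [← h2]
    have hcast : ∀ y ∈ Submodule.span ℤ (Set.range b), (fun i => ((y i : ℤ) : E)) ∈
        Submodule.span E (Set.range fun l (i : ι) => ((b l i : ℤ) : E)) := by
      intro y hy
      induction hy using Submodule.span_induction with
      | mem y hy =>
        obtain ⟨l, rfl⟩ := hy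
        exact Submodule.subset_span ⟨l, rfl⟩
      | zero =>
        have : (fun i : ι => (((0 : ι → ℤ) i : ℤ) : E)) = 0 := by ext; simp
        rw [this]; exact zero_mem _
      | add y z _ _ ihy ihz =>
        have : (fun i : ι => (((y + z) i : ℤ) : E)) =
          (fun i => ((y i : ℤ) : E)) + fun i => ((z i : ℤ) : E) := by ext; simp
        rw [this]; exact add_mem ihy ihz
      | smul a y _ ih =>
        have : (fun i : ι => (((a • y) i : ℤ) : E)) = (a : E) • fun i => ((y i : ℤ) : E) := by
          ext; simp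
        rw [this]; exact Submodule.smul_mem _ _ ih
    exact hcast x hx
  obtain ⟨i₀, hi₀⟩ := Function.ne_iff.mp hx0
  have hne : Nonempty ι := ⟨i₀⟩
  let N : ℝ := ⨆ i, |(x i : ℝ)|
  have hNle : ∀ i, |(x i : ℝ)| ≤ N := fun i =>
    le_ciSup (Set.finite_range (fun i => |(x i : ℝ)|)).bddAbove i
  have hN1 : 1 ≤ N := by
    refine le_trans ?_ (hNle i₀)
    have : (1 : ℤ) ≤ |x i₀| := Int.one_le_abs hi₀
    exact_mod_cast this
  refine ⟨x, Real.log N, hxW, hx0, ⟨1, one_ne_zero, ?_⟩, ?_⟩
  · rintro ⟨v, σ⟩
    rw [map_one, Real.log_one, zero_add]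
    have h3 : ∀ i, absFam.abs (v, σ) ((x i : ℤ) : E) = absE v ((x i : ℤ) : E) := by
      intro i
      rw [absFam_abs]
      dsimp only
      rw [map_intCast]
    rcases v with _ | p
    · have h4 : nrm (A := absFam) (none, σ) (fun i => ((x i : ℤ) : E)) = N := by
        unfold nrm
        congr 1
        funext i
        rw [h3, absE_none_int]
      beta_reduce
      rw [h4]
      simp
    · have h4 : nrm (A := absFam) (some p, σ) (fun i => ((x i : ℤ) : E)) = 1 := by
        apply le_antisymm
        · apply nrm_le zero_le_one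
          intro i
          rw [h3]
          exact absE_some_int_le_one p _
        · obtain ⟨i, hi⟩ := hprim p p.2
          refine le_trans (le_of_eq ?_) (le_nrm (A := absFam) (some p, σ) _ i)
          rw [h3, absE_some_int_eq_one p _ hi]
      beta_reduce
      rw [h4, Real.log_one]
      simp
  · have h3 : N ≤ finrank E W * (frameHeight b : ℝ) ^ ((1 : ℝ) / finrank E W) := by
      apply ciSup_le
      intro i
      exact_mod_cast hle i
    have hq : (0 : ℝ) < frameHeight b := by exact_mod_cast hb.one_le_frameHeight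
    have hn' : (0 : ℝ) < finrank E W := by exact_mod_cast hn
    have h4 := Real.log_le_log (lt_of_lt_of_le one_pos hN1) h3
    rw [Real.log_mul hn'.ne' (Real.rpow_pos_of_pos hq _).ne', Real.log_rpow hq] at h4
    calc Real.log N ≤ _ := h4
      _ = _ := by ring

/-- Northcott for subspaces of bounded height -/
theorem finite_hasHt (n : ℕ) (B : ℝ) :
    {W : Submodule E (ι → E) | finrank E W = n ∧ ∃ h, HasHt W h ∧ h ≤ B}.Finite := by
  classical
  refine (finite_subspaces (ι := ι) E n (Real.exp B)).subset ?_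
  rintro W ⟨rfl, h, ⟨b, hb, h1, h2, rfl⟩, hle⟩
  refine ⟨b, h1, h2, fun s => ?_⟩
  have h3 : (frameHeight b : ℝ) ≤ Real.exp B := by
    rw [← Real.log_le_iff_le_exp]
    · exact hle
    · exact_mod_cast hb.one_le_frameHeight
  refine le_trans ?_ h3
  rw [← Int.cast_abs, Int.abs_eq_natAbs, Int.cast_natCast]
  exact_mod_cast natAbs_minor_le_frameHeight b s

end subspaces

end Fermat.Agent.Heights
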