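import Fermat.Agent.Heights.NormTrick
import Mathlib.Tactic

/-!
# Local sizes of frames

`minorSup v b` is the largest absolute value at `v` of a maximal minor of the frame `b`.
-/

set_option autoImplicit false
set_option linter.unusedSectionVars false

noncomputable section

namespace Fermat.Agent.Heights

open Module

local notation "E" => AlgebraicClosure ℚ

attribute [local instance] isAlgClosure_rat

variable {ι : Type*} {n : ℕ}

section General

variable {R S : Type*} [CommRing R] [CommRing S]

theorem minor_map (f : R →+* S) (b : Fin n → ι → R) (s : Fin n → ι) :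
    minor (fun k i => f (b k i)) s = f (minor b s) := by
  unfold minor
  rw [RingHom.map_det]
  rfl

/-- change of frame. -/
theorem minor_mul (A : Matrix (Fin n) (Fin n) R) (b : Fin n → ι → R) (s : Fin n → ι) :
    minor (fun k i => ∑ l, A k l * b l i) s = A.det * minor b s := by
  unfold minor
  rw [← Matrix.det_mul]
  rfl

theorem minor_perm (b : Fin n → ι → R) (s : Fin n → ι) (σ : Equiv.Perm (Fin n)) :
    minor b (s ∘ σ) = Equiv.Perm.sign σ * minor b s := by
  unfold minor
  have := Matrix.det_permute' σ (Matrix.of fun k j => b k (s j))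
  rw [← this]
  rfl

end General

section Sup

variable [Finite ι] (v : AbsoluteValue (AlgebraicClosure ℚ) ℝ)

/-- the largest absolute value of a maximal minor. -/
def minorSup {ι : Type*} (v : AbsoluteValue (AlgebraicClosure ℚ) ℝ) {n : ℕ}
    (b : Fin n → ι → AlgebraicClosure ℚ) : ℝ :=
  ⨆ s : Fin n → ι, v (minor b s)

theorem bddAbove_minor (b : Fin n → ι → E) : BddAbove (Set.range fun s => v (minor b s)) :=
  (Set.finite_range _).bddAbove

theorem le_minorSup (b : Fin n → ι → E) (s : Fin n → ι) : v (minor b s) ≤ minorSup v b :=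
  le_ciSup (bddAbove_minor v b) s

theorem minorSup_nonneg (b : Fin n → ι → E) : 0 ≤ minorSup v b :=
  Real.iSup_nonneg fun _ => v.nonneg _

theorem minorSup_le (b : Fin n → ι → E) {B : ℝ} (hB : 0 ≤ B) (h : ∀ s, v (minor b s) ≤ B) :
    minorSup v b ≤ B :=
  Real.iSup_le h hB

theorem minorSup_pos (b : Fin n → ι → E) (hb : LinearIndependent E b) : 0 < minorSup v b := by
  cases nonempty_fintype ι
  obtain ⟨s, hs⟩ := exists_minor_ne_zero hb
  exact lt_of_lt_of_le ((AbsoluteValue.pos_iff _).2 hs) (le_minorSup v b s)

theorem minorSup_mul (A : Matrix (Fin n) (Fin n) E) (b : Fin n → ι → E) :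
    minorSup v (fun k i => ∑ l, A k l * b l i) = v A.det * minorSup v b := by
  unfold minorSup
  rw [Real.mul_iSup_of_nonneg (v.nonneg _)]
  congr 1
  funext s
  rw [minor_mul, map_mul]

end Sup

theorem exists_matrix_of_span_eq [Finite ι] {k : Type*} [Field k] {b b' : Fin n → ι → k}
    (hb' : LinearIndependent k b')
    (h : Submodule.span k (Set.range b') = Submodule.span k (Set.range b)) :
    ∃ A : Matrix (Fin n) (Fin n) k, A.det ≠ 0 ∧ b' = fun m i => ∑ l, A m l * b l i := by
  have h1 : ∀ m, ∃ c : Fin n → k, ∑ l, c l • b l = b' m := by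
    intro m
    have : b' m ∈ Submodule.span k (Set.range b) := h ▸ Submodule.subset_span ⟨m, rfl⟩
    rwa [Submodule.mem_span_range_iff_exists_fun] at this
  choose A hA using h1
  have hAb : b' = fun m i => ∑ l, (Matrix.of A) m l * b l i := by
    funext m i
    rw [← hA m, Finset.sum_apply]
    rfl
  refine ⟨Matrix.of A, ?_, hAb⟩
  intro h0
  cases nonempty_fintype ι
  obtain ⟨s, hs⟩ := exists_minor_ne_zero hb'
  apply hs
  rw [hAb, minor_mul, h0, zero_mul]

/-- the height of an integral frame: the largest absolute value of a minor. -/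
def frameHeight [Fintype ι] (b : Fin n → ι → ℤ) : ℕ :=
  Finset.univ.sup fun s : Fin n → ι => (minor b s).natAbs

section SatFrame

variable [Fintype ι] [DecidableEq ι] {b : Fin n → ι → ℤ}

theorem natAbs_minor_le_frameHeight (b : Fin n → ι → ℤ) (s : Fin n → ι) :
    (minor b s).natAbs ≤ frameHeight b :=
  Finset.le_sup (f := fun s : Fin n → ι => (minor b s).natAbs) (Finset.mem_univ s)

theorem SatFrame.one_le_frameHeight (hb : SatFrame b) : 1 ≤ frameHeight b := by
  obtain ⟨s, hs⟩ := hb.exists_minor_ne_zero
  exact (Nat.one_le_iff_ne_zero.2 (Int.natAbs_ne_zero.2 hs)).trans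
    (natAbs_minor_le_frameHeight b s)

theorem minor_cast (b : Fin n → ι → ℤ) (s : Fin n → ι) :
    minor (fun k i => ((b k i : ℤ) : E)) s = ((minor b s : ℤ) : E) :=
  minor_map (Int.castRingHom E) b s

theorem SatFrame.minorSup_prime (hb : SatFrame b) (p : Nat.Primes) :
    minorSup (absE (some p)) (fun k i => ((b k i : ℤ) : E)) = 1 := by
  apply le_antisymm
  · refine minorSup_le _ _ zero_le_one fun s => ?_
    rw [minor_cast]
    exact absE_some_int_le_one p _
  · obtain ⟨s, hs⟩ := hb.exists_not_dvd_minor p.2
    refine le_trans (le_of_eq ?_) (le_minorSup _ _ s)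
    rw [minor_cast, absE_some_int_eq_one p _ hs]

theorem minorSup_none (b : Fin n → ι → ℤ) :
    minorSup (absE none) (fun k i => ((b k i : ℤ) : E)) = frameHeight b := by
  apply le_antisymm
  · refine minorSup_le _ _ (Nat.cast_nonneg _) fun s => ?_
    rw [minor_cast, absE_none_int, ← Int.cast_abs, Int.abs_eq_natAbs, Int.cast_natCast]
    exact_mod_cast natAbs_minor_le_frameHeight b s
  · by_cases hne : Nonempty (Fin n → ι)
    · obtain ⟨s, _, hs⟩ := Finset.exists_mem_eq_sup (Finset.univ : Finset (Fin n → ι))
        Finset.univ_nonempty (fun s : Fin n → ι => (minor b s).natAbs)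
      unfold frameHeight
      rw [hs]
      refine le_trans (le_of_eq ?_) (le_minorSup _ _ s)
      rw [minor_cast, absE_none_int, ← Int.cast_abs, Int.abs_eq_natAbs, Int.cast_natCast]
    · rw [not_nonempty_iff] at hne
      have : frameHeight b = 0 := by
        unfold frameHeight
        simp
      rw [this]
      simpa using minorSup_nonneg _ _

/-- the local size of a saturated frame at all places. -/
def placeHeight (H : ℕ) : Option Nat.Primes → ℝ
  | none => H
  | some _ => 1

theorem SatFrame.minorSup_eq (hb : SatFrame b) (v : Option Nat.Primes) :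
    minorSup (absE v) (fun k i => ((b k i : ℤ) : E)) = placeHeight (frameHeight b) v := by
  cases v with
  | none => exact minorSup_none b
  | some p => exact hb.minorSup_prime p

/-- the local sizes of all the conjugates of an arbitrary basis `b'` of a subspace with saturated
integral frame `b`. -/
theorem SatFrame.exists_minorSup_conj (hb : SatFrame b) (b' : Fin n → ι → E)
    (hb' : LinearIndependent E b')
    (h : Submodule.span E (Set.range b') =
      Submodule.span E (Set.range fun k i => ((b k i : ℤ) : E))) :
    ∃ c : E, c ≠ 0 ∧ (∀ s, minor b' s = c * ((minor b s : ℤ) : E)) ∧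
      ∀ v, ∀ σ : E ≃ₐ[ℚ] E, minorSup (absE v) (fun k i => σ (b' k i)) =
        absE v (σ c) * placeHeight (frameHeight b) v := by
  obtain ⟨A, hA, rfl⟩ := exists_matrix_of_span_eq (b := fun k i => ((b k i : ℤ) : E)) hb' h
  refine ⟨A.det, hA, fun s => ?_, fun v σ => ?_⟩
  · rw [minor_mul, minor_cast]
  · have h1 : (fun k i => σ (∑ l, A k l * ((b l i : ℤ) : E))) =
        fun k i => ∑ l, (A.map σ) k l * ((b l i : ℤ) : E) := by
      funext k i
      rw [map_sum]
      refine Finset.sum_congr rfl fun l _ => ?_
      rw [map_mul, map_intCast]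
      rfl
    rw [h1, minorSup_mul, hb.minorSup_eq]
    congr 2
    have h2 := RingHom.map_det (σ : E →+* E) A
    rw [RingHom.coe_coe] at h2
    rw [h2]
    rfl

end SatFrame

end Fermat.Agent.Heights
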