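import Fermat.Agent.Heights.Dist
import Mathlib.LinearAlgebra.Dual.Lemmas
import Mathlib.Algebra.Module.Submodule.Bilinear

/-!
# Bilinear maps: boundedness, Gauss lemma, bounded surjectivity on algebraic families
-/

set_option autoImplicit false

noncomputable section

open scoped NNReal
open Module Submodule

namespace Fermat.Agent.Heights

variable {E : Type*} [Field E] (A : AbsFam E) {ι κ : Type*}

section

variable [Fintype ι] [DecidableEq ι]

theorem bilin_apply (μ : (ι → E) →ₗ[E] (ι → E) →ₗ[E] (κ → E)) (x y : ι → E) (k : κ) :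
    μ x y k = ∑ i, ∑ j, x i * y j * μ (Pi.single i 1) (Pi.single j 1) k := by
  have hx : x = ∑ i, x i • (Pi.single i (1 : E) : ι → E) := by
    rw [pi_eq_sum_univ' x]
    simp [Pi.single_apply, Finset.sum_apply]
  have hy : y = ∑ i, y i • (Pi.single i (1 : E) : ι → E) := by
    rw [pi_eq_sum_univ' y]
    simp [Pi.single_apply, Finset.sum_apply]
  conv_lhs => rw [hx, hy]
  simp only [map_sum, map_smul, LinearMap.sum_apply, LinearMap.smul_apply, Finset.sum_apply,
    Pi.smul_apply, smul_eq_mul, Finset.mul_sum]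
  rw [Finset.sum_comm]
  refine Finset.sum_congr rfl fun i _ => Finset.sum_congr rfl fun j _ => ?_
  ring

theorem isPoly_bilin {τ : Type*} (μ : (ι → E) →ₗ[E] (ι → E) →ₗ[E] (κ → E))
    {f g : ι → (τ → E) → E} (hf : ∀ i, IsPoly (f i)) (hg : ∀ i, IsPoly (g i)) (k : κ) :
    IsPoly (fun z => μ (fun i => f i z) (fun i => g i z) k) := by
  rw [show (fun z => μ (fun i => f i z) (fun i => g i z) k) = fun z => ∑ i, ∑ j,
    f i z * g j z * μ (Pi.single i 1) (Pi.single j 1) k from funext fun z => bilin_apply μ _ _ k]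
  exact IsPoly.sum _ fun i _ => IsPoly.sum _ fun j _ => ((hf i).mul (hg j)).mul (IsPoly.const _)

omit [DecidableEq ι] in
theorem isPoly_dual {τ : Type*} (φ : Dual E (ι → E)) {f : ι → (τ → E) → E}
    (hf : ∀ i, IsPoly (f i)) : IsPoly (fun z => φ (fun i => f i z)) := by
  classical
  have : ∀ x : ι → E, φ x = ∑ i, x i * φ (Pi.single i 1) := by
    intro x
    have hx : x = ∑ i, x i • (Pi.single i (1 : E) : ι → E) := by
      rw [pi_eq_sum_univ' x]
      simp [Pi.single_apply, Finset.sum_apply]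
    conv_lhs => rw [hx]
    simp
  rw [show (fun z => φ (fun i => f i z)) = fun z => ∑ i, f i z * φ (Pi.single i 1) from
    funext fun z => this _]
  exact IsPoly.sum _ fun i _ => (hf i).mul (IsPoly.const _)

end

/-- (M) bilinear maps are uniformly bounded. -/
theorem exists_bilin_le [Finite ι] [Finite κ] (μ : (ι → E) →ₗ[E] (ι → E) →ₗ[E] (κ → E)) :
    ∃ C : ACon A, ∀ (w : A.Pt) (x y : ι → E),
      nrm w (μ x y) ≤ cst A C w * (nrm w x * nrm w y) := by
  have := Fintype.ofFinite ι
  classical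
  obtain ⟨C, hC⟩ := exists_const_le A
    (fun p : ι × ι × κ => μ (Pi.single p.1 1) (Pi.single p.2.1 1) p.2.2)
  obtain ⟨D, hD⟩ := exists_sum_le A (ι × ι)
  refine ⟨D + C, fun w x y => ?_⟩
  have hB : 0 ≤ nrm w x * nrm w y := mul_nonneg (nrm_nonneg _ _) (nrm_nonneg _ _)
  apply nrm_le (mul_nonneg (cst_pos _ _).le hB)
  intro k
  rw [bilin_apply, ← Fintype.sum_prod_type', cst_add, mul_assoc]
  apply hD w _ _ (mul_nonneg (cst_pos _ _).le hB)
  rintro ⟨i, j⟩
  rw [map_mul, map_mul, mul_comm]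
  exact mul_le_mul (hC w (i, j, k))
    (mul_le_mul (le_nrm w x i) (le_nrm w y j) ((A.abs w).nonneg _) (nrm_nonneg _ _))
    (mul_nonneg ((A.abs w).nonneg _) ((A.abs w).nonneg _)) (cst_pos _ _).le

theorem mem_iff_forall_dual [Finite ι] (L : Submodule E (ι → E)) (x : ι → E) :
    x ∈ L ↔ ∀ φ : L.dualAnnihilator, (φ : Dual E (ι → E)) x = 0 := by
  constructor
  · intro hx φ
    exact (mem_dualAnnihilator _).mp φ.2 x hx
  · intro h
    rw [← Subspace.dualAnnihilator_dualCoannihilator_eq (W := L), mem_dualCoannihilator]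
    exact fun φ hφ => h ⟨φ, hφ⟩

/-- (GL) Gauss lemma: a bilinear map without zero divisors on `L × L'` is uniformly bounded below. -/
theorem exists_gauss [IsAlgClosed E] [Finite ι] [Finite κ]
    (μ : (ι → E) →ₗ[E] (ι → E) →ₗ[E] (κ → E)) (L L' : Submodule E (ι → E))
    (h : ∀ x ∈ L, ∀ y ∈ L', x ≠ 0 → y ≠ 0 → μ x y ≠ 0) :
    ∃ C : ACon A, ∀ (w : A.Pt), ∀ x ∈ L, ∀ y ∈ L',
      nrm w x * nrm w y ≤ cst A C w * nrm w (μ x y) := by
  have := Fintype.ofFinite ι
  classical
  -- the case where the entries are bounded by 1 and two of them are equal to one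
  have key : ∀ i j : ι, ∃ C : ACon A, ∀ (w : A.Pt), ∀ x ∈ L, ∀ y ∈ L', x i = 1 → y j = 1 →
      (∀ i, A.abs w (x i) ≤ 1) → (∀ i, A.abs w (y i) ≤ 1) → 1 ≤ cst A C w * nrm w (μ x y) := by
    intro i j
    let P : (Bool ⊕ (L.dualAnnihilator ⊕ L'.dualAnnihilator)) → (ι ⊕ ι → E) → E :=
      Sum.elim (fun b => bif b then (fun z => z (Sum.inl i) - 1) else (fun z => z (Sum.inr j) - 1))
        (Sum.elim (fun φ z => (φ : Dual E (ι → E)) (fun i => z (Sum.inl i)))
          (fun φ z => (φ : Dual E (ι → E)) (fun i => z (Sum.inr i))))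
    let Q : κ → (ι ⊕ ι → E) → E :=
      fun k z => μ (fun i => z (Sum.inl i)) (fun i => z (Sum.inr i)) k
    obtain ⟨C, hC⟩ := exists_uniform_lower_bound A P Q (by
      rintro (b | φ | φ)
      · cases b
        · exact (IsPoly.coord _).sub (IsPoly.const _)
        · exact (IsPoly.coord _).sub (IsPoly.const _)
      · exact isPoly_dual _ fun i => IsPoly.coord _
      · exact isPoly_dual _ fun i => IsPoly.coord _) (fun k =>
        isPoly_bilin μ (fun i => IsPoly.coord _) (fun i => IsPoly.coord _) k) (by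
        intro z hz
        have h1 : z (Sum.inl i) = 1 := by
          have := hz (Sum.inl true); simpa [P, sub_eq_zero] using this
        have h2 : z (Sum.inr j) = 1 := by
          have := hz (Sum.inl false); simpa [P, sub_eq_zero] using this
        have h3 : (fun i => z (Sum.inl i)) ∈ L :=
          (mem_iff_forall_dual L _).mpr fun φ => hz (Sum.inr (Sum.inl φ))
        have h4 : (fun i => z (Sum.inr i)) ∈ L' :=
          (mem_iff_forall_dual L' _).mpr fun φ => hz (Sum.inr (Sum.inr φ))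
        have h5 := h _ h3 _ h4 (fun h0 => by
          have := congrFun h0 i; simp [h1] at this) (fun h0 => by
          have := congrFun h0 j; simp [h2] at this)
        obtain ⟨k, hk⟩ := Function.ne_iff.mp h5
        exact ⟨k, hk⟩)
    refine ⟨C, fun w x hx y hy hxi hyj hx1 hy1 => ?_⟩
    obtain ⟨k, hk⟩ := hC w (Sum.elim x y) (by
      rintro (b | φ | φ)
      · cases b
        · simp [P, hyj]
        · simp [P, hxi]
      · exact (mem_iff_forall_dual L x).mp hx φ
      · exact (mem_iff_forall_dual L' y).mp hy φ) (by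
      rintro (i | i)
      · exact hx1 i
      · exact hy1 i)
    exact hk.trans (mul_le_mul_of_nonneg_left (le_nrm w (μ x y) k) (cst_pos _ _).le)
  choose C hC using key
  refine ⟨∑ p : ι × ι, C p.1 p.2, fun w x hx y hy => ?_⟩
  rcases eq_or_ne x 0 with rfl | hx0
  · have : nrm w (0 : ι → E) = 0 :=
      le_antisymm (nrm_le le_rfl (by simp)) (nrm_nonneg _ _)
    rw [this, zero_mul]
    exact mul_nonneg (cst_pos _ _).le (nrm_nonneg _ _)
  rcases eq_or_ne y 0 with rfl | hy0
  · have : nrm w (0 : ι → E) = 0 :=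
      le_antisymm (nrm_le le_rfl (by simp)) (nrm_nonneg _ _)
    rw [this, mul_zero]
    exact mul_nonneg (cst_pos _ _).le (nrm_nonneg _ _)
  -- choose maximal coordinates
  obtain ⟨i₀, -⟩ := Function.ne_iff.mp hx0
  have : Nonempty ι := ⟨i₀⟩
  obtain ⟨i, hi⟩ := Finite.exists_max (fun i => A.abs w (x i))
  obtain ⟨j, hj⟩ := Finite.exists_max (fun i => A.abs w (y i))
  have hnx : nrm w x = A.abs w (x i) :=
    le_antisymm (nrm_le ((A.abs w).nonneg _) hi) (le_nrm w x i)
  have hny : nrm w y = A.abs w (y j) :=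
    le_antisymm (nrm_le ((A.abs w).nonneg _) hj) (le_nrm w y j)
  have hxp : 0 < A.abs w (x i) := hnx ▸ nrm_pos w hx0
  have hyp : 0 < A.abs w (y j) := hny ▸ nrm_pos w hy0
  have hxi : x i ≠ 0 := (A.abs w).pos_iff.mp hxp
  have hyj : y j ≠ 0 := (A.abs w).pos_iff.mp hyp
  have h1 := hC i j w ((x i)⁻¹ • x) (smul_mem _ _ hx) ((y j)⁻¹ • y) (smul_mem _ _ hy)
    (by simp [hxi]) (by simp [hyj])
    (fun k => by
      rw [Pi.smul_apply, smul_eq_mul, map_mul, map_inv₀, inv_mul_le_iff₀ hxp, mul_one]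
      exact hi k)
    (fun k => by
      rw [Pi.smul_apply, smul_eq_mul, map_mul, map_inv₀, inv_mul_le_iff₀ hyp, mul_one]
      exact hj k)
  rw [map_smul, map_smul, LinearMap.smul_apply, nrm_smul, nrm_smul, map_inv₀, map_inv₀] at h1
  have h2 : A.abs w (x i) * A.abs w (y j) ≤ cst A (C i j) w * nrm w (μ x y) := by
    have h3 := mul_le_mul_of_nonneg_left h1 (mul_pos hxp hyp).le
    have h4 : A.abs w (x i) * A.abs w (y j) * (cst A (C i j) w *
        ((A.abs w (y j))⁻¹ * ((A.abs w (x i))⁻¹ * nrm w (μ x y)))) =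
        cst A (C i j) w * nrm w (μ x y) := by
      field_simp
    rwa [mul_one, h4] at h3
  rw [hnx, hny]
  exact h2.trans (mul_le_mul_of_nonneg_right
    (cst_le_sum (fun p : ι × ι => C p.1 p.2) (i, j) w) (nrm_nonneg _ _))

/-- algebraic families of subspaces -/
def IsAlg (n : ℕ) (S : Set (Submodule E (ι → E))) : Prop :=
  (∀ W ∈ S, finrank E W = n) ∧ ∃ P : Set ((Fin n × ι → E) → E), (∀ p ∈ P, IsPoly p) ∧
    ∀ x : Fin n → ι → E, LinearIndependent E x →
      (span E (Set.range x) ∈ S ↔ ∀ p ∈ P, p (fun q => x q.1 q.2) = 0)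

theorem map₂_span_range {n n' : ℕ} (μ : (ι → E) →ₗ[E] (ι → E) →ₗ[E] (κ → E))
    (x : Fin n → ι → E) (y : Fin n' → ι → E) :
    map₂ μ (span E (Set.range x)) (span E (Set.range y)) =
      span E (Set.range fun p : Fin n × Fin n' => μ (x p.1) (y p.2)) := by
  rw [map₂_span_span]
  congr 1
  ext z
  constructor
  · rintro ⟨_, ⟨i, rfl⟩, _, ⟨j, rfl⟩, rfl⟩
    exact ⟨(i, j), rfl⟩
  · rintro ⟨⟨i, j⟩, rfl⟩
    exact ⟨_, ⟨i, rfl⟩, _, ⟨j, rfl⟩, rfl⟩

/-- (SM) bounded surjectivity of a bilinear map on algebraic families, if the span of the products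
has constant dimension. -/
theorem exists_surj [IsAlgClosed E] [Finite ι] [Finite κ]
    (μ : (ι → E) →ₗ[E] (ι → E) →ₗ[E] (κ → E)) {n n' d : ℕ} {S S' : Set (Submodule E (ι → E))}
    (hS : IsAlg n S) (hS' : IsAlg n' S')
    (hd : ∀ W ∈ S, ∀ W' ∈ S', finrank E (map₂ μ W W') = d) :
    ∃ C : ACon A, ∀ (w : A.Pt), ∀ W ∈ S, ∀ W' ∈ S', ∀ e ∈ map₂ μ W W',
      ∃ a a' : Fin d → ι → E, (∀ k, a k ∈ W) ∧ (∀ k, a' k ∈ W') ∧ e = ∑ k, μ (a k) (a' k) ∧
        ∀ k, nrm w (a k) * nrm w (a' k) ≤ cst A C w * nrm w e := by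
  have := Fintype.ofFinite ι
  have := Fintype.ofFinite κ
  classical
  obtain ⟨hSn, P₁, hP₁, hP₁'⟩ := hS
  obtain ⟨hSn', P₂, hP₂, hP₂'⟩ := hS'
  let τ := (Fin n × ι) ⊕ (Fin n' × ι)
  let X : (τ → E) → Fin n → ι → E := fun z k i => z (Sum.inl (k, i))
  let Y : (τ → E) → Fin n' → ι → E := fun z k i => z (Sum.inr (k, i))
  let V : (τ → E) → (Fin n × Fin n') → κ → E := fun z p => μ (X z p.1) (Y z p.2)
  -- the uniform lower bound, in echelon position
  have key : ∀ (s : Fin n → ι) (s' : Fin n' → ι), ∃ C : ACon A, ∀ (w : A.Pt) (z : τ → E),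
      (∀ k j, X z k (s j) = if k = j then 1 else 0) →
      (∀ k j, Y z k (s' j) = if k = j then 1 else 0) →
      (∀ p ∈ P₁, p (fun q => X z q.1 q.2) = 0) → (∀ p ∈ P₂, p (fun q => Y z q.1 q.2) = 0) →
      (∀ i, A.abs w (z i) ≤ 1) → ∃ (a : Fin d → Fin n × Fin n') (r : Fin d → κ),
        1 ≤ cst A C w * A.abs w (mnr (fun k => V z (a k)) r) := by
    intro s s'
    let P : ((Fin n × Fin n) ⊕ (Fin n' × Fin n')) ⊕ (P₁ ⊕ P₂) → (τ → E) → E :=
      Sum.elim
        (Sum.elim (fun p z => X z p.1 (s p.2) - if p.1 = p.2 then 1 else 0)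
          (fun p z => Y z p.1 (s' p.2) - if p.1 = p.2 then 1 else 0))
        (Sum.elim (fun p z => (p : (Fin n × ι → E) → E) (fun q => X z q.1 q.2))
          (fun p z => (p : (Fin n' × ι → E) → E) (fun q => Y z q.1 q.2)))
    let Q : ((Fin d → Fin n × Fin n') × (Fin d → κ)) → (τ → E) → E :=
      fun b z => mnr (fun k => V z (b.1 k)) b.2
    obtain ⟨C, hC⟩ := exists_uniform_lower_bound A P Q (by
      rintro ((p | p) | (p | p))
      · exact (IsPoly.coord _).sub (IsPoly.const _)
      · exact (IsPoly.coord _).sub (IsPoly.const _)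
      · exact (hP₁ p p.2).comp Sum.inl
      · exact (hP₂ p p.2).comp Sum.inr) (by
      rintro ⟨a, r⟩
      exact IsPoly.det fun i j => isPoly_bilin μ (fun i => IsPoly.coord _)
        (fun i => IsPoly.coord _) _) (by
      intro z hz
      have hX : ∀ k j, X z k (s j) = if k = j then 1 else 0 := fun k j =>
        sub_eq_zero.mp (hz (Sum.inl (Sum.inl (k, j))))
      have hY : ∀ k j, Y z k (s' j) = if k = j then 1 else 0 := fun k j =>
        sub_eq_zero.mp (hz (Sum.inl (Sum.inr (k, j))))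
      have hXli : LinearIndependent E (X z) := by
        apply linearIndependent_of_mnr_ne_zero (s := s)
        have : (Matrix.of fun k j => X z k (s j)) = 1 := by
          ext k j; simp [hX, Matrix.one_apply]
        unfold mnr
        rw [this, Matrix.det_one]
        exact one_ne_zero
      have hYli : LinearIndependent E (Y z) := by
        apply linearIndependent_of_mnr_ne_zero (s := s')
        have : (Matrix.of fun k j => Y z k (s' j)) = 1 := by
          ext k j; simp [hY, Matrix.one_apply]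
        unfold mnr
        rw [this, Matrix.det_one]
        exact one_ne_zero
      have hXS : span E (Set.range (X z)) ∈ S :=
        (hP₁' _ hXli).mpr fun p hp => hz (Sum.inr (Sum.inl ⟨p, hp⟩))
      have hYS : span E (Set.range (Y z)) ∈ S' :=
        (hP₂' _ hYli).mpr fun p hp => hz (Sum.inr (Sum.inr ⟨p, hp⟩))
      have hfin := hd _ hXS _ hYS
      rw [map₂_span_range] at hfin
      obtain ⟨a, hali, -⟩ := exists_index _ hfin
      obtain ⟨r, hr⟩ := exists_mnr_ne_zero hali
      exact ⟨(a, r), hr⟩)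
    refine ⟨C, fun w z hX hY h1 h2 hz => ?_⟩
    obtain ⟨⟨a, r⟩, har⟩ := hC w z (by
      rintro ((p | p) | (p | p))
      · exact sub_eq_zero.mpr (hX _ _)
      · exact sub_eq_zero.mpr (hY _ _)
      · exact h1 p p.2
      · exact h2 p p.2) hz
    exact ⟨a, r, har⟩
  choose C hC using key
  obtain ⟨Cm, hCm⟩ := exists_bilin_le A μ
  obtain ⟨Cd, hCd⟩ := exists_det_le A d
  refine ⟨(∑ p : (Fin n → ι) × (Fin n' → ι), C p.1 p.2) + (Cd + d • Cm),
    fun w W hW W' hW' e he => ?_⟩
  -- echelon bases of W, W'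
  obtain ⟨x₀, hx₀, hx₀W⟩ := exists_basis_fin (hSn W hW)
  obtain ⟨y₀, hy₀, hy₀W⟩ := exists_basis_fin (hSn' W' hW')
  obtain ⟨s, -, x, -, -, -, -, hxs, hxsp, hx1⟩ := exists_echelon_le w hx₀
  obtain ⟨s', -, y, -, -, -, -, hys, hysp, hy1⟩ := exists_echelon_le w hy₀
  have hxW : span E (Set.range x) = W := hxsp.trans hx₀W
  have hyW : span E (Set.range y) = W' := hysp.trans hy₀W
  have hxli : LinearIndependent E x := by
    apply linearIndependent_of_mnr_ne_zero (s := s)
    have : (Matrix.of fun k j => x k (s j)) = 1 := by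
      ext k j; simp [hxs, Matrix.one_apply]
    unfold mnr
    rw [this, Matrix.det_one]
    exact one_ne_zero
  have hyli : LinearIndependent E y := by
    apply linearIndependent_of_mnr_ne_zero (s := s')
    have : (Matrix.of fun k j => y k (s' j)) = 1 := by
      ext k j; simp [hys, Matrix.one_apply]
    unfold mnr
    rw [this, Matrix.det_one]
    exact one_ne_zero
  let z : τ → E := Sum.elim (fun q => x q.1 q.2) (fun q => y q.1 q.2)
  obtain ⟨a, r, har⟩ := hC s s' w z hxs hys
    ((hP₁' x hxli).mp (hxW.symm ▸ hW)) ((hP₂' y hyli).mp (hyW.symm ▸ hW'))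
    (by rintro (q | q); exacts [hx1 _ _, hy1 _ _])
  set v : Fin d → κ → E := fun k => V z (a k) with hv
  have hvdef : ∀ k, v k = μ (x (a k).1) (y (a k).2) := fun k => rfl
  have hdet : mnr v r ≠ 0 := by
    intro h0
    rw [h0, map_zero, mul_zero] at har
    exact absurd har (not_le.mpr one_pos)
  have hvli : LinearIndependent E v := linearIndependent_of_mnr_ne_zero hdet
  have hxmem : ∀ k, x k ∈ W := fun k => hxW ▸ subset_span ⟨k, rfl⟩
  have hymem : ∀ k, y k ∈ W' := fun k => hyW ▸ subset_span ⟨k, rfl⟩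
  have hvspan : span E (Set.range v) = map₂ μ W W' :=
    span_eq_of_mem_of_finrank hvli (fun k => apply_mem_map₂ μ (hxmem _) (hymem _))
      (hd W hW W' hW')
  rw [← hvspan] at he
  obtain ⟨β, hβ⟩ := (mem_span_range_iff_exists_fun E).mp he
  -- entries of v
  have hventry : ∀ k j, A.abs w (v k j) ≤ cst A Cm w := by
    intro k j
    calc _ ≤ nrm w (v k) := le_nrm w _ _
      _ ≤ cst A Cm w * (nrm w (x (a k).1) * nrm w (y (a k).2)) := hCm w _ _
      _ ≤ cst A Cm w * (1 * 1) := by
          apply mul_le_mul_of_nonneg_left _ (cst_pos _ _).le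
          exact mul_le_mul (nrm_le zero_le_one (hx1 _)) (nrm_le zero_le_one (hy1 _))
            (nrm_nonneg _ _) zero_le_one
      _ = _ := by ring
  -- Cramer
  have hcramer : ∀ k, β k * mnr v r =
      ((Matrix.of fun i j => v i (r j)).updateRow k (fun j => e (r j))).det := by
    intro k
    have h1 := Matrix.det_updateRow_sum (Matrix.of fun i j => v i (r j)) k β
    rw [smul_eq_mul] at h1
    rw [show mnr v r = (Matrix.of fun i j => v i (r j)).det from rfl, ← h1]
    congr 2
    funext j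
    rw [← hβ]
    simp [Finset.sum_apply]
  have hβle : ∀ k, A.abs w (β k) ≤
      cst A ((∑ p : (Fin n → ι) × (Fin n' → ι), C p.1 p.2) + (Cd + d • Cm)) w * nrm w e := by
    intro k
    have h1 : A.abs w (β k * mnr v r) ≤ cst A Cd w * (nrm w e * cst A Cm w ^ d) := by
      rw [hcramer k]
      have h2 := hCd w ((Matrix.of fun i j => v i (r j)).updateRow k (fun j => e (r j)))
        (fun i => if i = k then nrm w e else cst A Cm w) (by
          intro i; split_ifs
          · exact nrm_nonneg _ _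
          · exact (cst_pos _ _).le) (by
          intro i j
          rw [Matrix.updateRow_apply]
          split_ifs
          · exact le_nrm w e _
          · exact hventry i _)
      refine h2.trans (mul_le_mul_of_nonneg_left ?_ (cst_pos _ _).le)
      rw [← Finset.mul_prod_erase Finset.univ _ (Finset.mem_univ k), if_pos rfl]
      apply mul_le_mul_of_nonneg_left _ (nrm_nonneg _ _)
      rw [Finset.prod_congr rfl (g := fun _ => cst A Cm w) (fun i hi => by
        rw [if_neg (Finset.ne_of_mem_erase hi)]), Finset.prod_const]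
      exact pow_le_pow_right₀ (one_le_cst _ _) (by
        calc _ ≤ (Finset.univ : Finset (Fin d)).card := Finset.card_le_card (Finset.erase_subset _ _)
          _ = d := by simp)
    have h3 : 1 ≤ cst A (∑ p : (Fin n → ι) × (Fin n' → ι), C p.1 p.2) w * A.abs w (mnr v r) :=
      har.trans (mul_le_mul_of_nonneg_right
        (cst_le_sum (fun p : (Fin n → ι) × (Fin n' → ι) => C p.1 p.2) (s, s') w)
        ((A.abs w).nonneg _))
    rw [map_mul] at h1
    calc A.abs w (β k) = A.abs w (β k) * 1 := (mul_one _).symm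
      _ ≤ A.abs w (β k) * (cst A (∑ p : (Fin n → ι) × (Fin n' → ι), C p.1 p.2) w *
            A.abs w (mnr v r)) := mul_le_mul_of_nonneg_left h3 ((A.abs w).nonneg _)
      _ = cst A (∑ p : (Fin n → ι) × (Fin n' → ι), C p.1 p.2) w *
            (A.abs w (β k) * A.abs w (mnr v r)) := by ring
      _ ≤ cst A (∑ p : (Fin n → ι) × (Fin n' → ι), C p.1 p.2) w *
            (cst A Cd w * (nrm w e * cst A Cm w ^ d)) :=
          mul_le_mul_of_nonneg_left h1 (cst_pos _ _).le
      _ = _ := by rw [cst_add, cst_add, cst_nsmul]; ring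
  refine ⟨fun k => β k • x (a k).1, fun k => y (a k).2, fun k => smul_mem _ _ (hxmem _),
    fun k => hymem _, ?_, fun k => ?_⟩
  · rw [← hβ]
    refine Finset.sum_congr rfl fun k _ => ?_
    rw [map_smul, LinearMap.smul_apply, hvdef]
  · rw [nrm_smul]
    calc _ ≤ A.abs w (β k) * 1 * 1 := by
          apply mul_le_mul _ (nrm_le zero_le_one (hy1 _)) (nrm_nonneg _ _)
            (mul_nonneg ((A.abs w).nonneg _) zero_le_one)
          exact mul_le_mul_of_nonneg_left (nrm_le zero_le_one (hx1 _)) ((A.abs w).nonneg _)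
      _ = A.abs w (β k) := by ring
      _ ≤ _ := hβle k

end Fermat.Agent.Heights
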